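import Fermat.Agent.Duality.Local.NormIndex

/-!
# Unramified extensions of locally compact ultrametric fields

If the Galois group acts faithfully on the residue field then it is cyclic, the value group does not
grow, and a nonzero element of the base field is a norm iff its absolute value is an `n`-th power.
-/

set_option autoImplicit false

noncomputable section

open Polynomial Module

namespace Fermat.Agent.Duality.Local

section Uniformizer

variable (K : Type) [NontriviallyNormedField K] [IsUltrametricDist K] [ProperSpace K]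

/-- An element of maximal absolute value below one generates the value group. -/
theorem exists_uniformizer : ∃ π : K, 0 < ‖π‖ ∧ ‖π‖ < 1 ∧
    ∀ x : K, x ≠ 0 → ∃ k : ℤ, ‖x‖ = ‖π‖ ^ k := by
  obtain ⟨z, hz0, hz1⟩ := NormedField.exists_norm_lt_one K
  have hcl : IsClosed {x : K | ‖x‖ < 1} := by
    have h : {x : K | ‖x‖ < 1} = Metric.ball 0 1 := by ext x; simp
    rw [h]
    exact (IsUltrametricDist.isClopen_ball (0 : K) 1).1
  have hcpt : IsCompact {x : K | ‖x‖ < 1} :=
    Metric.isCompact_of_isClosed_isBounded hcl (Metric.isBounded_ball.subset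
      (fun x hx => (mem_ball_zero_iff.mpr hx : x ∈ Metric.ball 0 1)))
  obtain ⟨π, hπ1, hmax⟩ := hcpt.exists_isMaxOn ⟨z, hz1⟩ continuous_norm.continuousOn
  have hπ0 : 0 < ‖π‖ := hz0.trans_le (hmax hz1)
  refine ⟨π, hπ0, hπ1, fun x hx => ?_⟩
  obtain ⟨n, hn1, hn2⟩ := exists_mem_Ioc_zpow (x := ‖x‖) (norm_pos_iff.mpr hx)
    ((one_lt_inv₀ hπ0).mpr hπ1)
  refine ⟨-(n + 1), le_antisymm (by rwa [zpow_neg, ← inv_zpow]) ?_⟩
  by_contra h
  rw [not_le] at h
  have hπne : π ≠ 0 := norm_pos_iff.mp hπ0
  have hy : ‖x * π ^ (n + 1)‖ < 1 := by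
    rw [norm_mul, norm_zpow]
    have h2 := mul_lt_mul_of_pos_right h (zpow_pos hπ0 (n + 1))
    rwa [← zpow_add₀ hπ0.ne', neg_add_cancel, zpow_zero] at h2
  have h1 : ‖x * π ^ (n + 1)‖ ≤ ‖π‖ := hmax hy
  rw [norm_mul, norm_zpow, zpow_add_one₀ hπ0.ne', ← mul_assoc] at h1
  have h3 : ‖x‖ * ‖π‖ ^ n ≤ 1 := le_of_mul_le_mul_right (by rwa [one_mul]) hπ0
  rw [inv_zpow, inv_lt_iff_one_lt_mul₀ (zpow_pos hπ0 n), mul_comm] at hn1
  rw [mul_comm] at h3
  linarith

end Uniformizer

section Polynomials

variable {M : Type} [NormedField M] [IsUltrametricDist M]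

/-- A polynomial of small degree that is small at many residually distinct points has small
coefficients. -/
theorem norm_coeff_lt_one (S : Finset M) (hS1 : ∀ a ∈ S, ‖a‖ ≤ 1)
    (hS : ∀ a ∈ S, ∀ b ∈ S, a ≠ b → ‖a - b‖ = 1) :
    ∀ P : M[X], P.degree < (S.card : WithBot ℕ) → (∀ i, ‖P.coeff i‖ ≤ 1) →
      (∀ a ∈ S, ‖P.eval a‖ < 1) → ∀ i, ‖P.coeff i‖ < 1 := by
  classical
  induction S using Finset.induction_on with
  | empty =>
    intro P hP _ _ i
    rw [Finset.card_empty, Nat.cast_zero] at hP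
    have h0 : P = 0 := by
      by_contra h
      exact not_lt.mpr (zero_le_degree_iff.mpr h) hP
    simp [h0]
  | insert a T ha ih =>
    intro P hP hc hev i
    set Q := P /ₘ (X - C a) with hQ
    have hsum : P = C (P.eval a) + (X - C a) * Q := by
      rw [← modByMonic_X_sub_C_eq_C_eval, hQ, modByMonic_add_div]
    have hQc : ∀ j, ‖Q.coeff j‖ ≤ 1 := fun j => by
      rw [hQ, coeff_divByMonic_X_sub_C]
      refine IsUltrametricDist.norm_sum_le_of_forall_le_of_nonneg zero_le_one fun k _ => ?_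
      rw [norm_mul, norm_pow]
      exact mul_le_one₀ (pow_le_one₀ (norm_nonneg _) (hS1 a (Finset.mem_insert_self a T)))
        (norm_nonneg _) (hc k)
    have hQd : Q.degree < (T.card : WithBot ℕ) := by
      rcases eq_or_ne P 0 with rfl | hP0
      · rw [hQ, zero_divByMonic, degree_zero]; exact WithBot.bot_lt_coe _
      · have h1 := degree_divByMonic_lt P (X - C a) hP0 (by rw [degree_X_sub_C]; exact zero_lt_one)
        rw [Finset.card_insert_of_notMem ha, degree_eq_natDegree hP0, Nat.cast_lt] at hP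
        rcases eq_or_ne Q 0 with h0 | h0
        · rw [h0, degree_zero]; exact WithBot.bot_lt_coe _
        · rw [← hQ, degree_eq_natDegree hP0, degree_eq_natDegree h0, Nat.cast_lt] at h1
          rw [degree_eq_natDegree h0, Nat.cast_lt]
          omega
    have hQev : ∀ b ∈ T, ‖Q.eval b‖ < 1 := fun b hb => by
      have hne : b ≠ a := fun h => ha (h ▸ hb)
      have h1 := congrArg (eval b) hsum
      simp only [eval_add, eval_mul, eval_sub, eval_X, eval_C] at h1
      have h2 : ‖(b - a) * Q.eval b‖ < 1 := by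
        rw [show (b - a) * Q.eval b = P.eval b + -P.eval a by rw [h1]; ring]
        refine (IsUltrametricDist.norm_add_le_max _ _).trans_lt (max_lt
          (hev b (Finset.mem_insert_of_mem hb)) ?_)
        rw [norm_neg]
        exact hev a (Finset.mem_insert_self a T)
      rwa [norm_mul, hS b (Finset.mem_insert_of_mem hb) a (Finset.mem_insert_self a T) hne,
        one_mul] at h2
    have hQs := ih (fun b hb => hS1 b (Finset.mem_insert_of_mem hb))
      (fun b hb c hcm => hS b (Finset.mem_insert_of_mem hb) c (Finset.mem_insert_of_mem hcm))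
      Q hQd hQc hQev
    have hbound : ∀ j, ‖a * Q.coeff j‖ < 1 := fun j => by
      rw [norm_mul]
      exact lt_of_le_of_lt (mul_le_of_le_one_left (norm_nonneg _)
        (hS1 a (Finset.mem_insert_self a T))) (hQs j)
    rw [hsum, coeff_add, sub_mul, coeff_sub, coeff_C_mul]
    refine (IsUltrametricDist.norm_add_le_max _ _).trans_lt (max_lt ?_ ?_)
    · rw [coeff_C]
      split_ifs
      · exact hev a (Finset.mem_insert_self a T)
      · simp
    · rw [sub_eq_add_neg]
      refine (IsUltrametricDist.norm_add_le_max _ _).trans_lt (max_lt ?_ (by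
        rw [norm_neg]; exact hbound i))
      rcases i with _ | j
      · simp
      · rw [coeff_X_mul]; exact hQs j

end Polynomials

section ValueGroup

variable {K M : Type} [NontriviallyNormedField K] [IsUltrametricDist K] [ProperSpace K]
  [NormedField M] [IsUltrametricDist M] [NormedAlgebra K M] [FiniteDimensional K M] [IsGalois K M]

omit [IsUltrametricDist K] [ProperSpace K] in
/-- A residually generating element makes the value groups equal. -/
theorem exists_norm_eq_of_residue (hiso : ∀ (g : M ≃ₐ[K] M) (x : M), ‖g x‖ = ‖x‖) {α : M}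
    (hα : ‖α‖ ≤ 1) (hres : ∀ g : M ≃ₐ[K] M, g ≠ 1 → ‖g α - α‖ = 1) (x : M) :
    ∃ y : K, ‖y‖ = ‖x‖ := by
  classical
  set n := finrank K M
  set S : Finset M := Finset.univ.image fun g : M ≃ₐ[K] M => g α with hS
  have hdiff : ∀ g h : M ≃ₐ[K] M, g ≠ h → ‖g α - h α‖ = 1 := fun g h hgh => by
    rw [show g α - h α = h ((h⁻¹ * g) α - α) by
      rw [map_sub, ← AlgEquiv.mul_apply, mul_inv_cancel_left], hiso]
    exact hres _ fun e => hgh (inv_mul_eq_one.mp e).symm
  have hinj : Function.Injective fun g : M ≃ₐ[K] M => g α := fun g h e => by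
    by_contra hne
    have := hdiff g h hne
    rw [show g α = h α from e, sub_self, norm_zero] at this
    exact zero_ne_one this
  have hcard : S.card = n := by
    rw [hS, Finset.card_image_of_injective _ hinj, Finset.card_univ, ← Nat.card_eq_fintype_card,
      IsGalois.card_aut_eq_finrank]
  have key : ∀ c : Fin n → K, c ≠ 0 →
      ∃ j, ‖∑ i : Fin n, c i • α ^ (i : ℕ)‖ = ‖c j‖ ∧ c j ≠ 0 := fun c hc => by
    obtain ⟨i₀, hi₀⟩ := Function.ne_iff.mp hc
    have : Nonempty (Fin n) := ⟨i₀⟩
    obtain ⟨j, -, hj⟩ := Finset.univ.exists_max_image (fun i => ‖c i‖) Finset.univ_nonempty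
    have hj0 : c j ≠ 0 := fun h => hi₀ (norm_le_zero_iff.mp (by
      simpa [h] using hj i₀ (Finset.mem_univ _)))
    refine ⟨j, le_antisymm ?_ ?_, hj0⟩
    · refine IsUltrametricDist.norm_sum_le_of_forall_le_of_nonneg (norm_nonneg _) fun i _ => ?_
      rw [norm_smul, norm_pow]
      exact (mul_le_of_le_one_right (norm_nonneg _) (pow_le_one₀ (norm_nonneg _) hα)).trans
        (hj i (Finset.mem_univ _))
    by_contra hlt
    rw [not_le] at hlt
    set P : M[X] := ∑ i : Fin n, C (algebraMap K M ((c j)⁻¹ * c i)) * X ^ (i : ℕ) with hP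
    have hPc : ∀ k : Fin n, P.coeff k = algebraMap K M ((c j)⁻¹ * c k) := fun k => by
      rw [hP, finsetSum_coeff, Finset.sum_eq_single k]
      · rw [coeff_C_mul, coeff_X_pow, if_pos rfl, mul_one]
      · intro i _ hik
        rw [coeff_C_mul, coeff_X_pow, if_neg (fun h => hik (Fin.ext h.symm)), mul_zero]
      · simp
    have hc1 : ∀ k, ‖P.coeff k‖ ≤ 1 := fun k => by
      rw [hP, finsetSum_coeff]
      refine IsUltrametricDist.norm_sum_le_of_forall_le_of_nonneg zero_le_one fun i _ => ?_
      rw [coeff_C_mul, coeff_X_pow]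
      split_ifs
      · rw [mul_one, norm_algebraMap', norm_mul, norm_inv,
          inv_mul_le_one₀ (norm_pos_iff.mpr hj0)]
        exact hj i (Finset.mem_univ _)
      · simp
    have hdeg : P.degree < (S.card : WithBot ℕ) := by
      rw [hcard]
      exact lt_of_le_of_lt (degree_sum_le _ _) ((Finset.sup_lt_iff (WithBot.bot_lt_coe _)).mpr
        fun i _ => lt_of_le_of_lt (degree_C_mul_X_pow_le _ _) (by exact_mod_cast i.2))
    have hev : ∀ a ∈ S, ‖P.eval a‖ < 1 := fun a ha => by
      obtain ⟨g, -, rfl⟩ := Finset.mem_image.mp ha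
      have h1 : P.eval (g α) = g (algebraMap K M (c j)⁻¹ * ∑ i : Fin n, c i • α ^ (i : ℕ)) := by
        rw [hP, eval_finsetSum, Finset.mul_sum, map_sum]
        refine Finset.sum_congr rfl fun i _ => ?_
        rw [eval_mul, eval_C, eval_pow, eval_X, Algebra.smul_def, map_mul g, map_mul g,
          map_pow, AlgEquiv.commutes, AlgEquiv.commutes, map_mul (algebraMap K M), mul_assoc]
      rw [h1, hiso, norm_mul, norm_algebraMap', norm_inv,
        inv_mul_lt_one₀ (norm_pos_iff.mpr hj0)]
      exact hlt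
    have hS1 : ∀ a ∈ S, ‖a‖ ≤ 1 := fun a ha => by
      obtain ⟨g, -, rfl⟩ := Finset.mem_image.mp ha
      rwa [hiso]
    have hSd : ∀ a ∈ S, ∀ b ∈ S, a ≠ b → ‖a - b‖ = 1 := fun a ha b hb hab => by
      obtain ⟨g, -, rfl⟩ := Finset.mem_image.mp ha
      obtain ⟨h, -, rfl⟩ := Finset.mem_image.mp hb
      exact hdiff g h fun e => hab (e ▸ rfl)
    have := norm_coeff_lt_one S hS1 hSd P hdeg hc1 hev j
    rw [hPc, inv_mul_cancel₀ hj0, map_one, norm_one] at this
    exact lt_irrefl _ this
  let f : (Fin n → K) →ₗ[K] M := Fintype.linearCombination K fun i : Fin n => α ^ (i : ℕ)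
  have hfinj : Function.Injective f := by
    rw [injective_iff_map_eq_zero]
    intro c hc
    by_contra hne
    obtain ⟨j, hj, hj0⟩ := key c hne
    rw [Fintype.linearCombination_apply] at hc
    rw [hc, norm_zero, eq_comm, norm_eq_zero] at hj
    exact hj0 hj
  obtain ⟨c, rfl⟩ := (LinearMap.injective_iff_surjective_of_finrank_eq_finrank
    (by rw [Module.finrank_pi, Fintype.card_fin])).mp hfinj x
  rcases eq_or_ne c 0 with rfl | hc
  · exact ⟨0, by simp⟩
  · obtain ⟨j, hj, -⟩ := key c hc
    exact ⟨c j, by rw [Fintype.linearCombination_apply, hj]⟩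

omit [IsUltrametricDist M] in
/-- With equal value groups the norms from a cyclic extension are cut out by absolute values. -/
theorem mem_range_norm_iff (hiso : ∀ (g : M ≃ₐ[K] M) (x : M), ‖g x‖ = ‖x‖)
    (hv : ∀ x : M, ∃ y : K, ‖y‖ = ‖x‖) {σ : M ≃ₐ[K] M} (hσ : Subgroup.zpowers σ = ⊤) (a : Kˣ) :
    a ∈ (Units.map (Algebra.norm K : M →* K)).range ↔
      ∃ y : K, ‖(a : K)‖ = ‖y‖ ^ finrank K M := by
  set n := finrank K M with hn
  obtain ⟨π, hπ0, hπ1, hπ⟩ := exists_uniformizer K
  have hπne : π ≠ 0 := norm_pos_iff.mp hπ0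
  choose ν hν using fun a : Kˣ => hπ a a.ne_zero
  have hinj := zpow_right_injective₀ hπ0 hπ1.ne
  let φ : Kˣ →* Multiplicative ℤ := MonoidHom.mk' (fun a => Multiplicative.ofAdd (ν a))
    fun a b => by
      rw [← ofAdd_add]
      refine congrArg _ (hinj ?_)
      show ‖π‖ ^ ν (a * b) = ‖π‖ ^ (ν a + ν b)
      rw [zpow_add₀ hπ0.ne', ← hν, ← hν, ← hν, Units.val_mul, norm_mul]
  have hφ : Function.Surjective φ := fun k => by
    refine ⟨Units.mk0 π hπne ^ Multiplicative.toAdd k,
      Multiplicative.toAdd.injective (hinj ?_)⟩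
    show ‖π‖ ^ ν (Units.mk0 π hπne ^ Multiplicative.toAdd k) = ‖π‖ ^ Multiplicative.toAdd k
    rw [← hν, Units.val_zpow_eq_zpow_val, Units.val_mk0, norm_zpow]
  set S : Subgroup Kˣ := (AddSubgroup.toSubgroup (AddSubgroup.zmultiples (n : ℤ))).comap φ
  have hSmem : ∀ b : Kˣ, b ∈ S ↔ ∃ y : K, ‖(b : K)‖ = ‖y‖ ^ n := fun b => by
    show ν b ∈ AddSubgroup.zmultiples (n : ℤ) ↔ _
    rw [AddSubgroup.mem_zmultiples_iff]
    constructor
    · rintro ⟨k, hk⟩
      exact ⟨π ^ k, by rw [norm_zpow, ← zpow_natCast, ← zpow_mul, hν, ← hk, smul_eq_mul]⟩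
    · rintro ⟨y, hy⟩
      have hy0 : y ≠ 0 := fun h => b.ne_zero (norm_eq_zero.mp (by
        rw [hy, h, norm_zero, zero_pow (by rw [hn]; exact Module.finrank_pos.ne')]))
      obtain ⟨k, hk⟩ := hπ y hy0
      refine ⟨k, hinj ?_⟩
      show ‖π‖ ^ (k • (n : ℤ)) = ‖π‖ ^ ν b
      rw [← hν, hy, hk, ← zpow_natCast, ← zpow_mul, smul_eq_mul]
  have hle : (Units.map (Algebra.norm K : M →* K)).range ≤ S := by
    rintro _ ⟨x, rfl⟩
    obtain ⟨y, hy⟩ := hv x
    refine (hSmem _).mpr ⟨y, ?_⟩
    rw [Units.coe_map, ← norm_algebraMap' M (Algebra.norm K (x : M)),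
      Algebra.norm_eq_prod_automorphisms, norm_prod, Finset.prod_congr rfl fun g _ => hiso g _,
      Finset.prod_const, Finset.card_univ, ← Nat.card_eq_fintype_card,
      IsGalois.card_aut_eq_finrank, hy]
  have hidx : (Units.map (Algebra.norm K : M →* K)).range.index = n := index_range_norm K M σ hσ
  have hSidx : S.index = n := by
    rw [Subgroup.index_comap_of_surjective _ hφ, AddSubgroup.index_toSubgroup,
      Int.index_zmultiples, Int.natAbs_natCast]
  have h1 := Subgroup.relIndex_mul_index hle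
  rw [hidx, hSidx] at h1
  have h2 : (Units.map (Algebra.norm K : M →* K)).range.relIndex S = 1 := by
    have hpos : 0 < n := Module.finrank_pos
    nlinarith
  rw [← hSmem]
  exact ⟨fun h => hle h, fun h => Subgroup.relIndex_eq_one.mp h2 h⟩

end ValueGroup

section Residue

variable {K M : Type} [NontriviallyNormedField K] [IsUltrametricDist K] [ProperSpace K]
  [NormedField M] [IsUltrametricDist M] [NormedAlgebra K M] [FiniteDimensional K M] [IsGalois K M]

/-- The unit ball of a normed ultrametric field as a valuation subring. -/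
def unitBall (M : Type) [NormedField M] [IsUltrametricDist M] : ValuationSubring M where
  carrier := {x | ‖x‖ ≤ 1}
  mul_mem' {x y} hx hy := by
    show ‖x * y‖ ≤ 1
    rw [norm_mul]
    exact mul_le_one₀ hx (norm_nonneg _) hy
  one_mem' := norm_one.le
  add_mem' {x y} hx hy := (IsUltrametricDist.norm_add_le_max x y).trans (max_le hx hy)
  zero_mem' := by
    show ‖(0 : M)‖ ≤ 1
    simp
  neg_mem' {x} hx := by
    show ‖-x‖ ≤ 1
    rwa [norm_neg]
  mem_or_inv_mem' x := by
    show ‖x‖ ≤ 1 ∨ ‖x⁻¹‖ ≤ 1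
    rcases le_total ‖x‖ 1 with h | h
    · exact Or.inl h
    · exact Or.inr (by rw [norm_inv]; exact inv_le_one_of_one_le₀ h)

omit [NontriviallyNormedField K] in
theorem residue_unitBall_eq_zero {x : unitBall M} :
    IsLocalRing.residue (unitBall M) x = 0 ↔ ‖(x : M)‖ < 1 := by
  rw [IsLocalRing.residue_eq_zero_iff]
  show ¬ IsUnit x ↔ _
  constructor
  · intro h
    have hx1 : ‖(x : M)‖ ≤ 1 := x.2
    rcases hx1.lt_or_eq with h1 | h1
    · exact h1
    · exfalso
      have h0 : (x : M) ≠ 0 := fun e => by simp [e] at h1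
      exact h (IsUnit.of_mul_eq_one ⟨(x : M)⁻¹, by
        show ‖(x : M)⁻¹‖ ≤ 1
        rw [norm_inv, h1, inv_one]⟩ (Subtype.ext (mul_inv_cancel₀ h0)))
  · rintro h ⟨u, rfl⟩
    have h1 : (((u : unitBall M) : M)) * ((((u⁻¹ : (unitBall M)ˣ)) : unitBall M) : M) = 1 :=
      congrArg Subtype.val u.mul_inv
    have h2 : ‖((((u⁻¹ : (unitBall M)ˣ)) : unitBall M) : M)‖ ≤ 1 :=
      ((u⁻¹ : (unitBall M)ˣ) : unitBall M).2
    have := congrArg norm h1
    rw [norm_mul, norm_one] at this
    nlinarith [norm_nonneg (((u : unitBall M) : M))]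

omit [IsUltrametricDist K] [IsGalois K M] in
variable (K M) in
include K in
/-- The residue field is finite. -/
theorem finite_residueField : Finite (IsLocalRing.ResidueField (unitBall M)) := by
  have : ProperSpace M := FiniteDimensional.proper K M
  have : CompactSpace (unitBall M) := isCompact_iff_compactSpace.mp (by
    have h : ((unitBall M : Set M)) = Metric.closedBall 0 1 := by
      ext x; rw [mem_closedBall_zero_iff]; rfl
    rw [h]
    exact isCompact_closedBall 0 1)
  have hlc : IsLocallyConstant (IsLocalRing.residue (unitBall M)) := by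
    rw [IsLocallyConstant.iff_exists_open]
    intro x
    refine ⟨{y | ‖(y : M) - (x : M)‖ < 1}, ?_, by simp, fun y hy => ?_⟩
    · exact isOpen_lt (continuous_subtype_val.sub continuous_const).norm continuous_const
    · rw [← sub_eq_zero, ← map_sub, residue_unitBall_eq_zero]
      exact hy
  rw [← Set.finite_univ_iff, ← Set.range_eq_univ.mpr IsLocalRing.residue_surjective]
  exact hlc.range_finite

omit [IsUltrametricDist K] [ProperSpace K] [FiniteDimensional K M] [IsGalois K M] in
/-- The action of an isometric automorphism on the residue field. -/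
theorem exists_residueAut (hiso : ∀ (g : M ≃ₐ[K] M) (x : M), ‖g x‖ = ‖x‖) :
    ∃ Φ : (M ≃ₐ[K] M) →* (IsLocalRing.ResidueField (unitBall M) ≃+*
        IsLocalRing.ResidueField (unitBall M)),
      ∀ (g : M ≃ₐ[K] M) (x : unitBall M), Φ g (IsLocalRing.residue _ x) =
        IsLocalRing.residue _ ⟨g (x : M), by
          show ‖g (x : M)‖ ≤ 1
          rw [hiso]
          exact x.2⟩ := by
  let r : (M ≃ₐ[K] M) → (unitBall M ≃+* unitBall M) := fun g =>
    { toFun := fun x => ⟨g (x : M), by show ‖g (x : M)‖ ≤ 1; rw [hiso]; exact x.2⟩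
      invFun := fun x => ⟨g⁻¹ (x : M), by show ‖g⁻¹ (x : M)‖ ≤ 1; rw [hiso]; exact x.2⟩
      left_inv := fun x => Subtype.ext (g.symm_apply_apply _)
      right_inv := fun x => Subtype.ext (g.apply_symm_apply _)
      map_mul' := fun x y => Subtype.ext (map_mul g _ _)
      map_add' := fun x y => Subtype.ext (map_add g _ _) }
  refine ⟨MonoidHom.mk' (fun g => IsLocalRing.ResidueField.mapEquiv (r g)) fun g h => ?_,
    fun g x => rfl⟩
  ext z
  obtain ⟨x, rfl⟩ := IsLocalRing.residue_surjective z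
  rfl

omit [IsUltrametricDist K] [IsGalois K M] in
/-- If only the identity acts trivially on residues then the Galois group is cyclic and some
element separates all automorphisms residually. -/
theorem exists_residue_generator (hiso : ∀ (g : M ≃ₐ[K] M) (x : M), ‖g x‖ = ‖x‖)
    (hI : ∀ g : M ≃ₐ[K] M, (∀ x : M, ‖x‖ ≤ 1 → ‖g x - x‖ < 1) → g = 1) :
    IsCyclic (M ≃ₐ[K] M) ∧
      ∃ α : M, ‖α‖ ≤ 1 ∧ ∀ g : M ≃ₐ[K] M, g ≠ 1 → ‖g α - α‖ = 1 := by
  classical
  have := finite_residueField K M
  obtain ⟨Φ, hΦ⟩ := exists_residueAut hiso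
  have hΦinj : Function.Injective Φ := by
    rw [injective_iff_map_eq_one]
    intro g hg
    refine hI g fun x hx => ?_
    have h1 := hΦ g ⟨x, hx⟩
    rw [hg, RingAut.one_apply, ← sub_eq_zero, ← map_sub, residue_unitBall_eq_zero]
      at h1
    change ‖x - g x‖ < 1 at h1
    rwa [norm_sub_rev]
  obtain ⟨γ, hγ⟩ := IsCyclic.exists_generator (α := (IsLocalRing.ResidueField (unitBall M))ˣ)
  obtain ⟨α, hα⟩ := IsLocalRing.residue_surjective (γ : IsLocalRing.ResidueField (unitBall M))
  refine ⟨?_, α, α.2, fun g hg => le_antisymm ?_ ?_⟩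
  · have : Finite (M ≃ₐ[K] M) := inferInstance
    let k := IsLocalRing.ResidueField (unitBall M)
    obtain ⟨ℓ, hℓ⟩ := CharP.exists k
    have : Fact ℓ.Prime := ⟨CharP.char_is_prime k ℓ⟩
    let : Algebra (ZMod ℓ) k := ZMod.algebra k ℓ
    let e : (k ≃+* k) →* (k ≃ₐ[ZMod ℓ] k) := MonoidHom.mk'
      (fun f => AlgEquiv.ofRingEquiv (f := f) fun x =>
        RingHom.congr_fun (Subsingleton.elim
          ((f : k →+* k).comp (algebraMap (ZMod ℓ) k)) (algebraMap (ZMod ℓ) k)) x)
      fun f f' => rfl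
    refine isCyclic_of_injective (e.comp Φ) fun g g' h => hΦinj ?_
    ext z
    exact DFunLike.congr_fun h z
  · rw [sub_eq_add_neg]
    refine (IsUltrametricDist.norm_add_le_max _ _).trans (max_le ?_ ?_)
    · rw [hiso]; exact α.2
    · rw [norm_neg]; exact α.2
  · by_contra hlt
    rw [not_le] at hlt
    refine hg (hΦinj ?_)
    rw [map_one]
    ext z
    have hfix : Φ g (γ : IsLocalRing.ResidueField (unitBall M)) = γ := by
      rw [← hα, hΦ, ← sub_eq_zero, ← map_sub, residue_unitBall_eq_zero]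
      exact hlt
    rcases eq_or_ne z 0 with rfl | hz
    · simp
    · obtain ⟨i, hi⟩ := Subgroup.mem_zpowers_iff.mp (hγ (Units.mk0 z hz))
      rw [← Units.val_mk0 hz, ← hi, Units.val_zpow_eq_zpow_val, map_zpow₀, hfix]
      rfl

end Residue

end Fermat.Agent.Duality.Local

end
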