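import Fermat.Agent.Duality.Local.Basic
import Fermat.Agent.Duality.Local.Unramified
import Fermat.Agent.Duality.Localisation

/-!
# Unramified extensions of local fields inside `PadicAlgCl q`

The norms of an unramified extension are cut out by absolute values, and the local field of a
number field fixed by inertia is fixed by the automorphisms acting trivially on residues.
-/

set_option autoImplicit false

noncomputable section

open IntermediateField Module

namespace Fermat.Agent.Duality.Local

variable {q : ℕ} [Fact q.Prime]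

local notation "Ω" => PadicAlgCl q

variable {L : IntermediateField ℚ_[q] (PadicAlgCl q)}

/-- Only the identity of `E` over `L` acts trivially on residues. -/
def IsUnramExt (L : IntermediateField ℚ_[q] (PadicAlgCl q))
    (E : IntermediateField L (PadicAlgCl q)) : Prop :=
  ∀ g ∈ L.fixingSubgroup, (∀ x ∈ E, ‖x‖ ≤ 1 → ‖g x - x‖ < 1) → ∀ x ∈ E, g x = x

section Ext

variable [FiniteDimensional ℚ_[q] L] {E : IntermediateField L (PadicAlgCl q)}
    [FiniteDimensional L E]
  [IsGalois L E]

omit [FiniteDimensional ℚ_[q] L] [FiniteDimensional L E] in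
theorem exists_lift (τ : E ≃ₐ[L] E) :
    ∃ g : L.fixingSubgroup, ∀ x : E, (τ x : Ω) = (g : GalLoc q) (x : Ω) := by
  obtain ⟨σ, rfl⟩ := AlgEquiv.restrictNormalHom_surjective Ω τ
  obtain ⟨g, rfl⟩ := L.fixingSubgroupEquiv.surjective σ
  exact ⟨g, fun x => AlgEquiv.restrictNormalHom_apply E _ x⟩

omit [FiniteDimensional ℚ_[q] L] [FiniteDimensional L E] in
theorem norm_restrict (τ : E ≃ₐ[L] E) (x : E) : ‖τ x‖ = ‖x‖ := by
  obtain ⟨g, hg⟩ := exists_lift τ
  show ‖(τ x : Ω)‖ = ‖(x : Ω)‖
  rw [hg, norm_galLoc_apply]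

theorem IsUnramExt.residue (hE : IsUnramExt L E) :
    IsCyclic (E ≃ₐ[L] E) ∧ ∀ x : E, ∃ y : L, ‖y‖ = ‖x‖ := by
  obtain ⟨hc, α, hα, hres⟩ := exists_residue_generator (K := L) (M := E) norm_restrict
    fun τ h => by
      obtain ⟨g, hg⟩ := exists_lift τ
      refine AlgEquiv.ext fun x => Subtype.ext ?_
      rw [hg]
      refine hE g g.2 (fun y hy hy1 => ?_) x x.2
      have h1 := h ⟨y, hy⟩ hy1
      change ‖(τ ⟨y, hy⟩ : Ω) - y‖ < 1 at h1
      rwa [hg] at h1
  exact ⟨hc, exists_norm_eq_of_residue norm_restrict hα hres⟩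

/-- In an unramified extension the norms are cut out by absolute values. -/
theorem IsUnramExt.mem_range_norm_iff (hE : IsUnramExt L E) (a : Lˣ) :
    a ∈ (Units.map (Algebra.norm L : E →* L)).range ↔
      ∃ y : L, ‖(a : L)‖ = ‖y‖ ^ finrank L E := by
  obtain ⟨hc, hv⟩ := IsUnramExt.residue hE
  obtain ⟨σ, hσ⟩ := hc.exists_generator
  exact Fermat.Agent.Duality.Local.mem_range_norm_iff norm_restrict hv
    (Subgroup.eq_top_iff' _ |>.mpr hσ) a

end Ext

section Global

/-- The local field of a number field fixed by inertia is unramified over `ℚ_q`. -/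
theorem apply_eq_self_of_residue (F : IntermediateField ℚ Qbar) [Normal ℚ F]
    (hF : ∀ σ ∈ (padicPlace q).inertiaSubgroupIn ℚ, σ ∈ F.fixingSubgroup) (g : GalLoc q)
    (hg : ∀ x ∈ F, IsIntegral ℤ x → ‖g (padicEmbedding q x) - padicEmbedding q x‖ < 1) :
    ∀ x ∈ Places.localField q F, g x = x := by
  obtain ⟨σ, hσ, heq⟩ := Fermat.Agent.Gal.exists_inertia_eqOn F (padicPlace q)
    (localGaloisToGlobal q g) fun x hx hxi => by
      rw [Places.mem_nonunits_padicPlace, map_sub, padicEmbedding_localGaloisToGlobal]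
      exact hg x hx hxi
  have hfix : g ∈ (Places.localField q F).fixingSubgroup := by
    rw [Places.fixingSubgroup_localField, Subgroup.mem_comap,
      IntermediateField.mem_fixingSubgroup_iff]
    intro x hx
    rw [← heq x hx]
    exact (IntermediateField.mem_fixingSubgroup_iff _ _).mp (hF σ hσ) x hx
  exact (IntermediateField.mem_fixingSubgroup_iff _ _).mp hfix

end Global

end Fermat.Agent.Duality.Local

end
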