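import Fermat.Agent.Duality.Local.H2
import Fermat.Agent.Duality.Places.LocalSymbol
import Fermat.Agent.Duality.Places.AuxPrime

/-!
# `H²(μ_p)` of the local Galois group and corestriction to it

`H²(ℚ_q, μ_p)` has `p` elements and corestriction from every open subgroup fixing `μ_p` is
bijective.
-/

set_option autoImplicit false

noncomputable section

open Module

namespace Fermat.Agent.Duality.Local

variable {q : ℕ} [Fact q.Prime] {p : ℕ} [Fact p.Prime]

variable (p q) in
/-- A nonzero root of unity. -/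
theorem exists_mu_ne_zero : ∃ z₀ : Mu p (PadicAlgCl q), z₀ ≠ 0 := by
  have : NeZero p := ⟨(Fact.out : p.Prime).ne_zero⟩
  obtain ⟨ζ, hζ⟩ := HasEnoughRootsOfUnity.exists_primitiveRoot (PadicAlgCl q) p
  have hp : p.Prime := Fact.out
  refine ⟨muMk (Additive.ofMul (Units.mk0 ζ (hζ.ne_zero hp.ne_zero)))
    (Additive.toMul.injective (Units.ext (by simpa using hζ.pow_eq_one))), fun h => ?_⟩
  exact hζ.ne_one hp.one_lt (congrArg (fun z => uVal (muVal z)) h)

variable (p q) in
/-- A character of order `p` of the local Galois group. -/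
theorem exists_char_ne_zero : ∃ χ : Char1 p (Places.locBase q), χ ≠ 0 := by
  obtain ⟨ℓ, hℓ, -, hℓq, -, hdvd, hpow, -⟩ :=
    Places.exists_aux_prime (Fact.out : p.Prime) (Fact.out : q.Prime) (Fact.out : q.Prime) ∅
  have : Fact ℓ.Prime := ⟨hℓ⟩
  obtain ⟨χ, ψ, hχ⟩ := Places.exists_auxChar p (ℓ := ℓ) hdvd
  obtain ⟨d, hd⟩ := hχ.exists_local_ne_one q (Ne.symm hℓq) hpow
  exact ⟨_, hχ.baseChar_ne_zero q hd⟩

variable (p q) in
/-- `H²(ℚ_q, μ_p)` is nonzero. -/
theorem exists_top_ne_zero :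
    ∃ x : Coh.H2 (galLevels ℚ_[q] (PadicAlgCl q)) (Mu p (PadicAlgCl q)), x ≠ 0 := by
  obtain ⟨χ, hχ⟩ := exists_char_ne_zero q p
  set L := (⊥ : IntermediateField ℚ_[q] (PadicAlgCl q))
  have : Finite (L.fixingSubgroup ⧸ chiKer χ) :=
    @Subgroup.finite_quotient_of_finiteIndex _ _ _
      (((galLevels ℚ_[q] (PadicAlgCl q)).restrict L.fixingSubgroup).finiteIndex (ok_chiKer χ))
  let := Fintype.ofFinite (L.fixingSubgroup ⧸ chiKer χ)
  have hidx := (index_range_norm L (kerField χ) _ (zpowers_kerGen χ hχ)).trans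
    (finrank_kerField χ hχ)
  obtain ⟨a, ha⟩ : ∃ a, a ∉ (Units.map (Algebra.norm L : kerField χ →* L)).range := by
    by_contra h
    simp only [not_exists, not_not] at h
    rw [show (Units.map (Algebra.norm L : kerField χ →* L)).range = ⊤ from
      eq_top_iff.mpr fun a _ => h a, Subgroup.index_top] at hidx
    exact (Fact.out : p.Prime).one_lt.ne hidx
  have hne : cupChi χ (ofUnit L a) ≠ 0 := fun h => ha <| by
    rw [← exists_cor₀_eq_iff χ hχ]
    exact (cupChi_eq_zero_iff χ hχ (ok_fixingSubgroup L) _).mp h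
  let ι : GalLoc q →* Places.locBase q :=
    (MonoidHom.id (GalLoc q)).codRestrict _ (Places.mem_locBase q)
  have hι : (galLevels ℚ_[q] (PadicAlgCl q)).Compat
      ((galLevels ℚ_[q] (PadicAlgCl q)).restrict (Places.locBase q)) ι := fun _ ⟨V, hV, hVU⟩ =>
    (galLevels ℚ_[q] (PadicAlgCl q)).mono hV fun g hg =>
      hVU (show (ι g : GalLoc q) ∈ V from hg)
  have hιe : Coh.IsEquivariant (A := Mu p (PadicAlgCl q)) (B := Mu p (PadicAlgCl q)) ι
      (AddMonoidHom.id _) := fun _ _ => rfl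
  refine ⟨Coh.H2.map hι hιe (cupChi χ (ofUnit L a)), fun h => hne ?_⟩
  have h2 : ∀ x : H2μ p (Places.locBase q),
      Coh.res₂ (Places.locBase q) (Coh.H2.map hι hιe x) = x := fun x => by
    obtain ⟨f, rfl⟩ := Coh.H2.mk_surjective x
    rfl
  rw [← h2 (cupChi χ (ofUnit L a)), h, map_zero]

omit [Fact (Nat.Prime p)] in
theorem nsmul_top (x : Coh.H2 (galLevels ℚ_[q] (PadicAlgCl q)) (Mu p (PadicAlgCl q))) :
    p • x = 0 := by
  obtain ⟨f, rfl⟩ := Coh.H2.mk_surjective x
  rw [← map_nsmul, show p • f = 0 from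
    Subtype.ext (funext fun g => funext fun h => nsmul_mu _), map_zero]

variable (p q) in
/-- The automorphisms fixing `μ_p`. -/
def muFixer : Subgroup (GalLoc q) where
  carrier := {g | ∀ z : Mu p (PadicAlgCl q), g • z = z}
  one_mem' z := one_smul _ z
  mul_mem' hg hh z := by rw [mul_smul, hh z, hg z]
  inv_mem' hg z := by rw [inv_smul_eq_iff, hg z]

omit [Fact (Nat.Prime p)] in
theorem mem_muFixer {g : GalLoc q} :
    g ∈ muFixer q p ↔ ∀ z : Mu p (PadicAlgCl q), g • z = z := Iff.rfl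

instance muFixer_normal : (muFixer q p).Normal where
  conj_mem m hm g := mem_muFixer.mpr fun z => by
    rw [mul_smul, mul_smul, mem_muFixer.mp hm, smul_inv_smul]

theorem ok_muFixer : (galLevels ℚ_[q] (PadicAlgCl q)).ok (muFixer q p) := by
  obtain ⟨z₀, hz⟩ := exists_mu_ne_zero q p
  obtain ⟨U, hU, h⟩ := isSmooth_Mu (F := ℚ_[q]) z₀
  refine (galLevels ℚ_[q] (PadicAlgCl q)).mono hU fun g hg z => ?_
  rw [← zpSmul_muDlog hz z, zpSmul_apply, smul_comm, h g hg]

theorem not_dvd_index_muFixer : ¬ p ∣ (muFixer q p).index := by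
  obtain ⟨z₀, hz⟩ := exists_mu_ne_zero q p
  have hp : p.Prime := Fact.out
  have : NeZero p := ⟨hp.ne_zero⟩
  have := finite_quotient_galLevels (ok_muFixer (q := q) (p := p))
  let : Fintype (GalLoc q ⧸ muFixer q p) := Fintype.ofFinite _
  have : Finite (Zp p) := inferInstanceAs (Finite (ZMod p))
  have : Finite (Mu p (PadicAlgCl q)) := Finite.of_equiv _ (muDlog hz).symm.toEquiv
  let : Fintype (Mu p (PadicAlgCl q)) := Fintype.ofFinite _
  let f : GalLoc q ⧸ muFixer q p → Mu p (PadicAlgCl q) := fun x => x.out • z₀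
  have hinj : Function.Injective f := fun x y hxy => by
    rw [← QuotientGroup.out_eq' x, ← QuotientGroup.out_eq' y, QuotientGroup.eq, mem_muFixer]
    intro z
    rw [← zpSmul_muDlog hz z, zpSmul_apply, smul_comm, mul_smul,
      show y.out • z₀ = x.out • z₀ from hxy.symm, inv_smul_smul]
  have hnsurj : ¬ Function.Surjective f := fun h => by
    obtain ⟨x, hx⟩ := h 0
    exact hz ((smul_eq_zero_iff_eq _).mp hx)
  have h1 := Fintype.card_lt_of_injective_not_surjective f hinj hnsurj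
  have h2 : Fintype.card (Mu p (PadicAlgCl q)) = p := by
    rw [← Nat.card_eq_fintype_card, Nat.card_congr (muDlog hz).toEquiv]
    exact Nat.card_zmod p
  intro hd
  have h3 : (muFixer q p).index = Fintype.card (GalLoc q ⧸ muFixer q p) :=
    Nat.card_eq_fintype_card
  have h4 : 0 < (muFixer q p).index := h3 ▸ Fintype.card_pos
  have := Nat.le_of_dvd h4 hd
  omega

/-- Corestriction from index prime to `p` is surjective. -/
theorem corTop₂_surjective {K : Subgroup (GalLoc q)}
    (hK : (galLevels ℚ_[q] (PadicAlgCl q)).ok K) (hm : ¬ p ∣ K.index) :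
    Function.Surjective (corTop₂ (p := p) hK) := fun x => by
  refine AddMonoidHom.mem_range.mp (mem_of_nsmul_mem (corTop₂ (p := p) hK).range
    (Fact.out : p.Prime) hm (nsmul_top x) ?_)
  exact ⟨Coh.res₂ K x, corTop₂_res₂ hK x⟩

omit [Fact (Nat.Prime p)] in
theorem corTop₂_bijective_of_eq {H K : Subgroup (GalLoc q)}
    (hH : (galLevels ℚ_[q] (PadicAlgCl q)).ok H) (hK : (galLevels ℚ_[q] (PadicAlgCl q)).ok K)
    (he : K = H) (hb : Function.Bijective (corTop₂ (p := p) hH)) :
    Function.Bijective (corTop₂ (p := p) hK) := by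
  subst he
  exact hb

variable {z₀ : Mu p (PadicAlgCl q)} (hz : z₀ ≠ 0)

include hz in
theorem corTop₂_bijective_descend : ∀ (d : ℕ) (L : IntermediateField ℚ_[q] (PadicAlgCl q))
    [FiniteDimensional ℚ_[q] L]
    (_hμ : ∀ (g : L.fixingSubgroup) (z : Mu p (PadicAlgCl q)), g • z = z)
    (N : Subgroup (GalLoc q)) (_hN : N ≤ L.fixingSubgroup)
    (hNok : (galLevels ℚ_[q] (PadicAlgCl q)).ok N), (N.subgroupOf L.fixingSubgroup).Normal →
    N.relIndex L.fixingSubgroup = p ^ d →
    Function.Bijective (corTop₂ (p := p) (ok_fixingSubgroup L)) →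
    Function.Bijective (corTop₂ (p := p) hNok) := by
  intro d
  induction d with
  | zero =>
    intro L _ _ N hN hNok _ hd hb
    rw [pow_zero, Subgroup.relIndex_eq_one] at hd
    exact corTop₂_bijective_of_eq _ hNok (le_antisymm hN hd) hb
  | succ d ih =>
    intro L _ hμ N hN hNok hn hd hb
    obtain ⟨K, hK, hKL, hNK, hKn, hKi, hNn, hNi⟩ := exists_intermediate hNok hN hn hd
    refine ih K (mu_fixed_of_le hKL hμ) N hNK hNok hNn hNi ?_
    have hcomp : ⇑(corTop₂ (p := p) (ok_fixingSubgroup K)) =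
        corTop₂ (ok_fixingSubgroup L) ∘ corLE₂ hKL (ok_fixingSubgroup K) :=
      funext fun x => (corTop₂_corLE₂ hKL _ _ x).symm
    rw [hcomp]
    exact hb.comp (corLE₂_bijective_of_index_eq hz hμ hKL hKn hKi)

include hz in
/-- `H²(ℚ_q, μ_p)` has `p` elements, and corestriction to it is bijective. -/
theorem card_top_and_bijective {H : Subgroup (GalLoc q)}
    (hH : (galLevels ℚ_[q] (PadicAlgCl q)).ok H) (hμ : H ≤ muFixer q p) :
    Nat.card (Coh.H2 (galLevels ℚ_[q] (PadicAlgCl q)) (Mu p (PadicAlgCl q))) = p ∧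
      Function.Bijective (corTop₂ (p := p) hH) := by
  have hp : p.Prime := Fact.out
  obtain ⟨N, hN, hNn, hNH⟩ := (galLevels ℚ_[q] (PadicAlgCl q)).exists_normal hH
  have := hNn
  have := finite_quotient_galLevels hN
  let P : Sylow p (GalLoc q ⧸ N) := default
  set S : Subgroup (GalLoc q) := (P : Subgroup (GalLoc q ⧸ N)).comap (QuotientGroup.mk' N) with hS
  have hNS : N ≤ S := fun g hg => by
    rw [hS, Subgroup.mem_comap]
    convert one_mem (P : Subgroup (GalLoc q ⧸ N))
    exact (QuotientGroup.eq_one_iff _).mpr hg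
  have hSi : S.index = (P : Subgroup (GalLoc q ⧸ N)).index := by
    rw [hS, Subgroup.index_comap_of_surjective _ (QuotientGroup.mk'_surjective _)]
  have hSdvd : ¬ p ∣ S.index := hSi ▸ P.not_dvd_index
  have hSμ : S ≤ muFixer q p := fun g hg => by
    obtain ⟨k, hk⟩ := P.isPGroup' ⟨_, hg⟩
    have h1 : g ^ p ^ k ∈ muFixer q p := hμ (hNH ((QuotientGroup.eq_one_iff _).mp (by
      rw [QuotientGroup.mk_pow]
      exact congrArg Subtype.val hk)))
    have := finite_quotient_galLevels (ok_muFixer (q := q) (p := p))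
    have : (muFixer q p).FiniteIndex := Subgroup.finiteIndex_of_finite_quotient
    have h2 : g ^ (muFixer q p).index ∈ muFixer q p := Subgroup.pow_index_mem _ g
    have hg : Int.gcd ((p ^ k : ℕ) : ℤ) ((muFixer q p).index : ℤ) = 1 := by
      rw [Int.gcd_natCast_natCast]
      exact Nat.Coprime.pow_left k (hp.coprime_iff_not_dvd.mpr not_dvd_index_muFixer)
    have h3 := Int.gcd_eq_gcd_ab ((p ^ k : ℕ) : ℤ) ((muFixer q p).index : ℤ)
    rw [hg, Nat.cast_one] at h3
    rw [← zpow_one g, h3, zpow_add, zpow_mul, zpow_mul, zpow_natCast, zpow_natCast]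
    exact mul_mem (Subgroup.zpow_mem _ h1 _) (Subgroup.zpow_mem _ h2 _)
  obtain ⟨K, hK, hKeq⟩ := exists_field_of_ok ((galLevels ℚ_[q] (PadicAlgCl q)).mono hN hNS)
  have hμK : ∀ (g : K.fixingSubgroup) (z : Mu p (PadicAlgCl q)), g • z = z := fun g z =>
    mem_muFixer.mp (hSμ (hKeq ▸ g.2)) z
  have hcardK := card_H2μ hz hμK
  have hsurj : Function.Surjective (corTop₂ (p := p) (ok_fixingSubgroup K)) :=
    corTop₂_surjective _ (by rw [hKeq]; exact hSdvd)
  obtain ⟨y, hy⟩ := exists_top_ne_zero q p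
  obtain ⟨w, hw⟩ := hsurj y
  have hinj : Function.Injective (corTop₂ (p := p) (ok_fixingSubgroup K)) := by
    rw [← AddMonoidHom.ker_eq_bot_iff]
    have : Fact (Nat.card (H2μ p K.fixingSubgroup)).Prime := ⟨hcardK.symm ▸ hp⟩
    rcases AddSubgroup.eq_bot_or_eq_top_of_prime_card
      (corTop₂ (p := p) (ok_fixingSubgroup K)).ker with h | h
    · exact h
    · exact absurd (((AddMonoidHom.mem_ker).mp (h ▸ AddSubgroup.mem_top w)).symm.trans hw)
        fun h0 => hy h0.symm
  have hcard : Nat.card (Coh.H2 (galLevels ℚ_[q] (PadicAlgCl q)) (Mu p (PadicAlgCl q))) = p :=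
    (Nat.card_eq_of_bijective _ ⟨hinj, hsurj⟩).symm.trans hcardK
  refine ⟨hcard, ?_⟩
  obtain ⟨L, hL, rfl⟩ := exists_field_of_ok hH
  obtain ⟨E, hE, hEeq⟩ := exists_field_of_ok hN
  have hEL : E.fixingSubgroup ≤ L.fixingSubgroup := hEeq ▸ hNH
  obtain ⟨d, hd⟩ := P.isPGroup'.exists_card_eq
  have hNSi : N.relIndex S = p ^ d := by
    have h1 := Subgroup.relIndex_mul_index hNS
    have h2 := (P : Subgroup (GalLoc q ⧸ N)).card_mul_index
    have hpos : 0 < (P : Subgroup (GalLoc q ⧸ N)).index :=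
      Nat.pos_of_ne_zero Subgroup.index_ne_zero_of_finite
    rw [hSi, show N.index = Nat.card (GalLoc q ⧸ N) from rfl, ← h2] at h1
    exact (Nat.eq_of_mul_eq_mul_right hpos h1).trans hd
  have hbE : Function.Bijective (corTop₂ (p := p) (ok_fixingSubgroup E)) := by
    refine corTop₂_bijective_descend hz d K hμK E.fixingSubgroup ?_ _ ?_ ?_ ⟨hinj, hsurj⟩
    · rw [hKeq, hEeq]; exact hNS
    · rw [hKeq, hEeq]; exact hNn.subgroupOf S
    · rw [hKeq, hEeq]; exact hNSi
  have hsurjL : Function.Surjective (corTop₂ (p := p) (ok_fixingSubgroup L)) := fun x => by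
    obtain ⟨v, hv⟩ := hbE.2 x
    exact ⟨corLE₂ hEL (ok_fixingSubgroup E) v, by rw [corTop₂_corLE₂ hEL]; exact hv⟩
  have hcardL := card_H2μ hz (L := L) fun g z => mem_muFixer.mp (hμ g.2) z
  have : Finite (H2μ p L.fixingSubgroup) :=
    Nat.finite_of_card_ne_zero (by rw [hcardL]; exact hp.ne_zero)
  exact (Nat.bijective_iff_surjective_and_card _).mpr ⟨hsurjL, by rw [hcardL, hcard]⟩

variable (q p) in
/-- `H²(ℚ_q, μ_p)` has `p` elements. -/
theorem card_H2_top :
    Nat.card (Coh.H2 (galLevels ℚ_[q] (PadicAlgCl q)) (Mu p (PadicAlgCl q))) = p := by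
  obtain ⟨z₀, hz⟩ := exists_mu_ne_zero q p
  exact (card_top_and_bijective hz ok_muFixer le_rfl).1

variable (q p) in
/-- `H²(ℚ_q, μ_p) ≅ ZMod p`. -/
theorem nonempty_H2_top_equiv :
    Nonempty (Coh.H2 (galLevels ℚ_[q] (PadicAlgCl q)) (Mu p (PadicAlgCl q)) ≃+ ZMod p) := by
  have h := card_H2_top q p
  have := isAddCyclic_of_prime_card h
  exact ⟨(zmodAddCyclicAddEquiv
      (G := Coh.H2 (galLevels ℚ_[q] (PadicAlgCl q)) (Mu p (PadicAlgCl q))) inferInstance).symm.trans
    (ZMod.ringEquivCongr h).toAddEquiv⟩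

/-- Corestriction to `ℚ_q` from an open subgroup fixing `μ_p` is bijective. -/
theorem corTop₂_bijective {H : Subgroup (GalLoc q)}
    (hH : (galLevels ℚ_[q] (PadicAlgCl q)).ok H)
    (hμ : ∀ (g : H) (z : Mu p (PadicAlgCl q)), g • z = z) :
    Function.Bijective (corTop₂ (p := p) hH) := by
  obtain ⟨z₀, hz⟩ := exists_mu_ne_zero q p
  exact (card_top_and_bijective hz hH fun g hg z => hμ ⟨g, hg⟩ z).2

end Fermat.Agent.Duality.Local

end
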