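import Fermat.Agent.Duality.Local.CorSymbol

/-!
# `H²(μ_p)` of a local field containing the `p`-th roots of unity is the symbol line
-/

set_option autoImplicit false

noncomputable section

open Module

namespace Fermat.Agent.Duality

section Abstract

lemma bijective_of_card_eq_prime {p : ℕ} [Fact p.Prime] {A B : Type} [AddCommGroup A]
    [AddCommGroup B] (hA : Nat.card A = p) (hB : Nat.card B = p) (f : A →+ B) {w : A}
    (hw : f w ≠ 0) : Function.Bijective f := by
  have : Finite A := Nat.finite_of_card_ne_zero (hA ▸ (Fact.out : p.Prime).ne_zero)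
  have : Finite B := Nat.finite_of_card_ne_zero (hB ▸ (Fact.out : p.Prime).ne_zero)
  have : Fact (Nat.card A).Prime := ⟨hA.symm ▸ (Fact.out : p.Prime)⟩
  have hker : f.ker = ⊥ := by
    rcases AddSubgroup.eq_bot_or_eq_top_of_prime_card f.ker with h | h
    · exact h
    · exact absurd (f.mem_ker.mp (h ▸ AddSubgroup.mem_top w)) hw
  have hinj := (AddMonoidHom.ker_eq_bot_iff f).mp hker
  exact (Nat.bijective_iff_injective_and_card f).mpr ⟨hinj, by rw [hA, hB]⟩

lemma mem_of_nsmul_mem {A : Type} [AddCommGroup A] (S : AddSubgroup A) {p m : ℕ} (hp : p.Prime)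
    (hm : ¬ p ∣ m) {x : A} (hpx : p • x = 0) (hmx : m • x ∈ S) : x ∈ S := by
  obtain ⟨k, -, hk⟩ := Nat.exists_mul_mod_eq_one_of_coprime
    ((hp.coprime_iff_not_dvd.mpr hm).symm) hp.one_lt
  have h1 : (m * k) • x = x := by
    rw [← Nat.mod_add_div (m * k) p, hk, add_nsmul, one_nsmul, mul_nsmul, hpx, nsmul_zero, add_zero]
  rw [← h1, mul_nsmul]
  exact S.nsmul_mem hmx k

lemma cor₀_congr {G A : Type} [Group G] [AddCommGroup A] [DistribMulAction G A] {N N' : Subgroup G}
    [Fintype (G ⧸ N)] [Fintype (G ⧸ N')] (h : N = N') (b : Coh.inv N A) (b' : Coh.inv N' A)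
    (hb : (b : A) = b') : (Coh.cor₀ N b : A) = Coh.cor₀ N' b' := by
  subst h
  obtain rfl : b = b' := Subtype.ext hb
  congr!

variable {p : ℕ} {F Ω : Type} [Field F] [Field Ω] [Algebra F Ω] [Normal F Ω] [Fact p.Prime]
  {H K K' : Subgroup (Ω ≃ₐ[F] Ω)}

omit [Fact (Nat.Prime p)] in
lemma resLE₂_resLE₂ (h : K ≤ H) (h' : K' ≤ K) (x : H2μ p H) :
    resLE₂ h' (resLE₂ h x) = resLE₂ (h'.trans h) x := by
  obtain ⟨f, rfl⟩ := Coh.H2.mk_surjective x
  rfl

omit [Fact (Nat.Prime p)] in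
lemma eq_zero_of_resLE₂_of_eq (h : K ≤ H) (he : K = H) {x : H2μ p H} (hx : resLE₂ h x = 0) :
    x = 0 := by
  subst he
  obtain ⟨f, rfl⟩ := Coh.H2.mk_surjective x
  exact hx

variable [IsAlgClosed Ω] {z₀ : Mu p Ω} (hz : z₀ ≠ 0) (hμ : ∀ (g : H) (z : Mu p Ω), g • z = z)

include hμ in
/-- Every character is the character of a Kummer class. -/
lemma exists_chiOf_eq (hH : (galLevels F Ω).ok H) (χ : Char1 p H) :
    ∃ c, chiOf hz hμ c = χ := by
  have heq : Coh.IsEquivariant (MonoidHom.id H) ((zpSmul (p := p) (L := Ω)).flip z₀) :=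
    fun g i => by
    show zpSmul (g • i) z₀ = g • zpSmul i z₀
    rw [Zp.smul_eq, hμ g]
  obtain ⟨c, hc⟩ := kummer_surjective (Fact.out : p.Prime).pos H hH
    (Coh.H1.mk (Coh.Z1.map (Coh.Levels.compat_id _) heq χ))
  obtain ⟨m, hm⟩ := Coh.H1.mk_eq_mk.mp hc
  refine ⟨c, Subtype.ext (funext fun g => ?_)⟩
  rw [chiOf_apply, hm g, hμ g m, sub_self, add_zero, Coh.Z1.map_apply]
  exact (zpSmul_flip_bijective hz).1 (zpSmul_muDlog hz _)

omit [Fact (Nat.Prime p)] in
omit [IsAlgClosed Ω] in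
include hμ in
/-- Every class is killed by restriction to some open normal subgroup. -/
lemma exists_resLE₂_eq_zero (hH : (galLevels F Ω).ok H) (x : H2μ p H) :
    ∃ (N : Subgroup (Ω ≃ₐ[F] Ω)) (h : N ≤ H), (galLevels F Ω).ok N ∧ (N.subgroupOf H).Normal ∧
      resLE₂ h x = 0 := by
  obtain ⟨f, rfl⟩ := Coh.H2.mk_surjective x
  obtain ⟨U, hU, hfU⟩ := f.2.1
  obtain ⟨N, hN, hNn, hNH, hNU⟩ := Coh.exists_normal_level hH hU
  refine ⟨N, hNH, hN, hNn.subgroupOf H, ?_⟩
  refine Coh.H2.mk_eq_zero.mpr ⟨fun _ => (f : H → H → Mu p Ω) 1 1, Coh.isConst₁_const _, ?_⟩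
  funext g k
  show (g : N) • _ - _ + _ = (f : H → H → Mu p Ω) (Subgroup.inclusion hNH g)
    (Subgroup.inclusion hNH k)
  have h := hfU 1 1 (Subgroup.inclusion hNH g) (hNU _ g.2) (Subgroup.inclusion hNH k) (hNU _ k.2)
  rw [one_mul, one_mul] at h
  rw [h, sub_add_cancel]
  exact hμ (Subgroup.inclusion hNH g) _

end Abstract

namespace Local

variable {q : ℕ} [Fact q.Prime] {p : ℕ} [Fact p.Prime] {z₀ : Mu p (PadicAlgCl q)} (hz : z₀ ≠ 0)
  {L : IntermediateField ℚ_[q] (PadicAlgCl q)} [FiniteDimensional ℚ_[q] L]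
  (hμ : ∀ (g : L.fixingSubgroup) (z : Mu p (PadicAlgCl q)), g • z = z)

omit [FiniteDimensional ℚ_[q] ↥L] in
include hz hμ in
theorem exists_isPrimitiveRoot : ∃ ζ : L, IsPrimitiveRoot ζ p := by
  have h : uVal (muVal z₀) ∈ L := (mem_inv_fixingSubgroup L).mp fun g => congrArg muVal (hμ g z₀)
  exact ⟨⟨_, h⟩, IsPrimitiveRoot.of_map_of_injective (f := L.val)
    (isPrimitiveRoot_of_mu_ne_zero hz) L.val.injective⟩

include hz hμ in
/-- There is a class outside any cyclic subgroup. -/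
theorem exists_kummer_notMem (v : H1μ p L.fixingSubgroup) :
    ∃ a, kummer L.fixingSubgroup (Fact.out : p.Prime).pos a ∉ AddSubgroup.zmultiples v := by
  have hp : p.Prime := Fact.out
  obtain ⟨ζ, hζ⟩ := exists_isPrimitiveRoot hz hμ
  by_contra h
  simp only [not_exists, not_not] at h
  have htop : AddSubgroup.zmultiples v = ⊤ := eq_top_iff.mpr fun w _ => by
    obtain ⟨a, rfl⟩ := kummer_surjective hp.pos _ (ok_fixingSubgroup L) w
    exact h a
  have hv : addOrderOf v ∣ p := by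
    refine addOrderOf_dvd_of_nsmul_eq_zero ?_
    obtain ⟨f, rfl⟩ := Coh.H1.mk_surjective v
    rw [← map_nsmul, show p • f = 0 from Subtype.ext (funext fun g => muVal_injective
      ((map_nsmul muVal p _).trans ((nsmul_muVal _).trans (map_zero _).symm))), map_zero]
  have hcard := card_H1μ (L := L) hζ
  rw [← AddSubgroup.card_top, ← htop, Nat.card_zmultiples] at hcard
  have h2 : p ^ 2 ≤ p := (Nat.pow_le_pow_right hp.pos (Nat.le_add_right 2 _)).trans
    (hcard ▸ Nat.le_of_dvd hp.pos hv)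
  have := hp.two_le
  nlinarith

include hz hμ in
theorem exists_kummer_ne_zero :
    ∃ a, kummer L.fixingSubgroup (Fact.out : p.Prime).pos a ≠ 0 := by
  obtain ⟨a, ha⟩ := exists_kummer_notMem hz hμ 0
  exact ⟨a, fun h => ha (by rw [h]; exact zero_mem _)⟩

section Step

variable {K : IntermediateField ℚ_[q] (PadicAlgCl q)} [FiniteDimensional ℚ_[q] K]
  (hKL : K.fixingSubgroup ≤ L.fixingSubgroup)

omit [FiniteDimensional ℚ_[q] L] in
theorem normInv_inclInv (a : Coh.inv L.fixingSubgroup (Lx (PadicAlgCl q))) :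
    normInv hKL (ok_fixingSubgroup K) (inclInv hKL a) =
      K.fixingSubgroup.relIndex L.fixingSubgroup • a := by
  have := finite_quotient_subgroupOf (H := L.fixingSubgroup) (ok_fixingSubgroup K)
  let := Fintype.ofFinite (L.fixingSubgroup ⧸ K.fixingSubgroup.subgroupOf L.fixingSubgroup)
  rw [normInv_apply]
  refine Subtype.ext ?_
  show ∑ x : L.fixingSubgroup ⧸ K.fixingSubgroup.subgroupOf L.fixingSubgroup,
    x.out • (a : Lx (PadicAlgCl q)) = _
  rw [Finset.sum_congr rfl fun x _ => a.2 x.out, Finset.sum_const, Finset.card_univ,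
    ← Nat.card_eq_fintype_card]
  rfl

variable (hn : (K.fixingSubgroup.subgroupOf L.fixingSubgroup).Normal)
  (hidx : K.fixingSubgroup.relIndex L.fixingSubgroup = p)

include hz hμ hn hidx in
/-- In degree `p` some symbol corestricts non-trivially. -/
theorem exists_symb_normInv_ne_zero :
    ∃ a b, symb hz hμ a (normInv hKL (ok_fixingSubgroup K) b) ≠ 0 := by
  have hp : p.Prime := Fact.out
  have hH := ok_fixingSubgroup L
  obtain ⟨χ, hχ, hker⟩ := exists_char_of_index_eq
    (ok_subgroupOf (H := L.fixingSubgroup) (ok_fixingSubgroup K)) hidx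
  obtain ⟨c, rfl⟩ := exists_chiOf_eq hz hμ hH χ
  have hc : kummer L.fixingSubgroup hp.pos c ≠ 0 := fun h => hχ ((chiOf_eq_zero_iff hz hμ).mpr h)
  obtain ⟨a, ha⟩ := exists_kummer_notMem hz hμ (kummer L.fixingSubgroup hp.pos c)
  refine ⟨a, ?_⟩
  by_contra hzero
  simp only [not_exists, not_not] at hzero
  have hle : (symb hz hμ c).ker ≤ (symb hz hμ a).ker := fun e he => by
    have := finite_quotient_subgroupOf (H := L.fixingSubgroup) (ok_fixingSubgroup K)
    let := Fintype.ofFinite (L.fixingSubgroup ⧸ K.fixingSubgroup.subgroupOf L.fixingSubgroup)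
    have : Finite (L.fixingSubgroup ⧸ chiKer (chiOf hz hμ c)) := by rw [hker]; infer_instance
    let := Fintype.ofFinite (L.fixingSubgroup ⧸ chiKer (chiOf hz hμ c))
    rw [AddMonoidHom.mem_ker, symb_eq_cupChi, cupChi_eq_zero_iff _ hχ hH] at he
    obtain ⟨b', hb'⟩ := he
    let b : Coh.inv K.fixingSubgroup (Lx (PadicAlgCl q)) :=
      ⟨(b' : Lx (PadicAlgCl q)), fun g => b'.2 ⟨Subgroup.inclusion hKL g, hker.ge g.2⟩⟩
    have hb : normInv hKL (ok_fixingSubgroup K) b = e := by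
      refine Subtype.ext ?_
      rw [normInv_apply, ← hb']
      exact cor₀_congr hker.symm _ _ rfl
    rw [AddMonoidHom.mem_ker, ← hb]
    exact hzero b
  obtain ⟨e, he⟩ := exists_symb_ne_zero hz hμ hc
  obtain ⟨k, hk⟩ : ∃ k : ℤ, symb hz hμ a e = k • symb hz hμ c e := by
    have hane : kummer L.fixingSubgroup hp.pos a ≠ 0 := fun h => ha (by rw [h]; exact zero_mem _)
    have hmem : symb hz hμ a e ∈ (symb hz hμ c).range :=
      range_symb_eq hz hμ hane hc ▸ ⟨e, rfl⟩
    have hgen := zmultiples_eq_top_of_prime_card (card_range_symb hz hμ hc)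
      (g := (⟨_, e, rfl⟩ : (symb hz hμ c).range)) fun h => he (congrArg Subtype.val h)
    obtain ⟨k, hk⟩ := AddSubgroup.mem_zmultiples_iff.mp
      (hgen ▸ AddSubgroup.mem_top (⟨_, hmem⟩ : (symb hz hμ c).range))
    exact ⟨k, (congrArg Subtype.val hk).symm⟩
  set a' := a - k • c
  have hsy : ∀ y, symb hz hμ a' y = symb hz hμ a y - k • symb hz hμ c y := fun y => by
    rw [map_sub (symb hz hμ), map_zsmul (symb hz hμ), AddMonoidHom.sub_apply]
    rfl
  refine ha (AddSubgroup.mem_zmultiples_iff.mpr ⟨k, ?_⟩)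
  rw [eq_comm, ← sub_eq_zero, ← map_zsmul, ← map_sub]
  by_contra hne
  have hlt : (symb hz hμ c).ker < (symb hz hμ a').ker := by
    refine lt_of_le_of_ne (fun y hy => ?_) fun heq => he ?_
    · rw [AddMonoidHom.mem_ker] at hy ⊢
      rw [hsy, AddMonoidHom.mem_ker.mp (hle (AddMonoidHom.mem_ker.mpr hy)), hy, smul_zero,
        sub_zero]
    · have : e ∈ (symb hz hμ a').ker := by rw [AddMonoidHom.mem_ker, hsy, hk, sub_self]
      rw [← heq] at this
      exact this
  have h1 := AddSubgroup.relIndex_mul_index hlt.le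
  rw [index_ker_symb hz hμ hne, index_ker_symb hz hμ hc] at h1
  exact not_le_of_gt hlt (AddSubgroup.relIndex_eq_one.mp
    (Nat.eq_of_mul_eq_mul_right hp.pos (h1.trans (one_mul p).symm)))

include hz hμ hn hidx in
/-- A class that is symbolic on a subgroup of index `p` is symbolic. -/
theorem mem_range_of_resLE_mem (x : H2μ p L.fixingSubgroup)
    (hx : ∀ a', kummer K.fixingSubgroup (Fact.out : p.Prime).pos a' ≠ 0 →
      resLE₂ hKL x ∈ (symb hz (mu_fixed_of_le hKL hμ) a').range)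
    {a : Coh.inv L.fixingSubgroup (Lx (PadicAlgCl q))}
    (ha : kummer L.fixingSubgroup (Fact.out : p.Prime).pos a ≠ 0) :
    x ∈ (symb hz hμ a).range := by
  have hp : p.Prime := Fact.out
  obtain ⟨a₁, b₁, hab⟩ := exists_symb_normInv_ne_zero hz hμ hKL hn hidx
  rw [← corLE₂_symb hKL hz hμ (ok_fixingSubgroup K)] at hab
  set w := symb hz (mu_fixed_of_le hKL hμ) (inclInv hKL a₁) b₁ with hw
  have hw0 : w ≠ 0 := fun h => hab (by rw [h, map_zero])
  have ha₁ : kummer K.fixingSubgroup hp.pos (inclInv hKL a₁) ≠ 0 := fun h =>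
    hw0 (by rw [hw, symb_apply, h, map_zero, AddMonoidHom.zero_apply])
  have hgen := zmultiples_eq_top_of_prime_card
    (card_range_symb hz (mu_fixed_of_le hKL hμ) ha₁)
    (g := (⟨w, b₁, rfl⟩ : (symb hz (mu_fixed_of_le hKL hμ) (inclInv hKL a₁)).range))
    fun h => hw0 (congrArg Subtype.val h)
  obtain ⟨k, hk⟩ := AddSubgroup.mem_zmultiples_iff.mp
    (hgen ▸ AddSubgroup.mem_top (⟨_, hx _ ha₁⟩ :
      (symb hz (mu_fixed_of_le hKL hμ) (inclInv hKL a₁)).range))
  have hk' : k • w = resLE₂ hKL x := congrArg Subtype.val hk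
  have h0 : resLE₂ hKL x = 0 := by
    have h1 := corLE₂_resLE₂ hKL (ok_fixingSubgroup K) x
    rw [hidx, nsmul_H2μ, ← hk', map_zsmul] at h1
    have hord : addOrderOf (corLE₂ hKL (ok_fixingSubgroup K) w) = p :=
      addOrderOf_eq_prime (nsmul_H2μ _) hab
    obtain ⟨j, rfl⟩ : (p : ℤ) ∣ k := hord ▸ addOrderOf_dvd_iff_zsmul_eq_zero.mpr h1
    rw [← hk', mul_zsmul, natCast_zsmul, nsmul_H2μ]
  have := hn
  obtain ⟨χ, a₂, hχ, -, hxe⟩ := exists_cupChi_of_resLE_eq_zero (ok_fixingSubgroup L)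
    (ok_fixingSubgroup K) hKL hn hidx x h0
  obtain ⟨c, rfl⟩ := exists_chiOf_eq hz hμ (ok_fixingSubgroup L) χ
  rw [range_symb_eq hz hμ ha fun h => hχ ((chiOf_eq_zero_iff hz hμ).mpr h), ← hxe]
  exact ⟨a₂, rfl⟩

omit [FiniteDimensional ℚ_[q] ↥L] in
omit hn hidx in
include hz hμ in
/-- A class that is symbolic on a subgroup of index prime to `p` is symbolic. -/
theorem mem_range_of_coprime (hm : ¬ p ∣ K.fixingSubgroup.relIndex L.fixingSubgroup)
    (x : H2μ p L.fixingSubgroup)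
    (hx : ∀ a', kummer K.fixingSubgroup (Fact.out : p.Prime).pos a' ≠ 0 →
      resLE₂ hKL x ∈ (symb hz (mu_fixed_of_le hKL hμ) a').range)
    {a : Coh.inv L.fixingSubgroup (Lx (PadicAlgCl q))}
    (ha : kummer L.fixingSubgroup (Fact.out : p.Prime).pos a ≠ 0) :
    x ∈ (symb hz hμ a).range := by
  have hp : p.Prime := Fact.out
  have ha₁ : kummer K.fixingSubgroup hp.pos (inclInv hKL a) ≠ 0 := fun h => by
    obtain ⟨y, hy⟩ := (kummer_eq_zero_iff hp.pos _ _).mp h
    have h1 : kummer L.fixingSubgroup hp.pos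
        (K.fixingSubgroup.relIndex L.fixingSubgroup • a) = 0 := by
      rw [← normInv_inclInv hKL, ← hy, map_nsmul, kummer_eq_zero_iff]
      exact ⟨_, rfl⟩
    rw [map_nsmul] at h1
    refine ha ((AddSubgroup.mem_bot).mp (mem_of_nsmul_mem ⊥ hp hm ?_ (AddSubgroup.mem_bot.mpr h1)))
    rw [← map_nsmul, kummer_eq_zero_iff]
    exact ⟨a, rfl⟩
  obtain ⟨b, hb⟩ := hx _ ha₁
  refine mem_of_nsmul_mem _ hp hm (nsmul_H2μ x) ⟨normInv hKL (ok_fixingSubgroup K) b, ?_⟩
  rw [← corLE₂_resLE₂ hKL (ok_fixingSubgroup K) x, ← hb, corLE₂_symb hKL hz hμ]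

end Step

section Top

omit [FiniteDimensional ℚ_[q] L] in
/-- An intermediate normal subgroup of index `p` in a `p`-power step. -/
theorem exists_intermediate {H N : Subgroup (GalLoc q)} (hN : (galLevels ℚ_[q] (PadicAlgCl q)).ok N)
    (hNH : N ≤ H) (hn : (N.subgroupOf H).Normal) {d : ℕ} (hd : N.relIndex H = p ^ (d + 1)) :
    ∃ (K : IntermediateField ℚ_[q] (PadicAlgCl q)) (_ : FiniteDimensional ℚ_[q] K),
      K.fixingSubgroup ≤ H ∧ N ≤ K.fixingSubgroup ∧ (K.fixingSubgroup.subgroupOf H).Normal ∧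
        K.fixingSubgroup.relIndex H = p ∧ (N.subgroupOf K.fixingSubgroup).Normal ∧
          N.relIndex K.fixingSubgroup = p ^ d := by
  have hp : p.Prime := Fact.out
  have := hn
  have := finite_quotient_subgroupOf (H := H) hN
  have hcard : Nat.card (H ⧸ N.subgroupOf H) = p ^ (d + 1) := hd
  obtain ⟨Kb, hKb⟩ := Sylow.exists_subgroup_card_pow_prime p
    (n := d) (G := H ⧸ N.subgroupOf H) (by rw [hcard]; exact pow_dvd_pow p (Nat.le_succ d))
  have hKi : Kb.index = p := by
    have h := Kb.card_mul_index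
    rw [hKb, hcard, pow_succ] at h
    exact Nat.eq_of_mul_eq_mul_left (pow_pos hp.pos d) h
  have : Kb.Normal := Subgroup.normal_of_index_eq_minFac_card
    (by rw [hKi, hcard, Nat.Prime.pow_minFac hp (Nat.succ_ne_zero d)])
  set M' : Subgroup H := Kb.comap (QuotientGroup.mk' (N.subgroupOf H)) with hM'
  set M : Subgroup (GalLoc q) := M'.map H.subtype with hMdef
  have hMH : M ≤ H := Subgroup.map_subtype_le M'
  have hsub : M.subgroupOf H = M' :=
    Subgroup.comap_map_eq_self_of_injective H.subtype_injective M'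
  have hNM : N ≤ M := fun g hg => by
    refine Subgroup.mem_map.mpr ⟨⟨g, hNH hg⟩, ?_, rfl⟩
    rw [hM', Subgroup.mem_comap]
    convert one_mem Kb
    exact (QuotientGroup.eq_one_iff _).mpr hg
  obtain ⟨K, hK, hKeq⟩ := exists_field_of_ok ((galLevels ℚ_[q] (PadicAlgCl q)).mono hN hNM)
  refine ⟨K, hK, ?_⟩
  rw [hKeq]
  have hMi : M.relIndex H = p := by
    show (M.subgroupOf H).index = p
    rw [hsub, hM', Subgroup.index_comap_of_surjective _ (QuotientGroup.mk'_surjective _), hKi]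
  refine ⟨hMH, hNM, ?_, hMi, ?_, ?_⟩
  · rw [hsub, hM']
    exact Subgroup.normal_comap _
  · exact ⟨fun n hn' m => Subgroup.mem_subgroupOf.mpr (by
      have h1 := hn.conj_mem ⟨(n : GalLoc q), hMH n.2⟩ hn' ⟨(m : GalLoc q), hMH m.2⟩
      exact h1)⟩
  · have h := Subgroup.relIndex_mul_relIndex N M H hNM hMH
    rw [hd, hMi, pow_succ] at h
    exact Nat.eq_of_mul_eq_mul_right hp.pos h

omit [FiniteDimensional ℚ_[q] L] in
theorem mem_range_of_pow : ∀ (d : ℕ) (L : IntermediateField ℚ_[q] (PadicAlgCl q))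
    [FiniteDimensional ℚ_[q] L]
    (hμ : ∀ (g : L.fixingSubgroup) (z : Mu p (PadicAlgCl q)), g • z = z)
    (N : Subgroup (GalLoc q)) (hN : N ≤ L.fixingSubgroup),
    (galLevels ℚ_[q] (PadicAlgCl q)).ok N → (N.subgroupOf L.fixingSubgroup).Normal →
    N.relIndex L.fixingSubgroup = p ^ d → ∀ x, resLE₂ hN x = 0 →
    ∀ {a}, kummer L.fixingSubgroup (Fact.out : p.Prime).pos a ≠ 0 →
      x ∈ (symb hz hμ a).range := by
  intro d
  induction d with
  | zero =>
    intro L _ hμ N hN _ _ hd x hx a _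
    rw [pow_zero, Subgroup.relIndex_eq_one] at hd
    rw [eq_zero_of_resLE₂_of_eq hN (le_antisymm hN hd) hx]
    exact zero_mem _
  | succ d ih =>
    intro L _ hμ N hN hNok hn hd x hx a ha
    obtain ⟨K, hK, hKL, hNK, hKn, hKi, hNn, hNi⟩ := exists_intermediate hNok hN hn hd
    refine mem_range_of_resLE_mem hz hμ hKL hKn hKi x (fun a' ha' => ?_) ha
    exact ih K (mu_fixed_of_le hKL hμ) N hNK hNok hNn hNi _
      (by rw [resLE₂_resLE₂]; exact hx) ha'

include hz hμ in
/-- Every class is a symbol. -/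
theorem range_symb_eq_top {a : Coh.inv L.fixingSubgroup (Lx (PadicAlgCl q))}
    (ha : kummer L.fixingSubgroup (Fact.out : p.Prime).pos a ≠ 0) :
    (symb hz hμ a).range = ⊤ := by
  refine eq_top_iff.mpr fun x _ => ?_
  obtain ⟨N, hN, hNok, hNn, hx⟩ := exists_resLE₂_eq_zero hμ (ok_fixingSubgroup L) x
  have := hNn
  have := finite_quotient_subgroupOf (H := L.fixingSubgroup) hNok
  let P : Sylow p (L.fixingSubgroup ⧸ N.subgroupOf L.fixingSubgroup) := default
  set S' : Subgroup L.fixingSubgroup :=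
    (P : Subgroup (L.fixingSubgroup ⧸ N.subgroupOf L.fixingSubgroup)).comap
    (QuotientGroup.mk' (N.subgroupOf L.fixingSubgroup)) with hS'
  set S : Subgroup (GalLoc q) := S'.map (L.fixingSubgroup).subtype with hS
  have hSH : S ≤ L.fixingSubgroup := Subgroup.map_subtype_le S'
  have hsub : S.subgroupOf L.fixingSubgroup = S' :=
    Subgroup.comap_map_eq_self_of_injective (L.fixingSubgroup).subtype_injective S'
  have hNS : N ≤ S := fun g hg => by
    refine Subgroup.mem_map.mpr ⟨⟨g, hN hg⟩, ?_, rfl⟩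
    rw [hS', Subgroup.mem_comap]
    convert one_mem (P : Subgroup (L.fixingSubgroup ⧸ N.subgroupOf L.fixingSubgroup))
    exact (QuotientGroup.eq_one_iff _).mpr hg
  have hSi : S.relIndex L.fixingSubgroup =
      (P : Subgroup (L.fixingSubgroup ⧸ N.subgroupOf L.fixingSubgroup)).index := by
    show (S.subgroupOf L.fixingSubgroup).index = _
    rw [hsub, hS', Subgroup.index_comap_of_surjective _ (QuotientGroup.mk'_surjective _)]
  obtain ⟨d, hd⟩ := P.isPGroup'.exists_card_eq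
  have hNS' : N.relIndex S = p ^ d := by
    have h1 := Subgroup.relIndex_mul_relIndex N S L.fixingSubgroup hNS hSH
    have h2 := (P : Subgroup (L.fixingSubgroup ⧸ N.subgroupOf L.fixingSubgroup)).card_mul_index
    have hpos : 0 < (P : Subgroup (L.fixingSubgroup ⧸ N.subgroupOf L.fixingSubgroup)).index :=
      Nat.pos_of_ne_zero Subgroup.index_ne_zero_of_finite
    rw [hSi, show N.relIndex L.fixingSubgroup =
      Nat.card (L.fixingSubgroup ⧸ N.subgroupOf L.fixingSubgroup) from rfl, ← h2] at h1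
    exact (Nat.eq_of_mul_eq_mul_right hpos h1).trans hd
  have hnS : (N.subgroupOf S).Normal := ⟨fun n hn' m =>
    hNn.conj_mem ⟨(n : GalLoc q), hSH n.2⟩ hn' ⟨(m : GalLoc q), hSH m.2⟩⟩
  obtain ⟨K, hK, hKeq⟩ := exists_field_of_ok ((galLevels ℚ_[q] (PadicAlgCl q)).mono hNok hNS)
  have hKH : K.fixingSubgroup ≤ L.fixingSubgroup := hKeq ▸ hSH
  refine mem_range_of_coprime hz hμ hKH ?_ x (fun a' ha' => ?_) ha
  · rw [hKeq, hSi]
    exact P.not_dvd_index
  · refine mem_range_of_pow hz d K (mu_fixed_of_le hKH hμ) N (hKeq ▸ hNS) hNok ?_ ?_ _ ?_ ha'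
    · rw [hKeq]; exact hnS
    · rw [hKeq]; exact hNS'
    · rw [resLE₂_resLE₂]; exact hx

include hz hμ in
/-- `H²(μ_p)` of a local field containing the `p`-th roots of unity has `p` elements. -/
theorem card_H2μ : Nat.card (H2μ p L.fixingSubgroup) = p := by
  obtain ⟨a, ha⟩ := exists_kummer_ne_zero hz hμ
  rw [← AddSubgroup.card_top, ← range_symb_eq_top hz hμ ha, card_range_symb hz hμ ha]

variable {K : IntermediateField ℚ_[q] (PadicAlgCl q)} [FiniteDimensional ℚ_[q] K]
  (hKL : K.fixingSubgroup ≤ L.fixingSubgroup)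

include hz hμ in
/-- Corestriction in degree `p` is bijective. -/
theorem corLE₂_bijective_of_index_eq (hn : (K.fixingSubgroup.subgroupOf L.fixingSubgroup).Normal)
    (hidx : K.fixingSubgroup.relIndex L.fixingSubgroup = p) :
    Function.Bijective (corLE₂ (p := p) hKL (ok_fixingSubgroup K)) := by
  obtain ⟨a, b, hab⟩ := exists_symb_normInv_ne_zero hz hμ hKL hn hidx
  rw [← corLE₂_symb hKL hz hμ (ok_fixingSubgroup K)] at hab
  exact bijective_of_card_eq_prime (card_H2μ hz (mu_fixed_of_le hKL hμ)) (card_H2μ hz hμ) _ hab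

end Top

end Local

end Fermat.Agent.Duality

end
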