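import Mathlib
import Fermat.Agent.Duality.Herbrand

/-!
The norm index of a cyclic extension of a locally compact ultrametric field equals its degree.
Elementary proof: a small normal-basis lattice gives a cohomologically trivial open subgroup `V`,
and the Herbrand quotient of `Mˣ` is read off on the finite-index subgroup generated by `V` and a
nonzero non-unit of the base field.
-/

set_option autoImplicit false

noncomputable section

open scoped BigOperators
open Module

namespace Fermat.Agent.Duality.Local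

section Lattice

variable (K M : Type*) [NontriviallyNormedField K] [NormedField M] [NormedAlgebra K M]
  [FiniteDimensional K M] [IsGalois K M]

/-- The sup norm of the coordinates with respect to a normal basis. -/
def coordNorm (x : M) : ℝ := ‖(IsGalois.normalBasis K M).equivFun x‖

theorem coordNorm_nonneg (x : M) : 0 ≤ coordNorm K M x := norm_nonneg _

theorem coordNorm_zero : coordNorm K M 0 = 0 := by simp [coordNorm]

theorem coordNorm_neg (x : M) : coordNorm K M (-x) = coordNorm K M x := by simp [coordNorm]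

theorem coordNorm_add_le_max [IsUltrametricDist K] (x y : M) :
    coordNorm K M (x + y) ≤ max (coordNorm K M x) (coordNorm K M y) := by
  rw [coordNorm, map_add]
  exact IsUltrametricDist.norm_add_le_max _ _

theorem equivFun_smul_galois (g : M ≃ₐ[K] M) (x : M) :
    (IsGalois.normalBasis K M).equivFun (g x) =
      fun h => (IsGalois.normalBasis K M).equivFun x (g⁻¹ * h) := by
  classical
  set b := IsGalois.normalBasis K M
  funext h
  have hx : g x = ∑ i, b.equivFun x i • b (g * i) := by
    conv_lhs => rw [← b.sum_equivFun x]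
    rw [map_sum]
    refine Finset.sum_congr rfl fun i _ => ?_
    rw [map_smul, IsGalois.normalBasis_apply i, IsGalois.normalBasis_apply (g * i),
      AlgEquiv.mul_apply]
  rw [hx, map_sum, Finset.sum_apply, Finset.sum_eq_single (g⁻¹ * h)]
  · simp
  · intro i _ hi
    have : g * i ≠ h := fun e => hi (by rw [← e, inv_mul_cancel_left])
    simp [this]
  · simp

theorem coordNorm_galois (g : M ≃ₐ[K] M) (x : M) : coordNorm K M (g x) = coordNorm K M x := by
  classical
  rw [coordNorm, coordNorm, equivFun_smul_galois]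
  refine le_antisymm ((pi_norm_le_iff_of_nonneg (norm_nonneg _)).2 fun h => norm_le_pi_norm _ _)
    ((pi_norm_le_iff_of_nonneg (norm_nonneg _)).2 fun h => ?_)
  simpa using norm_le_pi_norm
    (fun h' => (IsGalois.normalBasis K M).equivFun x (g⁻¹ * h')) (g * h)

/-- The linear sum of coordinates. -/
def coordSum (x : M) : K := ∑ g, (IsGalois.normalBasis K M).equivFun x g

theorem sum_galois_eq (x : M) :
    ∑ g : M ≃ₐ[K] M, g x = coordSum K M x • ∑ g, IsGalois.normalBasis K M g := by
  classical
  set b := IsGalois.normalBasis K M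
  apply b.equivFun.injective
  funext h
  rw [map_sum, Finset.sum_apply, map_smul, map_sum]
  simp only [b, equivFun_smul_galois, Pi.smul_apply, Finset.sum_apply, smul_eq_mul]
  have : (∑ g, b.equivFun (b g) h) = 1 := by simp
  rw [this, mul_one, coordSum]
  exact Fintype.sum_bijective (fun g => g⁻¹ * h)
    ((Group.mulRight_bijective h).comp inv_involutive.bijective) _ _ fun _ => rfl

variable [IsUltrametricDist K] [CompleteSpace K]

omit [IsUltrametricDist K] in
theorem exists_bounds : ∃ C : ℝ, 0 < C ∧ (∀ x : M, coordNorm K M x ≤ C * ‖x‖) ∧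
    ∀ x : M, ‖x‖ ≤ C * coordNorm K M x := by
  obtain ⟨C₁, hC₁, h₁⟩ :=
    (LinearMap.toContinuousLinearMap (IsGalois.normalBasis K M).equivFun.toLinearMap).bound
  obtain ⟨C₂, hC₂, h₂⟩ :=
    (LinearMap.toContinuousLinearMap (IsGalois.normalBasis K M).equivFun.symm.toLinearMap).bound
  refine ⟨max C₁ C₂, lt_max_of_lt_left hC₁,
    fun x => (h₁ x).trans (mul_le_mul_of_nonneg_right (le_max_left _ _) (norm_nonneg x)),
    fun x => ?_⟩
  have h := h₂ ((IsGalois.normalBasis K M).equivFun x)
  rw [LinearMap.coe_toContinuousLinearMap', LinearEquiv.coe_coe,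
    LinearEquiv.symm_apply_apply] at h
  exact h.trans (mul_le_mul_of_nonneg_right (le_max_right _ _) (norm_nonneg _))

omit [IsUltrametricDist K] in
/-- A scale below which the coordinate lattices are multiplicatively negligible. -/
theorem exists_scale (c : ℝ) (hc : 0 < c) : ∃ r : ℝ, 0 < r ∧
    (∀ x : M, coordNorm K M x ≤ r → ‖x‖ < 1) ∧
    ∀ x y : M, coordNorm K M x ≤ r → coordNorm K M (x * y) ≤ c * coordNorm K M y := by
  obtain ⟨C, hC, h1, h2⟩ := exists_bounds K M
  refine ⟨min (c / C ^ 3) ((2 * C)⁻¹), lt_min (by positivity) (by positivity),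
    fun x hx => ?_, fun x y hx => ?_⟩
  · calc ‖x‖ ≤ C * coordNorm K M x := h2 x
      _ ≤ C * (2 * C)⁻¹ := by gcongr; exact hx.trans (min_le_right _ _)
      _ < 1 := by field_simp; norm_num
  · calc coordNorm K M (x * y) ≤ C * ‖x * y‖ := h1 _
      _ = C * (‖x‖ * ‖y‖) := by rw [norm_mul]
      _ ≤ C * ((C * coordNorm K M x) * (C * coordNorm K M y)) := by
        gcongr
        · exact mul_nonneg hC.le (coordNorm_nonneg K M x)
        · exact h2 x
        · exact h2 y
      _ = C ^ 3 * coordNorm K M x * coordNorm K M y := by ring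
      _ ≤ C ^ 3 * (c / C ^ 3) * coordNorm K M y := by
        gcongr
        · exact coordNorm_nonneg K M y
        · exact hx.trans (min_le_left _ _)
      _ = c * coordNorm K M y := by field_simp

end Lattice

section Index

variable {K M : Type*} [NontriviallyNormedField K] [IsUltrametricDist K] [ProperSpace K]
  [NormedField M] [NormedAlgebra K M] [FiniteDimensional K M] [IsGalois K M]
  {c r : ℝ} (hc : 0 < c) (hc1 : c < 1) (hr : 0 < r)
  (hnorm : ∀ x : M, coordNorm K M x ≤ r → ‖x‖ < 1)
  (hmul : ∀ x y : M, coordNorm K M x ≤ r → coordNorm K M (x * y) ≤ c * coordNorm K M y)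

omit [IsUltrametricDist K] [ProperSpace K] in
include hnorm in
theorem one_add_ne_zero {x : M} (hx : coordNorm K M x ≤ r) : 1 + x ≠ 0 := by
  intro h
  have := hnorm x hx
  rw [eq_neg_of_add_eq_zero_right h, norm_neg, norm_one] at this
  exact lt_irrefl _ this

omit [ProperSpace K] in
include hc hc1 hmul in
theorem coordNorm_mul_sub_one_le {s : ℝ} (hsr : s ≤ r) {u v : M}
    (hu : coordNorm K M (u - 1) ≤ s) (hv : coordNorm K M (v - 1) ≤ s) :
    coordNorm K M (u * v - 1) ≤ s ∧
      coordNorm K M (u * v - 1 - ((u - 1) + (v - 1))) ≤ c * s := by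
  have h0 : 0 ≤ s := (coordNorm_nonneg K M _).trans hu
  have h1 : coordNorm K M ((u - 1) * (v - 1)) ≤ c * s :=
    (hmul _ _ (hu.trans hsr)).trans (mul_le_mul_of_nonneg_left hv hc.le)
  have e : u * v - 1 - ((u - 1) + (v - 1)) = (u - 1) * (v - 1) := by ring
  refine ⟨?_, e ▸ h1⟩
  rw [show u * v - 1 = ((u - 1) + (v - 1)) + (u - 1) * (v - 1) by ring]
  refine (coordNorm_add_le_max K M _ _).trans
    (max_le ((coordNorm_add_le_max K M _ _).trans (max_le hu hv)) (h1.trans ?_))
  exact mul_le_of_le_one_left h0 hc1.le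

omit [ProperSpace K] in
include hnorm hc1 hmul in
theorem coordNorm_inv_sub_one_le {s : ℝ} (hsr : s ≤ r) {u : M}
    (hu : coordNorm K M (u - 1) ≤ s) : coordNorm K M (u⁻¹ - 1) ≤ s := by
  have hu0 : u ≠ 0 := by simpa using one_add_ne_zero hnorm (hu.trans hsr)
  set x := u⁻¹ - 1 with hx
  have e : x = -(u - 1) + -((u - 1) * x) := by
    rw [hx]; field_simp; ring
  have h1 : coordNorm K M x ≤ max s (c * coordNorm K M x) := by
    conv_lhs => rw [e]
    refine (coordNorm_add_le_max K M _ _).trans ?_
    rw [coordNorm_neg, coordNorm_neg]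
    exact max_le_max hu (hmul _ _ (hu.trans hsr))
  rcases le_max_iff.1 h1 with h | h
  · exact h
  · have : coordNorm K M x = 0 := by
      nlinarith [coordNorm_nonneg K M x]
    rw [this]
    exact (coordNorm_nonneg K M _).trans hu

/-- The open subgroup `1 + (lattice)` of `Mˣ`. -/
def latticeUnits (hc : 0 < c) (hc1 : c < 1) (hr : 0 < r)
    (hnorm : ∀ x : M, coordNorm K M x ≤ r → ‖x‖ < 1)
    (hmul : ∀ x y : M, coordNorm K M x ≤ r → coordNorm K M (x * y) ≤ c * coordNorm K M y) :
    Subgroup Mˣ where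
  carrier := {u | coordNorm K M ((u : M) - 1) ≤ r}
  one_mem' := by simp [coordNorm_zero, hr.le]
  mul_mem' hu hv := by
    simpa using (coordNorm_mul_sub_one_le hc hc1 hmul le_rfl hu hv).1
  inv_mem' hu := by
    simpa using coordNorm_inv_sub_one_le hc1 hnorm hmul le_rfl hu

omit [ProperSpace K] in
theorem mem_latticeUnits {u : Mˣ} :
    u ∈ latticeUnits hc hc1 hr hnorm hmul ↔ coordNorm K M ((u : M) - 1) ≤ r := Iff.rfl

omit [ProperSpace K] in
include hnorm in
theorem norm_eq_one_of_mem_latticeUnits {u : Mˣ} [IsUltrametricDist M]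
    (hu : u ∈ latticeUnits hc hc1 hr hnorm hmul) : ‖(u : M)‖ = 1 := by
  have h := hnorm _ hu
  rw [show (u : M) = ((u : M) - 1) + 1 by ring,
    IsUltrametricDist.norm_add_eq_max_of_norm_ne_norm (by rw [norm_one]; exact h.ne), norm_one,
    max_eq_right h.le]

/-- The norm to the base, as the product of the conjugates. -/
def normHom : Mˣ →* Mˣ where
  toFun u := ∏ g : M ≃ₐ[K] M, Units.map (g : M →* M) u
  map_one' := by simp
  map_mul' u v := by simp [Finset.prod_mul_distrib]

omit [IsUltrametricDist K] [ProperSpace K] [IsGalois K M] in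
theorem coe_normHom (u : Mˣ) :
    ((normHom (K := K) u : Mˣ) : M) = ∏ g : M ≃ₐ[K] M, g (u : M) := by
  simp [normHom, Units.coe_prod]

/-- `u ↦ σ u / u`. -/
def diffHom (σ : M ≃ₐ[K] M) : Mˣ →* Mˣ where
  toFun u := Units.map (σ : M →* M) u / u
  map_one' := by simp
  map_mul' u v := by rw [map_mul, mul_div_mul_comm]

omit [IsUltrametricDist K] [ProperSpace K] [FiniteDimensional K M] [IsGalois K M] in
theorem coe_diffHom (σ : M ≃ₐ[K] M) (u : Mˣ) :
    ((diffHom σ u : Mˣ) : M) = σ (u : M) / u := by
  simp [diffHom, Units.val_div_eq_div_val]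

omit [ProperSpace K] in
include hc hc1 hmul in
theorem coordNorm_prod_sub_le {ι : Type*} (t : Finset ι) (u : ι → M) {s : ℝ} (hs : 0 ≤ s)
    (hsr : s ≤ r) (hu : ∀ i ∈ t, coordNorm K M (u i - 1) ≤ s) :
    coordNorm K M (∏ i ∈ t, u i - 1) ≤ s ∧
      coordNorm K M (∏ i ∈ t, u i - 1 - ∑ i ∈ t, (u i - 1)) ≤ c * s := by
  classical
  induction t using Finset.induction_on with
  | empty => simp [coordNorm_zero, hs, mul_nonneg hc.le hs]
  | insert i t hi ih =>
    obtain ⟨h1, h2⟩ := ih fun j hj => hu j (Finset.mem_insert_of_mem hj)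
    obtain ⟨h3, h4⟩ :=
      coordNorm_mul_sub_one_le hc hc1 hmul hsr (hu i (Finset.mem_insert_self _ _)) h1
    rw [Finset.prod_insert hi, Finset.sum_insert hi]
    refine ⟨h3, ?_⟩
    rw [show u i * ∏ x ∈ t, u x - 1 - (u i - 1 + ∑ x ∈ t, (u x - 1)) =
        (u i * ∏ x ∈ t, u x - 1 - ((u i - 1) + (∏ x ∈ t, u x - 1))) +
        (∏ x ∈ t, u x - 1 - ∑ x ∈ t, (u x - 1)) by ring]
    exact (coordNorm_add_le_max K M _ _).trans (max_le h4 h2)

omit [IsUltrametricDist K] in
theorem isCompact_coord_ball (r : ℝ) : IsCompact {x : M | coordNorm K M x ≤ r} := by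
  let e := (IsGalois.normalBasis K M).equivFun.toContinuousLinearEquiv
  have h : {x : M | coordNorm K M x ≤ r} = e.symm '' Metric.closedBall 0 r := by
    ext x
    rw [ContinuousLinearEquiv.image_symm_eq_preimage]
    simp [coordNorm, e]
  rw [h]
  exact (isCompact_closedBall 0 r).image e.symm.continuous

omit [IsUltrametricDist K] in
theorem continuous_coordNorm : Continuous (coordNorm K M) :=
  continuous_norm.comp (IsGalois.normalBasis K M).equivFun.toContinuousLinearEquiv.continuous

omit [IsGalois K M] in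
omit [IsUltrametricDist K] in
theorem continuous_galois (g : M ≃ₐ[K] M) : Continuous g :=
  LinearMap.continuous_of_finiteDimensional g.toLinearMap

omit [IsUltrametricDist K] in
include hc hc1 in
/-- An element which is a limit of a closed set in the multiplicative coordinate topology lies in
it. -/
theorem mem_of_forall_approx {S : Set M} (hS : IsClosed S) {v : M} (z : ℕ → M)
    (hz : ∀ m, z m ∈ S) (hz0 : ∀ m, z m ≠ 0) (hv0 : v ≠ 0)
    (h : ∀ m, coordNorm K M (v / z m - 1) ≤ r * c ^ m) : v ∈ S := by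
  obtain ⟨C, hC, -, h2⟩ := exists_bounds K M
  have h0 : Filter.Tendsto (fun m : ℕ => C * (r * c ^ m)) Filter.atTop (nhds 0) := by
    simpa using ((tendsto_pow_atTop_nhds_zero_of_lt_one hc.le hc1).const_mul r).const_mul C
  have h1 : Filter.Tendsto (fun m => v / z m) Filter.atTop (nhds 1) :=
    tendsto_iff_norm_sub_tendsto_zero.2 (squeeze_zero (fun _ => norm_nonneg _)
      (fun m => (h2 _).trans (mul_le_mul_of_nonneg_left (h m) hC.le)) h0)
  have h3 := (tendsto_const_nhds (x := v)).div h1 one_ne_zero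
  rw [div_one] at h3
  refine hS.mem_of_tendsto (h3.congr fun m => ?_) (Filter.Eventually.of_forall hz)
  simp only [Pi.div_apply]
  field_simp [hz0 m]

include hr hc hc1 hnorm hmul in
/-- Every fixed element of the lattice group is a norm from it. -/
theorem exists_normHom_eq {v : Mˣ} (hv : v ∈ latticeUnits hc hc1 hr hnorm hmul)
    (hfix : ∀ g : M ≃ₐ[K] M, g (v : M) = v) :
    ∃ w ∈ latticeUnits hc hc1 hr hnorm hmul, normHom (K := K) w = v := by
  classical
  -- successive approximation
  have step : ∀ m : ℕ, ∃ w ∈ latticeUnits hc hc1 hr hnorm hmul,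
      coordNorm K M ((v : M) / (normHom (K := K) w : Mˣ) - 1) ≤ r * c ^ m := by
    intro m
    induction m with
    | zero => exact ⟨1, one_mem _, by simpa [mem_latticeUnits] using hv⟩
    | succ m ih =>
      obtain ⟨w, hw, hwm⟩ := ih
      set s := r * c ^ m with hs
      have hs0 : 0 ≤ s := by positivity
      have hsr : s ≤ r := mul_le_of_le_one_right hr.le (pow_le_one₀ hc.le hc1.le)
      set a := (v : M) / (normHom (K := K) w : Mˣ) - 1 with ha
      have hafix : ∀ g : M ≃ₐ[K] M, g a = a := by
        intro g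
        rw [ha, map_sub, map_one, map_div₀, hfix, coe_normHom, map_prod]
        congr 2
        exact Fintype.prod_bijective (fun h => g * h) (Group.mulLeft_bijective g) _ _ fun _ => rfl
      set b := IsGalois.normalBasis K M
      set y : M := (b.equivFun a 1) • b 1 with hy
      have hcoord : ∀ g, b.equivFun a g = b.equivFun a 1 := fun g => by
        conv_lhs => rw [← hafix g]
        rw [equivFun_smul_galois]
        simp [b]
      have hyn : coordNorm K M y ≤ s := by
        refine le_trans ((pi_norm_le_iff_of_nonneg (norm_nonneg _)).2 fun g => ?_) hwm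
        rw [hy, map_smul, Pi.smul_apply, Module.Basis.equivFun_self]
        rcases eq_or_ne g 1 with rfl | hg
        · rw [if_pos rfl, smul_eq_mul, mul_one]
          exact norm_le_pi_norm (b.equivFun a) 1
        · rw [if_neg (Ne.symm hg), smul_zero, norm_zero]
          exact norm_nonneg _
      have hysum : ∑ g : M ≃ₐ[K] M, g y = a := by
        conv_rhs => rw [← b.sum_equivFun a]
        refine Finset.sum_congr rfl fun g _ => ?_
        rw [hy, map_smul, hcoord g, IsGalois.normalBasis_apply g]
      have hy1 : coordNorm K M ((1 + y) - 1) ≤ s := by simpa using hyn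
      let w' : Mˣ := Units.mk0 (1 + y) (one_add_ne_zero hnorm (hyn.trans hsr))
      refine ⟨w * w', mul_mem hw (le_trans hy1 hsr), ?_⟩
      obtain ⟨hN1, hN2⟩ := coordNorm_prod_sub_le hc hc1 hmul Finset.univ
        (fun g : M ≃ₐ[K] M => g (1 + y)) hs0 hsr fun g _ => by
          rw [show g (1 + y) - 1 = g y by simp, coordNorm_galois]; exact hyn
      rw [show (∑ g : M ≃ₐ[K] M, (g (1 + y) - 1)) = a by simpa using hysum,
        show (∏ g : M ≃ₐ[K] M, g (1 + y)) = ((normHom (K := K) w' : Mˣ) : M) from
          (coe_normHom (K := K) w').symm] at hN2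
      set N' : M := ((normHom (K := K) w' : Mˣ) : M) with hN'
      have hN'inv : coordNorm K M (N'⁻¹ - 1) ≤ r := by
        refine (coordNorm_inv_sub_one_le hc1 hnorm hmul hsr ?_).trans hsr
        rw [hN', coe_normHom]; exact hN1
      have hN'0 : N' ≠ 0 := Units.ne_zero _
      have e : (v : M) / (normHom (K := K) (w * w') : Mˣ) - 1 =
          -(N' - 1 - a) + (N'⁻¹ - 1) * -(N' - 1 - a) := by
        rw [map_mul, Units.val_mul, ← hN', ha]
        field_simp
        ring
      rw [e, pow_succ, ← mul_assoc, ← hs, mul_comm s]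
      refine (coordNorm_add_le_max K M _ _).trans (max_le (by rwa [coordNorm_neg]) ?_)
      refine (hmul _ _ hN'inv).trans ?_
      rw [coordNorm_neg]
      exact (mul_le_of_le_one_left (coordNorm_nonneg K M _) hc1.le).trans hN2
  choose w hw hwm using step
  -- the image of the compact lattice group is closed
  set S : Set M :=
    (fun x => ∏ g : M ≃ₐ[K] M, g x) '' ((fun x => 1 + x) '' {x | coordNorm K M x ≤ r})
  have hS : IsClosed S :=
    (((isCompact_coord_ball r).image (continuous_const.add continuous_id)).image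
    (continuous_finsetProd _ fun g _ => continuous_galois g)).isClosed
  obtain ⟨x, ⟨y, hy, rfl⟩, hx⟩ : (v : M) ∈ S :=
    mem_of_forall_approx hc hc1 hS _
      (fun m => ⟨(w m : M), ⟨(w m : M) - 1, hw m, by ring⟩, (coe_normHom (w m)).symm⟩)
      (fun m => Units.ne_zero _) v.ne_zero hwm
  exact ⟨Units.mk0 (1 + y) (one_add_ne_zero hnorm hy), by simpa [mem_latticeUnits] using hy,
    Units.ext (by rw [coe_normHom]; exact hx)⟩

omit [IsUltrametricDist K] [ProperSpace K] [IsGalois K M] in
theorem zpowers_eq_top_pow {σ : M ≃ₐ[K] M} (hσ : Subgroup.zpowers σ = ⊤) (g : M ≃ₐ[K] M) :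
    ∃ i : ℕ, σ ^ i = g :=
  Submonoid.mem_powers_iff g σ |>.1
    ((isOfFinOrder_of_finite σ).mem_powers_iff_mem_zpowers.2 (hσ ▸ Subgroup.mem_top g))

include hr hc hc1 hnorm hmul in
/-- Every element of norm one of the lattice group is `σ w / w` for some `w` in it. -/
theorem exists_diffHom_eq {σ : M ≃ₐ[K] M} (hσ : Subgroup.zpowers σ = ⊤) {v : Mˣ}
    (hv : v ∈ latticeUnits hc hc1 hr hnorm hmul) (hN : normHom (K := K) v = 1) :
    ∃ w ∈ latticeUnits hc hc1 hr hnorm hmul, diffHom σ w = v := by
  classical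
  set b := IsGalois.normalBasis K M with hb
  have hbnorm : ∀ g, coordNorm K M (b g) ≤ 1 := fun g => by
    refine (pi_norm_le_iff_of_nonneg zero_le_one).2 fun h => ?_
    rw [Module.Basis.equivFun_self]
    split_ifs <;> simp
  have hsmul : ∀ (k : K) (x : M), coordNorm K M (k • x) = ‖k‖ * coordNorm K M x := fun k x => by
    rw [coordNorm, map_smul, norm_smul, coordNorm]
  have hy0 : ∀ g : M ≃ₐ[K] M, ∃ y : M, coordNorm K M y ≤ 1 ∧ σ y - y = b g - b 1 := by
    intro g
    obtain ⟨i, rfl⟩ := zpowers_eq_top_pow hσ g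
    induction i with
    | zero => exact ⟨0, by simp [coordNorm_zero], by simp⟩
    | succ i ih =>
      obtain ⟨y, hy, hy'⟩ := ih
      refine ⟨y + b (σ ^ i), (coordNorm_add_le_max K M _ _).trans (max_le hy (hbnorm _)), ?_⟩
      rw [map_add, IsGalois.normalBasis_apply (σ ^ (i + 1)), pow_succ', AlgEquiv.mul_apply,
        ← IsGalois.normalBasis_apply (σ ^ i)]
      linear_combination hy'
  choose y₀ hy₀ hy₀' using hy0
  have step : ∀ m : ℕ, ∃ w ∈ latticeUnits hc hc1 hr hnorm hmul,
      coordNorm K M ((v : M) / (diffHom σ w : Mˣ) - 1) ≤ r * c ^ m := by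
    intro m
    induction m with
    | zero => exact ⟨1, one_mem _, by simpa [mem_latticeUnits] using hv⟩
    | succ m ih =>
      obtain ⟨w, hw, hwm⟩ := ih
      set s := r * c ^ m with hs
      have hs0 : 0 ≤ s := by positivity
      have hsr : s ≤ r := mul_le_of_le_one_right hr.le (pow_le_one₀ hc.le hc1.le)
      set a := (v : M) / (diffHom σ w : Mˣ) - 1 with ha
      have hNdiff : normHom (K := K) (diffHom σ w) = 1 := by
        refine Units.ext ?_
        rw [coe_normHom, Units.val_one, Finset.prod_congr rfl fun g _ => show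
            g ((diffHom σ w : Mˣ) : M) = g (σ (w : M)) / g (w : M) by rw [coe_diffHom, map_div₀],
          Finset.prod_div_distrib, div_eq_one_iff_eq (Finset.prod_ne_zero_iff.2 fun g _ =>
            (map_ne_zero g).2 w.ne_zero)]
        exact Fintype.prod_bijective (fun g => g * σ) (Group.mulRight_bijective σ) _ _
            fun _ => rfl
      have hNa : ∏ g : M ≃ₐ[K] M, g (1 + a) = 1 := by
        have h1 : 1 + a = ((v / diffHom σ w : Mˣ) : M) := by
          rw [ha, Units.val_div_eq_div_val]; ring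
        rw [h1, ← coe_normHom, map_div, hN, hNdiff, div_one, Units.val_one]
      have htr : coordNorm K M (∑ g : M ≃ₐ[K] M, g a) ≤ c * s := by
        obtain ⟨-, h2⟩ := coordNorm_prod_sub_le hc hc1 hmul Finset.univ
          (fun g : M ≃ₐ[K] M => g (1 + a)) hs0 hsr fun g _ => by
            rw [show g (1 + a) - 1 = g a by simp, coordNorm_galois]; exact hwm
        simp only [hNa] at h2
        simpa [coordNorm_neg] using h2
      set S := coordSum K M a with hS
      have hSnorm : ‖S‖ ≤ c * s := by
        refine le_trans ?_ htr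
        rw [sum_galois_eq, ← hS]
        refine le_trans (le_of_eq ?_) (norm_le_pi_norm _ (1 : M ≃ₐ[K] M))
        rw [map_smul, map_sum, Pi.smul_apply, Finset.sum_apply]
        simp
      set y : M := ∑ g, (b.equivFun a g - if g = 1 then S else 0) • y₀ g with hy
      have hcoef : ∀ g, ‖b.equivFun a g - if g = 1 then S else 0‖ ≤ s := fun g => by
        rw [sub_eq_add_neg]
        refine (IsUltrametricDist.norm_add_le_max _ _).trans
          (max_le ((norm_le_pi_norm (b.equivFun a) g).trans hwm) ?_)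
        rw [norm_neg]
        split_ifs
        · exact hSnorm.trans (mul_le_of_le_one_left hs0 hc1.le)
        · simpa using hs0
      have hyn : coordNorm K M y ≤ s := by
        rw [hy, coordNorm, map_sum]
        refine IsUltrametricDist.norm_sum_le_of_forall_le_of_nonneg hs0 fun g _ => ?_
        show coordNorm K M (_ • y₀ g) ≤ s
        rw [hsmul]
        exact (mul_le_mul (hcoef g) (hy₀ g) (coordNorm_nonneg K M _) hs0).trans (mul_one s).le
      have hdy : σ y - y = a - S • b 1 := by
        rw [hy, map_sum, ← Finset.sum_sub_distrib]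
        simp only [map_smul, ← smul_sub, hy₀']
        simp only [smul_sub, Finset.sum_sub_distrib, sub_smul, ite_smul, zero_smul,
          Finset.sum_ite_eq', Finset.mem_univ, if_true, b.sum_equivFun]
        rw [← Finset.sum_smul, hS, coordSum, ← hb]
        abel
      let w' : Mˣ := Units.mk0 (1 + y) (one_add_ne_zero hnorm (hyn.trans hsr))
      have hw'1 : coordNorm K M ((w' : M) - 1) ≤ s := by simpa [w'] using hyn
      refine ⟨w * w', mul_mem hw (le_trans hw'1 hsr), ?_⟩
      have hσy : coordNorm K M (σ (1 + y) - 1) ≤ s := by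
        rw [show σ (1 + y) - 1 = σ y by simp, coordNorm_galois]; exact hyn
      set f' : M := ((diffHom σ w' : Mˣ) : M) with hf'
      have hf'eq : f' = σ (1 + y) * (1 + y)⁻¹ := by
        rw [hf', coe_diffHom, div_eq_mul_inv]; rfl
      have hinv : coordNorm K M ((1 + y)⁻¹ - 1) ≤ s :=
        coordNorm_inv_sub_one_le hc1 hnorm hmul hsr hw'1
      have hf's : coordNorm K M (f' - 1) ≤ s :=
        hf'eq ▸ (coordNorm_mul_sub_one_le hc hc1 hmul hsr hσy hinv).1
      have hdiff : coordNorm K M (f' - 1 - (σ y - y)) ≤ c * s := by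
        have h1 : coordNorm K M (σ y - y) ≤ s := by
          rw [sub_eq_add_neg]
          refine (coordNorm_add_le_max K M _ _).trans (max_le ?_ ?_)
          · rw [coordNorm_galois]; exact hyn
          · rw [coordNorm_neg]; exact hyn
        rw [hf'eq, show σ (1 + y) * (1 + y)⁻¹ - 1 - (σ y - y) =
            ((1 + y)⁻¹ - 1) * (σ y - y) by
          rw [map_add, map_one]
          field_simp [one_add_ne_zero hnorm (hyn.trans hsr)]
          ring]
        exact (hmul _ _ (hinv.trans hsr)).trans (mul_le_mul_of_nonneg_left h1 hc.le)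
      have hmain : coordNorm K M (a - (f' - 1)) ≤ c * s := by
        rw [show a - (f' - 1) = S • b 1 + -(f' - 1 - (σ y - y)) by rw [hdy]; ring]
        refine (coordNorm_add_le_max K M _ _).trans (max_le ?_ (by rwa [coordNorm_neg]))
        rw [hsmul]
        exact (mul_le_of_le_one_right (norm_nonneg _) (hbnorm 1)).trans hSnorm
      have hf'inv : coordNorm K M (f'⁻¹ - 1) ≤ r :=
        (coordNorm_inv_sub_one_le hc1 hnorm hmul hsr hf's).trans hsr
      have hf'0 : f' ≠ 0 := Units.ne_zero _
      have e : (v : M) / (diffHom σ (w * w') : Mˣ) - 1 =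
          (a - (f' - 1)) + (f'⁻¹ - 1) * (a - (f' - 1)) := by
        rw [map_mul, Units.val_mul, ← hf', ha]
        field_simp
        ring
      rw [e, pow_succ, ← mul_assoc, ← hs, mul_comm s]
      exact (coordNorm_add_le_max K M _ _).trans (max_le hmain ((hmul _ _ hf'inv).trans
        ((mul_le_of_le_one_left (coordNorm_nonneg K M _) hc1.le).trans hmain)))
  choose w hw hwm using step
  set S : Set M := (fun x => σ (1 + x) / (1 + x)) '' {x | coordNorm K M x ≤ r}
  have hS : IsClosed S := ((isCompact_coord_ball r).image_of_continuousOn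
    (((continuous_galois σ).comp (continuous_const.add continuous_id)).continuousOn.div
      (continuous_const.add continuous_id).continuousOn fun x hx =>
        one_add_ne_zero hnorm hx)).isClosed
  obtain ⟨y, hy, hx⟩ : (v : M) ∈ S :=
    mem_of_forall_approx hc hc1 hS _
      (fun m => ⟨(w m : M) - 1, hw m, by simp [coe_diffHom]⟩)
      (fun m => Units.ne_zero _) v.ne_zero hwm
  exact ⟨Units.mk0 (1 + y) (one_add_ne_zero hnorm hy), by simpa [mem_latticeUnits] using hy,
    Units.ext (by rw [coe_diffHom]; exact hx)⟩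

end Index

section Main

variable (K M : Type) [NontriviallyNormedField K] [IsUltrametricDist K] [ProperSpace K]
  [NormedField M] [NormedAlgebra K M] [FiniteDimensional K M] [IsGalois K M]

/-- **Local norm index**: for a cyclic extension `M / K` of locally compact ultrametric fields the
norms have index `[M : K]`. -/
theorem index_range_norm (σ : M ≃ₐ[K] M) (hσ : Subgroup.zpowers σ = ⊤) :
    (Units.map (Algebra.norm K : M →* K)).range.index = Module.finrank K M := by
  classical
  have : IsUltrametricDist M := IsUltrametricDist.of_normedAlgebra K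
  have : ProperSpace M := FiniteDimensional.proper K M
  obtain ⟨k, hk0, hk1⟩ := NormedField.exists_norm_lt_one K
  have hk : k ≠ 0 := norm_pos_iff.1 hk0
  obtain ⟨r, hr, hnorm, hmul⟩ := exists_scale K M ‖k‖ hk0
  set V := latticeUnits (K := K) hk0 hk1 hr hnorm hmul with hV
  let π : Mˣ := Units.mk0 (algebraMap K M k) ((map_ne_zero _).2 hk)
  set B : Subgroup Mˣ := Subgroup.zpowers π ⊔ V with hB
  have hπnorm : ‖((π : Mˣ) : M)‖ = ‖k‖ := norm_algebraMap' M k
  have hBmem : ∀ {x : Mˣ}, x ∈ B → ∃ j : ℤ, ∃ v ∈ V, x = π ^ j * v := by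
    intro x hx
    obtain ⟨p, hp, v, hv, rfl⟩ := Subgroup.mem_sup.1 hx
    obtain ⟨j, rfl⟩ := Subgroup.mem_zpowers_iff.1 hp
    exact ⟨j, v, hv, rfl⟩
  have hmemB : ∀ (j : ℤ) {v : Mˣ}, v ∈ V → π ^ j * v ∈ B := fun j v hv =>
    Subgroup.mul_mem_sup (Subgroup.zpow_mem_zpowers π j) hv
  have hzero : ∀ (j : ℤ) {v : Mˣ}, v ∈ V → π ^ j * v ∈ V → j = 0 := by
    intro j v hv h
    have h1 := norm_eq_one_of_mem_latticeUnits hk0 hk1 hr hnorm hmul h
    rw [Units.val_mul, norm_mul, norm_eq_one_of_mem_latticeUnits hk0 hk1 hr hnorm hmul hv,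
      mul_one, Units.val_zpow_eq_zpow_val, norm_zpow, hπnorm] at h1
    exact (zpow_eq_one_iff_right₀ hk0.le hk1.ne).1 h1
  set f := diffHom (K := K) σ with hf
  set g : Mˣ →* Mˣ := normHom (K := K) with hg
  have hfπ : f π = 1 := Units.ext (by
    rw [hf, coe_diffHom, Units.val_mk0, AlgEquiv.commutes, Units.val_one,
      div_self ((map_ne_zero _).2 hk)])
  set n := Module.finrank K M with hn
  have hgπ : g π = π ^ n := Units.ext (by
    rw [hg, coe_normHom, Units.val_pow_eq_pow_val, Units.val_mk0,
      Finset.prod_congr rfl fun h _ => AlgEquiv.commutes h k, Finset.prod_const, Finset.card_univ,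
      ← Nat.card_eq_fintype_card, IsGalois.card_aut_eq_finrank])
  have hgV : ∀ {v : Mˣ}, v ∈ V → g v ∈ V := by
    intro v hv
    rw [hV, mem_latticeUnits, hg, coe_normHom]
    exact (coordNorm_prod_sub_le hk0 hk1 hmul Finset.univ (fun h : M ≃ₐ[K] M => h (v : M)) hr.le
      le_rfl fun h _ => by
        rw [show h (v : M) - 1 = h ((v : M) - 1) by simp, coordNorm_galois]; exact hv).1
  have hfV : ∀ {v : Mˣ}, v ∈ V → f v ∈ V := by
    intro v hv
    refine div_mem ?_ hv
    show coordNorm K M (σ (v : M) - 1) ≤ r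
    rw [show σ (v : M) - 1 = σ ((v : M) - 1) by simp, coordNorm_galois]
    exact hv
  have hfg : ∀ a, f (g a) = 1 := fun a => Units.ext (by
    rw [hf, coe_diffHom, hg, coe_normHom, map_prod, Units.val_one, div_eq_one_iff_eq
      (Finset.prod_ne_zero_iff.2 fun h _ => (map_ne_zero h).2 a.ne_zero)]
    exact Fintype.prod_bijective (fun h => σ * h) (Group.mulLeft_bijective σ) _ _ fun _ => rfl)
  have hgf : ∀ a, g (f a) = 1 := fun a => Units.ext (by
    rw [hg, coe_normHom, Units.val_one, Finset.prod_congr rfl fun h _ => show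
      h ((f a : Mˣ) : M) = h (σ (a : M)) / h (a : M) by rw [hf, coe_diffHom, map_div₀],
      Finset.prod_div_distrib, div_eq_one_iff_eq
      (Finset.prod_ne_zero_iff.2 fun h _ => (map_ne_zero h).2 a.ne_zero)]
    exact Fintype.prod_bijective (fun h => h * σ) (Group.mulRight_bijective σ) _ _ fun _ => rfl)
  have hfB : B.map f ≤ B := by
    rintro _ ⟨x, hx, rfl⟩
    obtain ⟨j, v, hv, rfl⟩ := hBmem hx
    rw [map_mul, map_zpow, hfπ, one_zpow, one_mul]
    exact Subgroup.mem_sup_right (hfV hv)
  have hgB : B.map g ≤ B := by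
    rintro _ ⟨x, hx, rfl⟩
    obtain ⟨j, v, hv, rfl⟩ := hBmem hx
    rw [map_mul, map_zpow, hgπ, ← zpow_natCast, ← zpow_mul]
    exact hmemB _ (hgV hv)
  -- finite index, by compactness of an annulus
  have hBi : B.index ≠ 0 := by
    let K₀ : Set M := {x | ‖k‖ ≤ ‖x‖ ∧ ‖x‖ ≤ 1}
    have hK₀ : IsCompact K₀ := (isCompact_closedBall (0 : M) 1).of_isClosed_subset
      ((isClosed_le continuous_const continuous_norm).inter
        (isClosed_le continuous_norm continuous_const)) fun x hx => by simpa using hx.2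
    obtain ⟨t, htK, ht⟩ := hK₀.elim_nhds_subcover
      (fun a => {x | coordNorm K M (x / a - 1) < r}) fun a ha => by
        have ha0 : a ≠ 0 := norm_pos_iff.1 (hk0.trans_le ha.1)
        refine (isOpen_lt (continuous_coordNorm.comp ((continuous_id.div_const a).sub
          continuous_const)) continuous_const).mem_nhds ?_
        simpa [div_self ha0, coordNorm_zero] using hr
    let U : Finset (Mˣ ⧸ B) := t.image fun a =>
      if h : a = 0 then 1 else QuotientGroup.mk (Units.mk0 a h)
    have hU : ∀ x : Mˣ ⧸ B, x ∈ U := by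
      intro x
      obtain ⟨x, rfl⟩ := QuotientGroup.mk_surjective x
      obtain ⟨j, hj⟩ := exists_mem_Ico_zpow (x := ‖(x : M)‖⁻¹) (y := ‖k‖⁻¹)
        (inv_pos.2 (norm_pos_iff.2 x.ne_zero)) ((one_lt_inv₀ hk0).2 hk1)
      rw [Set.mem_Ico, inv_zpow, inv_zpow,
        inv_le_inv₀ (zpow_pos hk0 j) (norm_pos_iff.2 x.ne_zero),
        inv_lt_inv₀ (norm_pos_iff.2 x.ne_zero) (zpow_pos hk0 _)] at hj
      set z : Mˣ := x / π ^ j with hz
      have hzn : ‖(z : M)‖ = ‖(x : M)‖ / ‖k‖ ^ j := by
        rw [hz, Units.val_div_eq_div_val, norm_div, Units.val_zpow_eq_zpow_val, norm_zpow, hπnorm]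
      have hzK : (z : M) ∈ K₀ := by
        refine ⟨?_, ?_⟩
        · rw [hzn, le_div_iff₀ (zpow_pos hk0 j), ← zpow_one_add₀ hk0.ne', add_comm]
          exact hj.2.le
        · rw [hzn, div_le_one (zpow_pos hk0 j)]
          exact hj.1
      obtain ⟨a, hat, ha⟩ := Set.mem_iUnion₂.1 (ht hzK)
      have ha0 : a ≠ 0 := norm_pos_iff.1 (hk0.trans_le (htK a hat).1)
      refine Finset.mem_image.2 ⟨a, hat, ?_⟩
      rw [dif_neg ha0]
      refine QuotientGroup.eq.2 ?_
      have hmem : (Units.mk0 a ha0)⁻¹ * z ∈ V := by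
        show coordNorm K M _ ≤ r
        rw [Units.val_mul, Units.val_inv_eq_inv_val, Units.val_mk0, inv_mul_eq_div]
        exact le_of_lt ha
      have := hmemB j hmem
      rwa [mul_left_comm, hz, mul_div_cancel] at this
    have : Finite (Mˣ ⧸ B) := Finite.of_surjective (fun u : U => (u : Mˣ ⧸ B))
      fun x => ⟨⟨x, hU x⟩, rfl⟩
    exact Nat.card_ne_zero.2 ⟨inferInstance, inferInstance⟩
  have hfix : ∀ {x : Mˣ}, x ∈ f.ker → ∀ h : M ≃ₐ[K] M, h (x : M) = x := by
    intro x hx h
    obtain ⟨i, rfl⟩ := zpowers_eq_top_pow hσ h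
    have h1 := congrArg Units.val (MonoidHom.mem_ker.1 hx)
    rw [hf, coe_diffHom, Units.val_one, div_eq_one_iff_eq x.ne_zero] at h1
    induction i with
    | zero => rfl
    | succ i ih => rw [pow_succ, AlgEquiv.mul_apply, h1, ih]
  have hkerg : (B.map f).relIndex (g.ker ⊓ B) = 1 := by
    rw [Subgroup.relIndex_eq_one]
    rintro x ⟨hxg, hxB⟩
    obtain ⟨j, v, hv, rfl⟩ := hBmem hxB
    have hxg' : π ^ ((n : ℤ) * j) * g v = 1 := by
      rw [← MonoidHom.mem_ker.1 hxg, map_mul, map_zpow, hgπ, ← zpow_natCast π n, zpow_mul]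
    have hj : (n : ℤ) * j = 0 := hzero _ (hgV hv) (hxg' ▸ one_mem V)
    have hj0 : j = 0 := by
      rcases mul_eq_zero.1 hj with h | h
      · exact absurd (by exact_mod_cast h) Module.finrank_pos.ne'
      · exact h
    subst hj0
    rw [zpow_zero, one_mul] at hxg ⊢
    obtain ⟨w, hw, rfl⟩ := exists_diffHom_eq hk0 hk1 hr hnorm hmul hσ hv (MonoidHom.mem_ker.1 hxg)
    exact ⟨w, Subgroup.mem_sup_right hw, rfl⟩
  have hkerf : (B.map g).relIndex (f.ker ⊓ B) = n := by
    have h1 : f.ker ⊓ B = (B.map g) ⊔ Subgroup.zpowers π := by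
      refine le_antisymm ?_ (sup_le (le_inf ?_ hgB) (Subgroup.zpowers_le.2
        ⟨hfπ, Subgroup.mem_sup_left (Subgroup.mem_zpowers π)⟩))
      · rintro x ⟨hxf, hxB⟩
        obtain ⟨j, v, hv, rfl⟩ := hBmem hxB
        have hvf : v ∈ f.ker := by
          have hxf : f (π ^ j * v) = 1 := hxf
          rw [MonoidHom.mem_ker]
          rwa [map_mul, map_zpow, hfπ, one_zpow, one_mul] at hxf
        obtain ⟨w, hw, hwv⟩ := exists_normHom_eq hk0 hk1 hr hnorm hmul hv (hfix hvf)
        rw [mul_comm]
        exact Subgroup.mul_mem_sup ⟨w, Subgroup.mem_sup_right hw, hwv⟩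
          (Subgroup.zpow_mem_zpowers π j)
      · rintro _ ⟨x, -, rfl⟩
        exact hfg x
    rw [h1, sup_comm, Subgroup.relIndex_sup_right, ← Subgroup.inf_relIndex_right]
    have h2 : B.map g ⊓ Subgroup.zpowers π = Subgroup.zpowers (π ^ n) := by
      refine le_antisymm ?_ (le_inf (Subgroup.zpowers_le.2
        ⟨π, Subgroup.mem_sup_left (Subgroup.mem_zpowers π), hgπ⟩) (Subgroup.zpowers_le.2
        (pow_mem (Subgroup.mem_zpowers π) n)))
      rintro x ⟨⟨y, hy, rfl⟩, hxπ⟩
      obtain ⟨j, v, hv, rfl⟩ := hBmem hy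
      obtain ⟨i, hi⟩ := Subgroup.mem_zpowers_iff.1 hxπ
      rw [map_mul, map_zpow, hgπ, ← zpow_natCast, ← zpow_mul] at hi ⊢
      have h3 : i - n * j = 0 := hzero _ (one_mem V) (by
        rw [mul_one, zpow_sub, hi, mul_right_comm, mul_inv_cancel, one_mul]
        exact hgV hv)
      rw [← hi, sub_eq_zero.1 h3]
      exact Subgroup.mem_zpowers_iff.2 ⟨j, by rw [zpow_mul, zpow_natCast]⟩
    rw [h2]
    have hinj : Function.Injective (zpowersHom Mˣ π) := by
      rw [injective_iff_map_eq_one]
      intro j hj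
      rw [zpowersHom_apply] at hj
      exact Multiplicative.toAdd.injective
        (hzero _ (one_mem V) (by rw [mul_one, hj]; exact one_mem V))
    rw [← Subgroup.range_zpowersHom π, ← Subgroup.index_comap]
    have h4 : (Subgroup.zpowers (π ^ n)).comap (zpowersHom Mˣ π) =
        AddSubgroup.toSubgroup (AddSubgroup.zmultiples (n : ℤ)) := by
      ext j
      rw [Subgroup.mem_comap, Subgroup.mem_zpowers_iff]
      show (∃ i : ℤ, _) ↔ Multiplicative.toAdd j ∈ AddSubgroup.zmultiples (n : ℤ)
      rw [AddSubgroup.mem_zmultiples_iff]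
      refine exists_congr fun i => ?_
      rw [smul_eq_mul, ← zpow_natCast, ← zpow_mul, mul_comm i]
      exact ⟨fun h => congrArg Multiplicative.toAdd (hinj (a₁ := Multiplicative.ofAdd _)
        (a₂ := j) (by rw [zpowersHom_apply]; exact h)), fun h => by rw [h, zpowersHom_apply]⟩
    rw [h4, AddSubgroup.index_toSubgroup, Int.index_zmultiples, Int.natAbs_natCast]
  have h90 : f.range.relIndex g.ker = 1 := by
    rw [Subgroup.relIndex_eq_one]
    intro x hx
    have hxN : Algebra.norm K (x : M) = 1 := by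
      apply (algebraMap K M).injective
      rw [Algebra.norm_eq_prod_automorphisms, ← coe_normHom, ← hg, MonoidHom.mem_ker.1 hx,
        Units.val_one, map_one]
    have hgen : ∀ h, h ∈ Subgroup.zpowers σ := fun h => by rw [hσ]; trivial
    have : IsCyclic (M ≃ₐ[K] M) := ⟨σ, hgen⟩
    obtain ⟨y, hy⟩ := groupCohomology.exists_div_of_norm_eq_one
      (g := σ) hgen hxN
    refine ⟨y⁻¹, Units.ext ?_⟩
    rw [hf, map_inv, Units.val_inv_eq_inv_val, coe_diffHom, inv_div]
    exact hy
  have hmain := relIndex_range_ker_mul f g hfg hgf B hBi hfB hgB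
  rw [hkerg, hkerf, h90, mul_one, one_mul] at hmain
  -- transport to `Kˣ`
  let ι : Kˣ →* Mˣ := Units.map (algebraMap K M : K →* M)
  have hι : ι.range = f.ker := by
    refine le_antisymm ?_ fun x hx => ?_
    · rintro _ ⟨u, rfl⟩
      refine MonoidHom.mem_ker.2 (Units.ext ?_)
      rw [hf, coe_diffHom]
      simp [ι, AlgEquiv.commutes]
    · obtain ⟨u, hu⟩ := (IsGalois.mem_range_algebraMap_iff_fixed (x : M)).2 (hfix hx)
      exact ⟨Units.mk0 u fun h => x.ne_zero (by rw [← hu, h, map_zero]), Units.ext hu⟩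
  have hN : (Units.map (Algebra.norm K : M →* K)).range = g.range.comap ι := by
    ext u
    have key : ∀ x : Mˣ, ι (Units.map (Algebra.norm K : M →* K) x) = g x := fun x => Units.ext (by
      rw [hg, coe_normHom]
      exact Algebra.norm_eq_prod_automorphisms K (x : M))
    have hinj : Function.Injective ι := Units.map_injective (algebraMap K M).injective
    refine ⟨fun ⟨x, hx⟩ => ⟨x, by rw [← hx, key]⟩, fun ⟨x, hx⟩ => ⟨x, hinj ?_⟩⟩
    rw [key, hx]
  rw [hN, Subgroup.index_comap, hι, hmain]

end Main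

end Fermat.Agent.Duality.Local
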