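import Fermat.Agent.Duality.CyclicKernel
import Fermat.Agent.Duality.Coh.Projection
import Fermat.Agent.Duality.Places.Local
import Fermat.Agent.Duality.Local.NormIndex

/-!
# Local fields inside `PadicAlgCl q` and the fields cut out by characters
-/

set_option autoImplicit false

noncomputable section

open IntermediateField Module

namespace Fermat.Agent.Duality.Local

variable {q : ℕ} [Fact q.Prime]

local notation "Ω" => PadicAlgCl q

variable (L : IntermediateField ℚ_[q] (PadicAlgCl q))

instance normedAlgebraLocal : NormedAlgebra L Ω where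
  norm_smul_le a x := le_of_eq (by rw [IntermediateField.smul_def, smul_eq_mul, norm_mul]; rfl)

theorem norm_galLoc_apply (g : GalLoc q) (x : Ω) : ‖g x‖ = ‖x‖ := by
  rw [← coe_nnnorm, nnnorm_padicAlgCl_algEquiv, coe_nnnorm]

instance properSpaceLocal [FiniteDimensional ℚ_[q] L] : ProperSpace L :=
  FiniteDimensional.proper ℚ_[q] L

theorem ok_fixingSubgroup [FiniteDimensional ℚ_[q] L] :
    (galLevels ℚ_[q] Ω).ok L.fixingSubgroup := galLevels_ok_fixingSubgroup L

/-- The underlying element of a unit of `Ω` written additively. -/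
abbrev uVal (x : Lx Ω) : Ω := ((Additive.toMul x : Ωˣ) : Ω)

theorem mem_inv_fixingSubgroup {x : Lx Ω} :
    x ∈ Coh.inv L.fixingSubgroup (Lx Ω) ↔ uVal x ∈ L := by
  constructor
  · intro h
    rw [← InfiniteGalois.fixedField_fixingSubgroup L]
    intro σ
    exact congrArg uVal (h σ)
  · intro h σ
    exact Additive.toMul.injective (Units.ext ((L.mem_fixingSubgroup_iff _).mp σ.2 _ h))

/-- An element of `Lˣ` as an invariant of the coefficient module. -/
def ofUnit (a : Lˣ) : Coh.inv L.fixingSubgroup (Lx Ω) :=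
  ⟨Additive.ofMul (Units.map (L.val : L →* Ω) a), (mem_inv_fixingSubgroup L).mpr (a : L).2⟩

theorem uVal_ofUnit (a : Lˣ) : uVal (ofUnit L a : Lx Ω) = ((a : L) : Ω) := rfl

theorem ofUnit_mul (a b : Lˣ) : ofUnit L (a * b) = ofUnit L a + ofUnit L b :=
  Subtype.ext (Additive.toMul.injective (Units.ext rfl))

theorem ofUnit_surjective : Function.Surjective (ofUnit L) := fun x =>
  ⟨Units.mk0 ⟨uVal (x : Lx Ω), (mem_inv_fixingSubgroup L).mp x.2⟩
    fun h => (Additive.toMul (x : Lx Ω)).ne_zero (congrArg Subtype.val h),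
    Subtype.ext (Additive.toMul.injective (Units.ext rfl))⟩

theorem ofUnit_injective : Function.Injective (ofUnit L) := fun _ _ h =>
  Units.ext (Subtype.ext (congrArg (fun x : Coh.inv L.fixingSubgroup (Lx Ω) => uVal (x : Lx Ω)) h))

/-- The units of `L` are the invariants of the coefficient module. -/
def unitsEquivInv : Additive Lˣ ≃+ Coh.inv L.fixingSubgroup (Lx Ω) :=
  AddEquiv.ofBijective (AddMonoidHom.mk' (fun a => ofUnit L a.toMul)
    fun a b => ofUnit_mul L a.toMul b.toMul)
    ⟨fun _ _ h => Additive.toMul.injective (ofUnit_injective L h),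
      fun x => ⟨Additive.ofMul (ofUnit_surjective L x).choose,
        (ofUnit_surjective L x).choose_spec⟩⟩

section KerField

variable {L} {p : ℕ} [Fact p.Prime] (χ : Char1 p L.fixingSubgroup)

/-- The automorphisms over `L` in the kernel of `χ`. -/
def kerGal : Subgroup (Ω ≃ₐ[L] Ω) :=
  (chiKer χ).map L.fixingSubgroupEquiv.toMonoidHom

omit [Fact (Nat.Prime p)] in
theorem mem_kerGal {σ : L.fixingSubgroup} :
    L.fixingSubgroupEquiv σ ∈ kerGal χ ↔ σ ∈ chiKer χ :=
  Subgroup.mem_map_iff_mem L.fixingSubgroupEquiv.injective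

/-- The fixed field of the kernel of a character of `L.fixingSubgroup`. -/
def kerField : IntermediateField L Ω := IntermediateField.fixedField (kerGal χ)

omit [Fact (Nat.Prime p)] in
theorem mem_kerField {x : Ω} :
    x ∈ kerField χ ↔ ∀ σ : L.fixingSubgroup, σ ∈ chiKer χ → (σ : GalLoc q) x = x := by
  rw [kerField, IntermediateField.mem_fixedField_iff]
  constructor
  · intro h σ hσ
    exact h (L.fixingSubgroupEquiv σ) ((mem_kerGal χ).mpr hσ)
  · rintro h _ ⟨σ, hσ, rfl⟩
    exact h σ hσ

omit [Fact (Nat.Prime p)] in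
theorem exists_finite_le_kerGal :
    ∃ E : IntermediateField L Ω, FiniteDimensional L E ∧ E.fixingSubgroup ≤ kerGal χ := by
  obtain ⟨V, ⟨E, hE, hEV⟩, hV⟩ := ok_chiKer χ
  have := hE
  refine ⟨IntermediateField.adjoin L (E : Set Ω), ?_, fun τ hτ => ?_⟩
  · obtain ⟨b⟩ : Nonempty (Basis (Fin (finrank ℚ_[q] E)) ℚ_[q] E) := ⟨Module.finBasis ℚ_[q] E⟩
    have hle : IntermediateField.adjoin L (E : Set Ω) ≤
        IntermediateField.adjoin L (Set.range fun i => (b i : Ω)) := by
      rw [IntermediateField.adjoin_le_iff]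
      intro x hx
      have hsum := congrArg Subtype.val (b.sum_repr ⟨x, hx⟩)
      simp only [AddSubmonoidClass.coe_finsetSum, IntermediateField.coe_smul] at hsum
      rw [SetLike.mem_coe, ← hsum]
      refine sum_mem fun i _ => ?_
      rw [Algebra.smul_def, IsScalarTower.algebraMap_apply ℚ_[q] L Ω]
      exact mul_mem (IntermediateField.algebraMap_mem _ _)
        (IntermediateField.subset_adjoin _ _ ⟨i, rfl⟩)
    have : FiniteDimensional L (IntermediateField.adjoin L (Set.range fun i => (b i : Ω))) :=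
      IntermediateField.finiteDimensional_adjoin fun x _ => Algebra.IsIntegral.isIntegral x
    exact FiniteDimensional.of_injective (IntermediateField.inclusion hle).toLinearMap
      (IntermediateField.inclusion hle).injective
  · obtain ⟨σ, rfl⟩ := L.fixingSubgroupEquiv.surjective τ
    rw [mem_kerGal]
    refine hV (hEV ?_)
    rw [IntermediateField.mem_fixingSubgroup_iff] at hτ ⊢
    exact fun x hx => hτ x (IntermediateField.subset_adjoin _ _ hx)

omit [Fact (Nat.Prime p)] in
theorem fixingSubgroup_kerField : (kerField χ).fixingSubgroup = kerGal χ := by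
  obtain ⟨E, hE, hle⟩ := exists_finite_le_kerGal χ
  have hopen : IsOpen (kerGal χ : Set (Ω ≃ₐ[L] Ω)) :=
    Subgroup.isOpen_mono hle E.fixingSubgroup_isOpen
  exact InfiniteGalois.fixingSubgroup_fixedField ⟨kerGal χ, OpenSubgroup.isClosed ⟨_, hopen⟩⟩

instance finiteDimensional_kerField : FiniteDimensional L (kerField χ) := by
  obtain ⟨E, hE, hle⟩ := exists_finite_le_kerGal χ
  have h : kerField χ ≤ E := by
    rw [← InfiniteGalois.fixedField_fixingSubgroup E]
    exact IntermediateField.fixedField_le hle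
  exact FiniteDimensional.of_injective (IntermediateField.inclusion h).toLinearMap
    (IntermediateField.inclusion h).injective

instance isGalois_kerField : IsGalois L (kerField χ) := by
  have : (kerGal χ).Normal :=
    Subgroup.Normal.map (chiKer_normal χ) _ L.fixingSubgroupEquiv.surjective
  rw [← InfiniteGalois.normal_iff_isGalois, fixingSubgroup_kerField]
  infer_instance

variable (hχ : χ ≠ 0)

include hχ in
theorem index_chiKer : (chiKer χ).index = p := by
  have e : (L.fixingSubgroup ⧸ chiKer χ) ≃ Fin p :=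
    Equiv.ofBijective (fun x => (⟨chiVal χ x.out, chiVal_lt χ _⟩ : Fin p))
      ⟨fun x y h => by
        rw [← QuotientGroup.out_eq' x, ← QuotientGroup.out_eq' y, QuotientGroup.eq, mem_chiKer]
        have h2 : (χ : L.fixingSubgroup → Zp p) x.out = (χ : L.fixingSubgroup → Zp p) y.out :=
          Zp.of.symm.injective (ZMod.val_injective p (Fin.ext_iff.mp h))
        rw [chi_mul, ← h2, ← chi_mul, inv_mul_cancel, chi_one],
      fun j => ⟨((chiGen χ hχ ^ (j : ℕ) : L.fixingSubgroup) : L.fixingSubgroup ⧸ chiKer χ), by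
        obtain ⟨n, hn⟩ := QuotientGroup.mk_out_eq_mul (chiKer χ) (chiGen χ hχ ^ (j : ℕ))
        refine Fin.ext ?_
        show chiVal χ _ = (j : ℕ)
        rw [hn, chiVal_mul_ker_right χ n.2, chiVal_gen_pow, Nat.mod_eq_of_lt j.2]⟩⟩
  rw [Subgroup.index, Nat.card_congr e, Nat.card_fin]

include hχ in
theorem finrank_kerField : finrank L (kerField χ) = p := by
  rw [IntermediateField.finrank_eq_fixingSubgroup_index, fixingSubgroup_kerField, kerGal,
    Subgroup.index_map_of_bijective L.fixingSubgroupEquiv.bijective]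
  exact index_chiKer χ hχ

/-- The generator of the Galois group of the field cut out by `χ`. -/
def kerGen : kerField χ ≃ₐ[L] kerField χ :=
  AlgEquiv.restrictNormalHom (kerField χ) (L.fixingSubgroupEquiv (chiGen χ hχ))

theorem coe_kerGen_pow (j : ℕ) (x : kerField χ) :
    (((kerGen χ hχ) ^ j) x : Ω) = ((chiGen χ hχ ^ j : L.fixingSubgroup) : GalLoc q) (x : Ω) := by
  rw [kerGen, ← map_pow, AlgEquiv.restrictNormalHom_apply, ← map_pow]
  rfl

theorem zpowers_kerGen : Subgroup.zpowers (kerGen χ hχ) = ⊤ := by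
  have hcard : Nat.card (kerField χ ≃ₐ[L] kerField χ) = p := by
    rw [IsGalois.card_aut_eq_finrank, finrank_kerField χ hχ]
  refine zpowers_eq_top_of_prime_card hcard fun h => ?_
  have h1 : L.fixingSubgroupEquiv (chiGen χ hχ) ∈ (kerField χ).fixingSubgroup := by
    rw [← IntermediateField.restrictNormalHom_ker]
    exact h
  rw [fixingSubgroup_kerField, mem_kerGal, ← chiVal_eq_zero, chiVal_chiGen] at h1
  exact one_ne_zero h1

/-- The norm from the field cut out by `χ`. -/
theorem norm_kerField (x : kerField χ) :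
    ((Algebra.norm L x : L) : Ω) =
      ∏ j ∈ Finset.range p, ((chiGen χ hχ ^ j : L.fixingSubgroup) : GalLoc q) (x : Ω) := by
  have h1 : ((Algebra.norm L x : L) : Ω) = ((algebraMap L (kerField χ) (Algebra.norm L x) :
      kerField χ) : Ω) := rfl
  have hcard : Nat.card (kerField χ ≃ₐ[L] kerField χ) = p := by
    rw [IsGalois.card_aut_eq_finrank, finrank_kerField χ hχ]
  have hord : orderOf (kerGen χ hχ) = p := by
    rw [← Nat.card_zpowers, zpowers_kerGen χ hχ, Subgroup.card_top, hcard]
  rw [h1, Algebra.norm_eq_prod_automorphisms, IntermediateField.coe_prod]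
  classical
  refine Finset.prod_bij (fun j _ => kerGen χ hχ ^ j) (fun _ _ => Finset.mem_univ _)
    (fun i hi j hj h => pow_injOn_Iio_orderOf
      (by rw [hord]; exact Finset.mem_range.mp hi) (by rw [hord]; exact Finset.mem_range.mp hj) h)
    (fun g _ => ?_) (fun j _ => (coe_kerGen_pow χ hχ j x).symm) |>.symm
  obtain ⟨j, hj, hg⟩ := Finset.mem_image.mp ((mem_zpowers_iff_mem_range_orderOf (y := g)).mp
    (by rw [zpowers_kerGen χ hχ]; trivial))
  exact ⟨j, by rwa [hord] at hj, hg⟩

include hχ in
/-- A unit of `L` is a norm from the kernel of `χ` iff it is a norm from the field it cuts out. -/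
theorem exists_cor₀_eq_iff [Fintype (L.fixingSubgroup ⧸ chiKer χ)] (a : Lˣ) :
    (∃ b : Coh.inv (chiKer χ) (Lx Ω), Coh.cor₀ (chiKer χ) b = ofUnit L a) ↔
      a ∈ (Units.map (Algebra.norm L : kerField χ →* L)).range := by
  have hprod : ∀ x : Lx Ω, uVal (genSum χ hχ x p) =
      ∏ j ∈ Finset.range p, ((chiGen χ hχ ^ j : L.fixingSubgroup) : GalLoc q) (uVal x) := by
    intro x
    rw [genSum, uVal, toMul_sum, Units.coe_prod]
    rfl
  constructor
  · rintro ⟨b, hb⟩
    have hmem : uVal (b : Lx Ω) ∈ kerField χ :=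
      (mem_kerField χ).mpr fun σ hσ => congrArg uVal (b.2 ⟨σ, hσ⟩)
    have hne : (⟨_, hmem⟩ : kerField χ) ≠ 0 := fun h =>
      (Additive.toMul (b : Lx Ω)).ne_zero (congrArg Subtype.val h)
    refine ⟨Units.mk0 _ hne, Units.ext (Subtype.ext ?_)⟩
    rw [Units.coe_map, Units.val_mk0, norm_kerField χ hχ, ← hprod,
      ← cor₀_chiKer χ hχ b, hb, uVal_ofUnit]
  · rintro ⟨m, rfl⟩
    have hmem : Additive.ofMul (Units.map ((kerField χ).val : _ →* Ω) m) ∈
        Coh.inv (chiKer χ) (Lx Ω) := fun n =>
      Additive.toMul.injective (Units.ext ((mem_kerField χ).mp (m : kerField χ).2 n n.2))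
    refine ⟨⟨_, hmem⟩, Subtype.ext (Additive.toMul.injective (Units.ext ?_))⟩
    rw [cor₀_chiKer χ hχ]
    show uVal _ = uVal _
    rw [hprod, uVal_ofUnit, Units.coe_map, norm_kerField χ hχ]
    rfl

end KerField

end Fermat.Agent.Duality.Local

end
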