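import Fermat.Agent.Duality.Local.Symbol
import Fermat.Agent.Duality.Coh.CorTrans

/-!
# Corestriction between open subgroups and its effect on symbols
-/

set_option autoImplicit false

noncomputable section

namespace Fermat.Agent.Duality

section General

variable {p : ℕ} {F Ω : Type} [Field F] [Field Ω] [Algebra F Ω] [Normal F Ω]
  {H K : Subgroup (Ω ≃ₐ[F] Ω)} (hKH : K ≤ H)

lemma nsmul_H2μ (x : H2μ p H) : p • x = 0 := by
  obtain ⟨f, rfl⟩ := Coh.H2.mk_surjective x
  rw [← map_nsmul, show p • f = 0 from ?_, map_zero]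
  refine Subtype.ext (funext fun g => funext fun h => muVal_injective ?_)
  show muVal (p • (f : H → H → Mu p Ω) g h) = muVal 0
  rw [map_nsmul, nsmul_muVal, map_zero]

lemma ok_subgroupOf (hK : (galLevels F Ω).ok K) :
    ((galLevels F Ω).restrict H).ok (K.subgroupOf H) := ⟨K, hK, le_rfl⟩

lemma finite_quotient_subgroupOf (hK : (galLevels F Ω).ok K) :
    Finite (H ⧸ K.subgroupOf H) :=
  @Subgroup.finite_quotient_of_finiteIndex _ _ _
    (((galLevels F Ω).restrict H).finiteIndex (ok_subgroupOf hK))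

lemma finite_quotient_galLevels {U : Subgroup (Ω ≃ₐ[F] Ω)} (hU : (galLevels F Ω).ok U) :
    Finite ((Ω ≃ₐ[F] Ω) ⧸ U) :=
  @Subgroup.finite_quotient_of_finiteIndex _ _ _ ((galLevels F Ω).finiteIndex hU)

/-- Corestriction between open subgroups. -/
def corLE₂ (hK : (galLevels F Ω).ok K) : H2μ p K →+ H2μ p H :=
  letI : Fintype (H ⧸ K.subgroupOf H) := @Fintype.ofFinite _ (finite_quotient_subgroupOf hK)
  (Coh.cor₂ (K.subgroupOf H) (ok_subgroupOf hK)).comp (Coh.toSubgroupOf₂ hKH)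

lemma corLE₂_apply [Fintype (H ⧸ K.subgroupOf H)] (hK : (galLevels F Ω).ok K) (x : H2μ p K) :
    corLE₂ hKH hK x = Coh.cor₂ (K.subgroupOf H) (ok_subgroupOf hK) (Coh.toSubgroupOf₂ hKH x) := by
  rw [corLE₂, AddMonoidHom.comp_apply]
  congr!

/-- Corestriction to the whole group. -/
def corTop₂ (hK : (galLevels F Ω).ok K) : H2μ p K →+ Coh.H2 (galLevels F Ω) (Mu p Ω) :=
  letI : Fintype ((Ω ≃ₐ[F] Ω) ⧸ K) := @Fintype.ofFinite _ (finite_quotient_galLevels hK)
  Coh.cor₂ K hK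

lemma corTop₂_apply [Fintype ((Ω ≃ₐ[F] Ω) ⧸ K)] (hK : (galLevels F Ω).ok K) (x : H2μ p K) :
    corTop₂ hK x = Coh.cor₂ K hK x := by
  rw [corTop₂]
  congr!

lemma toSubgroupOf₂_resLE₂ [Fact p.Prime] (x : H2μ p H) :
    Coh.toSubgroupOf₂ hKH (resLE₂ hKH x) = Coh.res₂ (K.subgroupOf H) x := by
  obtain ⟨f, rfl⟩ := Coh.H2.mk_surjective x
  rfl

lemma corLE₂_resLE₂ [Fact p.Prime] (hK : (galLevels F Ω).ok K) (x : H2μ p H) :
    corLE₂ hKH hK (resLE₂ hKH x) = K.relIndex H • x := by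
  have := finite_quotient_subgroupOf (H := H) hK
  let := Fintype.ofFinite (H ⧸ K.subgroupOf H)
  rw [corLE₂_apply, toSubgroupOf₂_resLE₂,
    Coh.cor₂_res₂ _ _]
  congr 1
  rw [← Nat.card_eq_fintype_card]
  rfl

lemma corTop₂_res₂ (hK : (galLevels F Ω).ok K) (x : Coh.H2 (galLevels F Ω) (Mu p Ω)) :
    corTop₂ hK (Coh.res₂ K x) = K.index • x := by
  have := finite_quotient_galLevels hK
  let := Fintype.ofFinite ((Ω ≃ₐ[F] Ω) ⧸ K)
  rw [corTop₂_apply, Coh.cor₂_res₂ _ _, ← Nat.card_eq_fintype_card]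
  rfl

lemma corTop₂_corLE₂ (hH : (galLevels F Ω).ok H) (hK : (galLevels F Ω).ok K) (x : H2μ p K) :
    corTop₂ hH (corLE₂ hKH hK x) = corTop₂ hK x := by
  have := finite_quotient_subgroupOf (H := H) hK
  have := finite_quotient_galLevels hK
  have := finite_quotient_galLevels hH
  let := Fintype.ofFinite (H ⧸ K.subgroupOf H)
  let := Fintype.ofFinite ((Ω ≃ₐ[F] Ω) ⧸ H)
  let := Fintype.ofFinite ((Ω ≃ₐ[F] Ω) ⧸ K)
  rw [corTop₂_apply, corLE₂_apply, corTop₂_apply]
  exact Coh.cor₂_cor₂ hH hK hKH isSmooth_Mu _ x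

/-- An invariant of `H` seen as an invariant of `K`. -/
def inclInv : Coh.inv H (Lx Ω) →+ Coh.inv K (Lx Ω) where
  toFun a := ⟨a, fun g => a.2 (Subgroup.inclusion hKH g)⟩
  map_zero' := rfl
  map_add' _ _ := rfl

/-- An invariant of `K` seen as an invariant of `K` inside `H`. -/
def toSubgroupOf₀ : Coh.inv K (Lx Ω) →+ Coh.inv (K.subgroupOf H) (Lx Ω) where
  toFun b := ⟨b, fun g => b.2 (Subgroup.subgroupOfEquivOfLe hKH g)⟩
  map_zero' := rfl
  map_add' _ _ := rfl

/-- The norm of an invariant of `K` to `H`. -/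
def normInv (hK : (galLevels F Ω).ok K) : Coh.inv K (Lx Ω) →+ Coh.inv H (Lx Ω) :=
  letI : Fintype (H ⧸ K.subgroupOf H) := @Fintype.ofFinite _ (finite_quotient_subgroupOf hK)
  (Coh.cor₀ (K.subgroupOf H)).comp (toSubgroupOf₀ hKH)

lemma normInv_apply [Fintype (H ⧸ K.subgroupOf H)] (hK : (galLevels F Ω).ok K)
    (b : Coh.inv K (Lx Ω)) :
    normInv hKH hK b = Coh.cor₀ (K.subgroupOf H) (toSubgroupOf₀ hKH b) := by
  rw [normInv, AddMonoidHom.comp_apply]
  congr!

variable [IsAlgClosed Ω]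

/-- Corestriction of a Kummer class is the Kummer class of the norm. -/
theorem cor₁_toSubgroupOf₁_kummer [Fintype (H ⧸ K.subgroupOf H)] (hp : 0 < p)
    (hK : (galLevels F Ω).ok K) (b : Coh.inv K (Lx Ω)) :
    Coh.cor₁ (K.subgroupOf H) (ok_subgroupOf hK) (Coh.toSubgroupOf₁ hKH (kummer K hp b)) =
      kummer H hp (normInv hKH hK b) := by
  rw [normInv_apply]
  set ρ := rootP p (b : Lx Ω)
  refine kummerFun_eq H hp _ (r := ∑ x : H ⧸ K.subgroupOf H, x.out • ρ) ?_ fun g => ?_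
  · show p • ∑ x : H ⧸ K.subgroupOf H, x.out • ρ =
      ∑ x : H ⧸ K.subgroupOf H, x.out • (b : Lx Ω)
    rw [← Finset.sum_nsmul]
    refine Finset.sum_congr rfl fun x _ => ?_
    rw [Subgroup.smul_def, Subgroup.smul_def, nsmul_smul_lx, nsmul_rootP hp]
  · show muVal (Coh.cor₁fun (K.subgroupOf H)
      (fun v => (kummerFun K hp b : K → Mu p Ω) (Subgroup.subgroupOfEquivOfLe hKH v)) g) = _
    have h := congrFun (Coh.cor₁fun_d₀ (K.subgroupOf H) ρ) g
    simp only [Coh.d₀_apply] at h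
    rw [← h]
    simp only [Coh.cor₁fun, AddMonoidHom.coe_mk, ZeroHom.coe_mk, map_sum]
    refine Finset.sum_congr rfl fun x _ => ?_
    rw [show ∀ (t : H) (m : Mu p Ω), muVal (t • m) = t • muVal m from fun _ _ => rfl,
      muVal_kummerFun]
    rfl

variable [Fact p.Prime] {z₀ : Mu p Ω} (hz : z₀ ≠ 0) (hμ : ∀ (g : H) (z : Mu p Ω), g • z = z)

include hKH hμ in
omit [Fact p.Prime] [Normal F Ω] [IsAlgClosed Ω] in
lemma mu_fixed_of_le : ∀ (g : K) (z : Mu p Ω), g • z = z :=
  fun g z => hμ (Subgroup.inclusion hKH g) z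

/-- Corestriction of a symbol with one entry from below is the symbol of the norm. -/
theorem corLE₂_symb (hK : (galLevels F Ω).ok K) (a : Coh.inv H (Lx Ω)) (b : Coh.inv K (Lx Ω)) :
    corLE₂ hKH hK (symb hz (mu_fixed_of_le hKH hμ) (inclInv hKH a) b) =
      symb hz hμ a (normInv hKH hK b) := by
  have := finite_quotient_subgroupOf (H := H) hK
  let := Fintype.ofFinite (H ⧸ K.subgroupOf H)
  rw [corLE₂_apply, symb_apply hz hμ, ← cor₁_toSubgroupOf₁_kummer hKH _ hK b]
  exact Coh.cor₂_cup₁₁_res (isPairing_muPair hz hμ) (K.subgroupOf H) (ok_subgroupOf hK)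
    (isSmooth_restrict isSmooth_Mu H)
    (isSmooth_restrict (isSmooth_restrict isSmooth_Mu H) (K.subgroupOf H))
    (kummer H (Fact.out : p.Prime).pos a)
    (Coh.toSubgroupOf₁ hKH (kummer K (Fact.out : p.Prime).pos b))

end General

namespace Local

variable {q : ℕ} [Fact q.Prime]

/-- Every open subgroup is the fixing subgroup of a finite extension. -/
theorem exists_field_of_ok {U : Subgroup (GalLoc q)}
    (hU : (galLevels ℚ_[q] (PadicAlgCl q)).ok U) :
    ∃ L : IntermediateField ℚ_[q] (PadicAlgCl q),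
      FiniteDimensional ℚ_[q] L ∧ L.fixingSubgroup = U := by
  obtain ⟨E, hE, hle⟩ := hU
  have := hE
  have hopen : IsOpen (U : Set (GalLoc q)) := Subgroup.isOpen_mono hle E.fixingSubgroup_isOpen
  refine ⟨IntermediateField.fixedField U, ?_,
    InfiniteGalois.fixingSubgroup_fixedField ⟨U, OpenSubgroup.isClosed ⟨_, hopen⟩⟩⟩
  have h : IntermediateField.fixedField U ≤ E := by
    rw [← InfiniteGalois.fixedField_fixingSubgroup E]
    exact IntermediateField.fixedField_le hle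
  exact FiniteDimensional.of_injective (IntermediateField.inclusion h).toLinearMap
    (IntermediateField.inclusion h).injective

end Local

end Fermat.Agent.Duality

end
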