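import Fermat.Agent.Duality.Local.Basic
import Fermat.Agent.Duality.Local.Unramified
import Fermat.Agent.Duality.Places.Adic

/-!
# The index of `p`-th powers in a local field containing the `p`-th roots of unity
-/

set_option autoImplicit false

noncomputable section

open Module

namespace Fermat.Agent.Duality.Local

section Ball

variable {K : Type} [NontriviallyNormedField K] [IsUltrametricDist K]

/-- The additive ball of radius `r`. -/
def addBall (r : ℝ) (hr : 0 ≤ r) : AddSubgroup K where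
  carrier := {x | ‖x‖ ≤ r}
  add_mem' {x y} hx hy := (IsUltrametricDist.norm_add_le_max x y).trans (max_le hx hy)
  zero_mem' := by
    show ‖(0 : K)‖ ≤ r
    simpa using hr
  neg_mem' {x} hx := by
    show ‖-x‖ ≤ r
    rwa [norm_neg]

/-- The multiplicative ball of radius `r < 1` around one. -/
def oneBall (r : ℝ) (hr0 : 0 ≤ r) (hr : r < 1) : Subgroup Kˣ where
  carrier := {u | ‖(u : K) - 1‖ ≤ r}
  mul_mem' {u v} hu hv := by
    have hu1 : ‖(u : K)‖ ≤ 1 := by
      have h := IsUltrametricDist.norm_add_le_max ((u : K) - 1) 1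
      rw [sub_add_cancel, norm_one] at h
      exact h.trans (max_le (hu.trans hr.le) le_rfl)
    show ‖((u * v : Kˣ) : K) - 1‖ ≤ r
    rw [Units.val_mul, show (u : K) * v - 1 = (u : K) * ((v : K) - 1) + ((u : K) - 1) by ring]
    refine (IsUltrametricDist.norm_add_le_max _ _).trans (max_le ?_ hu)
    rw [norm_mul]
    exact (mul_le_of_le_one_left (norm_nonneg _) hu1).trans hv
  one_mem' := by
    show ‖((1 : Kˣ) : K) - 1‖ ≤ r
    simpa using hr0
  inv_mem' {u} hu := by
    have hu1 : ‖(u : K)‖ = 1 := by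
      have h := IsUltrametricDist.norm_add_eq_max_of_norm_ne_norm (x := (u : K) - 1) (y := (1 : K))
        (by rw [norm_one]; exact (lt_of_le_of_lt hu hr).ne)
      rw [sub_add_cancel, norm_one] at h
      rw [h, max_eq_right (hu.trans hr.le)]
    show ‖((u⁻¹ : Kˣ) : K) - 1‖ ≤ r
    rw [Units.val_inv_eq_inv_val,
      show (u : K)⁻¹ - 1 = -((u : K) - 1) * (u : K)⁻¹ by field_simp; ring,
      norm_mul, norm_neg, norm_inv, hu1, inv_one, mul_one]
    exact hu

theorem mem_oneBall {r : ℝ} {hr0 : 0 ≤ r} {hr : r < 1} {u : Kˣ} :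
    u ∈ oneBall r hr0 hr ↔ ‖(u : K) - 1‖ ≤ r := Iff.rfl

theorem mem_addBall {r : ℝ} {hr0 : 0 ≤ r} {x : K} : x ∈ addBall r hr0 ↔ ‖x‖ ≤ r := Iff.rfl

theorem norm_eq_one_of_mem_oneBall {r : ℝ} {hr0 : 0 ≤ r} {hr : r < 1} {u : Kˣ}
    (hu : u ∈ oneBall r hr0 hr) : ‖(u : K)‖ = 1 := by
  have h := IsUltrametricDist.norm_add_eq_max_of_norm_ne_norm (x := (u : K) - 1) (y := (1 : K))
    (by rw [norm_one]; exact (lt_of_le_of_lt (mem_oneBall.mp hu) hr).ne)
  rw [sub_add_cancel, norm_one] at h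
  rw [h, max_eq_right ((mem_oneBall.mp hu).trans hr.le)]

/-- Raising to the `p`-th power scales small deviations from one by `p`. -/
theorem norm_one_add_pow_sub_one {p : ℕ} (hp : p.Prime) (hpK : ‖(p : K)‖ ≤ 1) {x : K}
    (hx : ‖x‖ < ‖(p : K)‖) :
    ‖(1 + x) ^ p - 1‖ = ‖(p : K)‖ * ‖x‖ := by
  rcases eq_or_ne x 0 with rfl | hx0
  · simp
  have hx1 : ‖x‖ < 1 := hx.trans_le hpK
  have hexp : (1 + x) ^ p - 1 =
      (p : K) * x + ∑ i ∈ Finset.Icc 2 p, x ^ i * (p.choose i : K) := by
    rw [add_comm 1 x, add_pow, ← Finset.sum_range_add_sum_Ico _ (show 2 ≤ p + 1 by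
      have := hp.two_le; omega), Finset.Ico_add_one_right_eq_Icc]
    simp only [Finset.sum_range_succ, Finset.sum_range_zero, one_pow, mul_one, pow_zero, pow_one,
      Nat.choose_zero_right, Nat.choose_one_right, Nat.cast_one]
    ring
  have hmain : ‖∑ i ∈ Finset.Icc 2 p, x ^ i * (p.choose i : K)‖ < ‖(p : K) * x‖ := by
    refine lt_of_le_of_lt (IsUltrametricDist.norm_sum_le_of_forall_le_of_nonneg (C := ‖x‖ * ‖x‖)
      (mul_nonneg (norm_nonneg _) (norm_nonneg _)) fun i hi => ?_) ?_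
    · rw [norm_mul, norm_pow, ← pow_two]
      refine (mul_le_of_le_one_right (by positivity) ?_).trans
        (pow_le_pow_of_le_one (norm_nonneg _) hx1.le (Finset.mem_Icc.mp hi).1)
      exact IsUltrametricDist.norm_natCast_le_one _ _
    · rw [norm_mul]
      exact mul_lt_mul_of_pos_right hx (norm_pos_iff.mpr hx0)
  rw [hexp, IsUltrametricDist.norm_add_eq_max_of_norm_ne_norm hmain.ne', max_eq_left hmain.le,
    norm_mul]

end Ball

variable {q : ℕ} [Fact q.Prime]

local notation "Ω" => PadicAlgCl q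

section Lattice

variable (K : Type) [NontriviallyNormedField K] [IsUltrametricDist K] [ProperSpace K]
  [NormedAlgebra ℚ_[q] K] [FiniteDimensional ℚ_[q] K]

/-- A subgroup containing a ball has finite index in a ball. -/
theorem relIndex_addBall_ne_zero (Λ : AddSubgroup K) {ε r : ℝ} (hε : 0 < ε) (hr : 0 ≤ r)
    (hΛ : ∀ x : K, ‖x‖ < ε → x ∈ Λ) : Λ.relIndex (addBall r hr) ≠ 0 := by
  have : CompactSpace (addBall (K := K) r hr) := isCompact_iff_compactSpace.mp (by
    have h : ((addBall r hr : AddSubgroup K) : Set K) = Metric.closedBall 0 r := by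
      ext x; rw [mem_closedBall_zero_iff]; rfl
    rw [h]
    exact isCompact_closedBall 0 r)
  have hlc : IsLocallyConstant
      (fun x : addBall (K := K) r hr => (QuotientAddGroup.mk x :
        addBall (K := K) r hr ⧸ Λ.addSubgroupOf (addBall r hr))) := by
    rw [IsLocallyConstant.iff_exists_open]
    intro x
    refine ⟨{y | ‖(y : K) - (x : K)‖ < ε}, ?_, by simpa using hε, fun y hy => ?_⟩
    · exact isOpen_lt (continuous_subtype_val.sub continuous_const).norm continuous_const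
    · rw [QuotientAddGroup.eq, AddSubgroup.mem_addSubgroupOf]
      refine hΛ _ ?_
      rw [AddSubgroup.coe_add, AddSubgroup.coe_neg, neg_add_eq_sub, norm_sub_rev]
      exact hy
  have : Finite (addBall (K := K) r hr ⧸ Λ.addSubgroupOf (addBall r hr)) := by
    rw [← Set.finite_univ_iff, ← Set.range_eq_univ.mpr QuotientAddGroup.mk_surjective]
    exact hlc.range_finite
  exact Nat.card_ne_zero.mpr ⟨inferInstance, inferInstance⟩

/-- The index of multiples of `q` in the integers is `q ^ n`. -/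
theorem relIndex_mul_addBall :
    ((addBall (K := K) 1 zero_le_one).map (nsmulAddMonoidHom q)).relIndex
      (addBall 1 zero_le_one) = q ^ finrank ℚ_[q] K := by
  set n := finrank ℚ_[q] K
  let b := Module.finBasis ℚ_[q] K
  let e : (Fin n → ℚ_[q]) ≃L[ℚ_[q]] K := b.equivFun.symm.toContinuousLinearEquiv
  obtain ⟨C, hC0, hC⟩ := (e : (Fin n → ℚ_[q]) →L[ℚ_[q]] K).bound
  obtain ⟨D, hD0, hD⟩ := (e.symm : K →L[ℚ_[q]] Fin n → ℚ_[q]).bound
  obtain ⟨c, hc0, hc⟩ := NormedField.exists_norm_lt ℚ_[q] (inv_pos.mpr hC0)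
  let φ : (Fin n → ℤ_[q]) →+ K := AddMonoidHom.mk'
    (fun v => e (c • fun i => (v i : ℚ_[q]))) fun v w => by
      rw [← map_add, ← smul_add]
      congr 2
  have hcne : c ≠ 0 := norm_pos_iff.mp hc0
  have hφ : Function.Injective φ := fun v w h => funext fun i => Subtype.ext (by
    have h1 := congrFun (smul_right_injective (Fin n → ℚ_[q]) hcne (e.injective h)) i
    exact h1)
  have hle : φ.range ≤ addBall 1 zero_le_one := by
    rintro _ ⟨v, rfl⟩
    show ‖e (c • fun i => (v i : ℚ_[q]))‖ ≤ 1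
    refine (hC _).trans ?_
    rw [norm_smul]
    have h1 : ‖(fun i => (v i : ℚ_[q]))‖ ≤ 1 :=
      (pi_norm_le_iff_of_nonneg zero_le_one).mpr fun i => (v i).2
    calc C * (‖c‖ * ‖fun i => (v i : ℚ_[q])‖) ≤ C * (C⁻¹ * 1) := by gcongr
      _ = 1 := by field_simp
  have hball : ∀ x : K, ‖x‖ < ‖c‖ / D → x ∈ φ.range := fun x hx => by
    have h1 : ‖c⁻¹ • e.symm x‖ ≤ 1 := by
      rw [norm_smul, norm_inv, inv_mul_le_one₀ hc0]
      refine (hD x).trans ?_
      rw [lt_div_iff₀ hD0, mul_comm] at hx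
      exact hx.le
    rw [pi_norm_le_iff_of_nonneg zero_le_one] at h1
    refine ⟨fun i => ⟨_, h1 i⟩, ?_⟩
    show e (c • fun i => (c⁻¹ • e.symm x) i) = x
    rw [smul_inv_smul₀ hcne, ContinuousLinearEquiv.apply_symm_apply]
  have hidx := relIndex_addBall_ne_zero K φ.range (div_pos hc0 hD0) zero_le_one hball
  -- pass to the subgroup type
  set O := addBall (K := K) 1 zero_le_one
  let f : O →+ O := nsmulAddMonoidHom q
  have hker : f.ker = ⊥ := by
    rw [eq_bot_iff]
    intro x hx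
    have h1 : (q : K) * (x : K) = 0 := by
      have := congrArg Subtype.val (AddMonoidHom.mem_ker.mp hx)
      simpa [f, nsmul_eq_mul] using this
    have hq0 : (q : K) ≠ 0 := by
      rw [← map_natCast (algebraMap ℚ_[q] K)]
      exact (map_ne_zero _).mpr (Nat.cast_ne_zero.mpr (Fact.out : q.Prime).ne_zero)
    exact Subtype.ext ((mul_eq_zero.mp h1).resolve_left hq0)
  have hmapeq : (O.map (nsmulAddMonoidHom q)).relIndex O = f.range.index := by
    rw [AddSubgroup.relIndex]
    congr 1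
    ext x
    rw [AddSubgroup.mem_addSubgroupOf, AddSubgroup.mem_map]
    exact ⟨fun ⟨y, hy, h⟩ => ⟨⟨y, hy⟩, Subtype.ext h⟩, fun ⟨y, h⟩ => ⟨y, y.2, by rw [← h]; rfl⟩⟩
  let ψ : (Fin n → ℤ_[q]) →+ O := φ.codRestrict O fun v => hle ⟨v, rfl⟩
  have hψ : Function.Injective ψ := fun v w h => hφ (congrArg Subtype.val h)
  have hψidx : ψ.range.index ≠ 0 := by
    have h : ψ.range = φ.range.addSubgroupOf O := by
      ext x
      rw [AddSubgroup.mem_addSubgroupOf]
      exact ⟨fun ⟨v, h⟩ => ⟨v, congrArg Subtype.val h⟩, fun ⟨v, h⟩ => ⟨v, Subtype.ext h⟩⟩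
    rw [h]
    exact hidx
  have hmap : ψ.range.map f ≤ ψ.range := by
    rintro _ ⟨_, ⟨v, rfl⟩, rfl⟩
    exact ⟨q • v, map_nsmul ψ q v⟩
  have h2 : (ψ.range.map f).relIndex ψ.range = q ^ n := by
    have hcomm : ψ.range.map f =
        ((nsmulAddMonoidHom q : (Fin n → ℤ_[q]) →+ _).range).map ψ := by
      rw [AddMonoidHom.range_eq_map ψ, AddSubgroup.map_map, AddMonoidHom.range_eq_map,
        AddSubgroup.map_map]
      congr 1
      exact AddMonoidHom.ext fun v => (map_nsmul ψ q v).symm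
    rw [hcomm, AddMonoidHom.range_eq_map ψ,
      AddSubgroup.relIndex_map_map_of_injective _ _ hψ, AddSubgroup.relIndex_top_right]
    let τ : (Fin n → ℤ_[q]) →+ (Fin n → ZMod q) :=
      AddMonoidHom.compLeft (PadicInt.toZMod.toAddMonoidHom) (Fin n)
    have hτ : Function.Surjective τ := fun z => ⟨fun i => ((z i).val : ℤ_[q]), funext fun i => by
      show PadicInt.toZMod ((z i).val : ℤ_[q]) = z i
      rw [map_natCast, ZMod.natCast_zmod_val]⟩
    have hk : (nsmulAddMonoidHom q : (Fin n → ℤ_[q]) →+ _).range = τ.ker := by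
      ext v
      rw [AddMonoidHom.mem_ker]
      constructor
      · rintro ⟨w, rfl⟩
        funext i
        show PadicInt.toZMod ((q • w) i) = 0
        rw [Pi.smul_apply, nsmul_eq_mul, map_mul, map_natCast, ZMod.natCast_self, zero_mul]
      · intro hv
        have hi : ∀ i, ∃ w, v i = (q : ℤ_[q]) * w := fun i => by
          have h1 : v i ∈ RingHom.ker (PadicInt.toZMod (p := q)) := congrFun hv i
          rw [PadicInt.ker_toZMod, PadicInt.maximalIdeal_eq_span_p,
            Ideal.mem_span_singleton] at h1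
          exact h1
        choose w hw using hi
        exact ⟨w, funext fun i => by
          show (q • w) i = v i
          rw [Pi.smul_apply, nsmul_eq_mul, hw i]⟩
    rw [hk, AddSubgroup.index_ker, AddMonoidHom.range_eq_top_of_surjective τ hτ,
      AddSubgroup.card_top, Nat.card_fun, Nat.card_zmod, Nat.card_fin]
  rw [hmapeq, addIndex_range_eq f ψ.range hψidx hmap, h2, hker, AddSubgroup.relIndex_bot_right,
    one_mul]

end Lattice

section Main

variable (L : IntermediateField ℚ_[q] (PadicAlgCl q)) [FiniteDimensional ℚ_[q] L]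
  {p : ℕ} [Fact p.Prime]

omit [FiniteDimensional ℚ_[q] ↥L] in
theorem norm_natCast_prime : ‖(p : L)‖ = if q = p then (p : ℝ)⁻¹ else 1 := by
  rw [← map_natCast (algebraMap ℚ_[q] L), norm_algebraMap']
  split_ifs with h
  · subst h
    exact Padic.norm_p
  · rw [← Int.cast_natCast, Padic.norm_intCast_eq_one_iff, Int.isCoprime_iff_nat_coprime]
    simpa using ((Fact.out : p.Prime).coprime_iff_not_dvd.mpr fun hd => h
      ((Nat.prime_dvd_prime_iff_eq (Fact.out : p.Prime) (Fact.out : q.Prime)).mp hd).symm)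

/-- The index of `p`-th powers in a local field containing the `p`-th roots of unity. -/
theorem index_range_pow {ζ : L} (hζ : IsPrimitiveRoot ζ p) :
    (powMonoidHom p : Lˣ →* Lˣ).range.index =
      p ^ (2 + if q = p then finrank ℚ_[q] L else 0) := by
  have hp : p.Prime := Fact.out
  obtain ⟨δ, hδ, hpow⟩ := Places.exists_pow_eq_of_norm_sub_one_lt q hp
  obtain ⟨π₀, hπ0, hπ1, hπ⟩ := exists_uniformizer L
  have hπne : π₀ ≠ 0 := norm_pos_iff.mp hπ0
  have hpK : (p : L) ≠ 0 := Nat.cast_ne_zero.mpr hp.ne_zero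
  set P := ‖(p : L)‖ with hP
  have hP0 : 0 < P := norm_pos_iff.mpr hpK
  have hP1 : P ≤ 1 := IsUltrametricDist.norm_natCast_le_one L p
  have hζn : ∀ i, i < p → i ≠ 0 → ∃ t : ℝ, 0 < t ∧ t ≤ ‖ζ ^ i - 1‖ := fun i hi h0 =>
    ⟨_, norm_pos_iff.mpr (sub_ne_zero.mpr (hζ.pow_ne_one_of_pos_of_lt h0 hi)), le_rfl⟩
  obtain ⟨μ, hμ, hμ'⟩ : ∃ μ : ℝ, 0 < μ ∧ ∀ i, i < p → i ≠ 0 → μ ≤ ‖ζ ^ i - 1‖ := by
    obtain ⟨i, hi, hmin⟩ := ((Finset.range p).erase 0).exists_min_image (fun i => ‖ζ ^ i - 1‖)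
      ⟨1, by simp [hp.one_lt]⟩
    rw [Finset.mem_erase, Finset.mem_range] at hi
    obtain ⟨t, ht, ht'⟩ := hζn i hi.2 hi.1
    exact ⟨_, lt_of_lt_of_le ht ht', fun j hj hj0 => hmin j (by simp [hj, hj0])⟩
  -- a radius of the form `‖c‖`
  set r₀ := min P μ / 2 with hr₀
  have hr₀pos : 0 < r₀ := by positivity
  obtain ⟨c, hc0, hc⟩ := NormedField.exists_norm_lt L
    (show 0 < min r₀ (min δ (r₀ ^ p)) from lt_min hr₀pos (lt_min hδ (pow_pos hr₀pos p)))
  set r := ‖c‖ with hr
  have hr0 : 0 ≤ r := hc0.le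
  have hrr : r < r₀ := hc.trans_le (min_le_left _ _)
  have hr₀P : r₀ < P := by
    have := min_le_left P μ
    rw [hr₀]; linarith
  have hr₀μ : r₀ < μ := by
    have := min_le_right P μ
    rw [hr₀]; linarith
  have hrP : r < P := hrr.trans hr₀P
  have hr1 : r < 1 := hrP.trans_le hP1
  have hrp0 : 0 ≤ P * r := mul_nonneg hP0.le hr0
  have hrp1 : P * r < 1 := lt_of_le_of_lt (mul_le_of_le_one_left hr0 hP1) hr1
  set U := oneBall (K := L) r hr0 hr1 with hU
  set V := oneBall (K := L) (P * r) hrp0 hrp1 with hV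
  set f : Lˣ →* Lˣ := powMonoidHom p with hf
  have hscale : ∀ u : Lˣ, ‖(u : L) - 1‖ < P →
      ‖((f u : Lˣ) : L) - 1‖ = P * ‖(u : L) - 1‖ := fun u hu => by
    show ‖((u ^ p : Lˣ) : L) - 1‖ = _
    rw [Units.val_pow_eq_pow_val]
    have := norm_one_add_pow_sub_one hp hP1 (x := (u : L) - 1) hu
    rwa [add_sub_cancel] at this
  have hfU : U.map f = V := by
    refine le_antisymm ?_ fun z hz => ?_
    · rintro _ ⟨u, hu, rfl⟩
      show ‖((f u : Lˣ) : L) - 1‖ ≤ P * r
      rw [hscale u (lt_of_le_of_lt (mem_oneBall.mp hu) hrP)]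
      exact mul_le_mul_of_nonneg_left (mem_oneBall.mp hu) hP0.le
    have hzb : ‖(z : L) - 1‖ < min δ (r₀ ^ p) := lt_of_le_of_lt
      ((mem_oneBall.mp hz).trans (mul_le_of_le_one_left hr0 hP1))
      (hc.trans_le (min_le_right _ _))
    obtain ⟨y, hy, hyp⟩ := hpow L ((z : L) : Ω) (z : L).2 (hzb.trans_le (min_le_left _ _))
    set w : L := ⟨y, hy⟩
    have hwp : w ^ p = z := Subtype.ext hyp
    obtain ⟨i, hi⟩ : ∃ i, ‖ζ ^ i * w - 1‖ < r₀ := by
      by_contra hne
      push Not at hne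
      have hprod : ∏ η ∈ Polynomial.nthRootsFinset p (1 : L), (1 - η * w) = 1 - (z : L) := by
        rw [← hwp, hζ.pow_sub_pow_eq_prod_sub_mul (x := (1 : L)) (y := w) hp.pos |>.symm, one_pow]
      have h1 : r₀ ^ p ≤ ‖1 - (z : L)‖ := by
        rw [← hprod, norm_prod]
        conv_lhs => rw [← hζ.card_nthRootsFinset, ← Finset.prod_const]
        refine Finset.prod_le_prod (fun _ _ => hr₀pos.le) fun η hη => ?_
        have : NeZero p := ⟨hp.ne_zero⟩
        rw [Polynomial.mem_nthRootsFinset hp.pos] at hη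
        obtain ⟨i, -, rfl⟩ := hζ.eq_pow_of_pow_eq_one hη
        rw [norm_sub_rev]
        exact hne i
      rw [norm_sub_rev] at h1
      exact absurd h1 (not_le.mpr (hzb.trans_le (min_le_right _ _)))
    have hw0 : ζ ^ i * w ≠ 0 := fun h => by
      have hz0 : (ζ ^ i * w) ^ p = z := by
        rw [mul_pow, ← pow_mul, mul_comm i, pow_mul, hζ.pow_eq_one, one_pow, one_mul, hwp]
      rw [h, zero_pow hp.ne_zero] at hz0
      exact z.ne_zero hz0.symm
    set u : Lˣ := Units.mk0 _ hw0 with hu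
    have hfu : f u = z := Units.ext (by
      show ((u ^ p : Lˣ) : L) = z
      rw [Units.val_pow_eq_pow_val, hu, Units.val_mk0, mul_pow, ← pow_mul, mul_comm i, pow_mul,
        hζ.pow_eq_one, one_pow, one_mul, hwp])
    refine ⟨u, ?_, hfu⟩
    have h2 := hscale u (hi.trans hr₀P)
    rw [hfu] at h2
    show ‖(u : L) - 1‖ ≤ r
    refine le_of_mul_le_mul_left ?_ hP0
    rw [← h2]
    exact mem_oneBall.mp hz
  -- the subgroup `B`
  set π : Lˣ := Units.mk0 π₀ hπne with hπdef
  set B : Subgroup Lˣ := Subgroup.zpowers π ⊔ U with hB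
  have hU1 : ∀ u ∈ U, ‖(u : L)‖ = 1 := fun u hu => norm_eq_one_of_mem_oneBall hu
  have hpwn : ∀ j : ℤ, ‖((π ^ j : Lˣ) : L)‖ = ‖π₀‖ ^ j := fun j => by
    rw [Units.val_zpow_eq_zpow_val, norm_zpow, hπdef, Units.val_mk0]
  have hmem : ∀ x ∈ B, ∃ j : ℤ, ∃ u ∈ U, x = π ^ j * u := fun x hx => by
    obtain ⟨y, hy, u, hu, rfl⟩ := Subgroup.mem_sup.mp hx
    obtain ⟨j, rfl⟩ := Subgroup.mem_zpowers_iff.mp hy
    exact ⟨j, u, hu, rfl⟩
  have hzero : ∀ j : ℤ, π ^ j ∈ U → j = 0 := fun j hj => by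
    have h1 := hU1 _ hj
    rw [hpwn, ← zpow_zero ‖π₀‖] at h1
    exact zpow_right_injective₀ hπ0 hπ1.ne h1
  have hBi : B.index ≠ 0 := by
    have : CompactSpace (Metric.sphere (0 : L) 1) :=
      isCompact_iff_compactSpace.mp (isCompact_sphere 0 1)
    let g : Metric.sphere (0 : L) 1 → Lˣ ⧸ B := fun x =>
      (Units.mk0 (x : L) (fun h => by simpa [h] using mem_sphere_zero_iff_norm.mp x.2) : Lˣ)
    have hg : IsLocallyConstant g := by
      rw [IsLocallyConstant.iff_exists_open]
      intro x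
      refine ⟨{y | ‖(y : L) - (x : L)‖ < r}, ?_, by simpa using hc0, fun y hy => ?_⟩
      · exact isOpen_lt (continuous_subtype_val.sub continuous_const).norm continuous_const
      · refine QuotientGroup.eq.mpr (Subgroup.mem_sup_right ?_)
        show ‖_ - 1‖ ≤ r
        have hy1 : ‖(y : L)‖ = 1 := mem_sphere_zero_iff_norm.mp y.2
        have hy0 : (y : L) ≠ 0 := norm_pos_iff.mp (by rw [hy1]; exact one_pos)
        rw [Units.val_mul, Units.val_inv_eq_inv_val, Units.val_mk0, Units.val_mk0,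
          show (y : L)⁻¹ * (x : L) - 1 = (y : L)⁻¹ * ((x : L) - y) by field_simp, norm_mul,
          norm_inv, hy1, inv_one, one_mul, norm_sub_rev]
        exact hy.le
    have hsurj : ∀ x : Lˣ ⧸ B, x ∈ Set.range g := fun x => by
      obtain ⟨x, rfl⟩ := QuotientGroup.mk_surjective x
      obtain ⟨k, hk⟩ := hπ (x : L) x.ne_zero
      have hn : ‖((π ^ (-k) * x : Lˣ) : L)‖ = 1 := by
        rw [Units.val_mul, norm_mul, hpwn, hk, ← zpow_add₀ hπ0.ne', neg_add_cancel, zpow_zero]
      refine ⟨⟨_, mem_sphere_zero_iff_norm.mpr hn⟩, ?_⟩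
      refine QuotientGroup.eq.mpr (Subgroup.mem_sup_left ?_)
      refine Subgroup.mem_zpowers_iff.mpr ⟨k, Units.ext ?_⟩
      show _ = (((Units.mk0 ((π ^ (-k) * x : Lˣ) : L) _)⁻¹ * x : Lˣ) : L)
      rw [Units.mk0_val]
      simp
    have : Finite (Lˣ ⧸ B) := by
      rw [← Set.finite_univ_iff, ← Set.eq_univ_of_forall hsurj]
      exact hg.range_finite
    exact Nat.card_ne_zero.mpr ⟨inferInstance, inferInstance⟩
  have hfπ : ∀ j : ℤ, f (π ^ j) = π ^ ((p : ℤ) * j) := fun j => by
    rw [hf, powMonoidHom_apply, mul_comm, zpow_mul, zpow_natCast]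
  have hVU : V ≤ U := fun u hu =>
    mem_oneBall.mpr ((mem_oneBall.mp hu).trans (mul_le_of_le_one_left hr0 hP1))
  have hfB : B.map f ≤ B := by
    rintro _ ⟨x, hx, rfl⟩
    exact pow_mem hx p
  -- the kernel meets `B` trivially
  have hkerB : B.relIndex f.ker = p := by
    have hdis : B ⊓ f.ker = ⊥ := by
      rw [eq_bot_iff]
      rintro x ⟨hxB, hxk⟩
      obtain ⟨j, u, hu, rfl⟩ := hmem x hxB
      have h1 : (((π ^ j * u : Lˣ) : L)) ^ p = 1 := congrArg Units.val (MonoidHom.mem_ker.mp hxk)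
      have h2 := congrArg norm h1
      rw [norm_pow, Units.val_mul, norm_mul, hpwn, hU1 u hu, mul_one, norm_one,
        pow_eq_one_iff_of_nonneg (zpow_nonneg hπ0.le _) hp.ne_zero, ← zpow_zero ‖π₀‖] at h2
      have hj := zpow_right_injective₀ hπ0 hπ1.ne h2
      subst hj
      rw [zpow_zero, one_mul] at h1 ⊢
      have : NeZero p := ⟨hp.ne_zero⟩
      obtain ⟨i, hi, hiu⟩ := hζ.eq_pow_of_pow_eq_one h1
      rcases eq_or_ne i 0 with rfl | hi0
      · rw [pow_zero] at hiu
        exact Subgroup.mem_bot.mpr (Units.ext hiu.symm)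
      · exfalso
        have h3 := mem_oneBall.mp hu
        rw [← hiu] at h3
        exact absurd (hμ' i hi hi0) (not_le.mpr (lt_of_le_of_lt h3 (hrr.trans hr₀μ)))
    rw [← Subgroup.inf_relIndex_right, hdis, Subgroup.relIndex_bot_left]
    have hker : f.ker = rootsOfUnity p L := by
      ext x
      rw [MonoidHom.mem_ker, mem_rootsOfUnity, hf, powMonoidHom_apply]
    have : NeZero p := ⟨hp.ne_zero⟩
    rw [hker, hζ.card_rootsOfUnity]
  -- the index on `B`
  have hBmap : (B.map f).relIndex B = p * V.relIndex U := by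
    have hmapB : B.map f = Subgroup.zpowers (π ^ p) ⊔ V := by
      rw [hB, Subgroup.map_sup, hfU, MonoidHom.map_zpowers]
      rfl
    set C : Subgroup Lˣ := Subgroup.zpowers (π ^ p) ⊔ U with hC
    have h1 : B.map f ≤ C := hmapB ▸ sup_le_sup_left hVU _
    have h2 : C ≤ B :=
      sup_le_sup_right (Subgroup.zpowers_le.mpr (pow_mem (Subgroup.mem_zpowers π) p)) _
    rw [← Subgroup.relIndex_mul_relIndex _ _ _ h1 h2, mul_comm p]
    congr 1
    · have h3 : C = U ⊔ B.map f := by
        rw [hmapB, hC, sup_comm U, sup_assoc, sup_eq_right.mpr hVU]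
      rw [h3, Subgroup.relIndex_sup_right, ← Subgroup.inf_relIndex_right]
      congr 1
      refine le_antisymm ?_ (le_inf (hmapB ▸ le_sup_right) hVU)
      rintro x ⟨hx, hxU⟩
      rw [SetLike.mem_coe, hmapB] at hx
      obtain ⟨y, hy, v, hv, rfl⟩ := Subgroup.mem_sup.mp hx
      obtain ⟨j, rfl⟩ := Subgroup.mem_zpowers_iff.mp hy
      have hj : (π ^ p) ^ j ∈ U := (mul_mem_cancel_right (hVU hv)).mp hxU
      rw [← zpow_natCast, ← zpow_mul] at hj
      rw [← zpow_natCast, ← zpow_mul, hzero _ hj, zpow_zero, one_mul]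
      exact hv
    · have h6 : B = Subgroup.zpowers π ⊔ C := le_antisymm
        (sup_le le_sup_left (le_sup_of_le_right le_sup_right)) (sup_le le_sup_left h2)
      rw [h6, Subgroup.relIndex_sup_right, ← Subgroup.inf_relIndex_right]
      have h4 : C ⊓ Subgroup.zpowers π = Subgroup.zpowers (π ^ p) := by
        refine le_antisymm ?_ (le_inf le_sup_left
          (Subgroup.zpowers_le.mpr (pow_mem (Subgroup.mem_zpowers π) p)))
        rintro x ⟨hx, hxπ⟩
        obtain ⟨y, hy, u, hu, rfl⟩ := Subgroup.mem_sup.mp hx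
        obtain ⟨j, rfl⟩ := Subgroup.mem_zpowers_iff.mp hy
        obtain ⟨i, hi⟩ := Subgroup.mem_zpowers_iff.mp hxπ
        have hu' : u = π ^ (i - (p : ℤ) * j) := by
          rw [zpow_sub, hi, zpow_mul, zpow_natCast, mul_inv_cancel_comm]
        have h7 := hzero (i - (p : ℤ) * j) (hu' ▸ hu)
        rw [hu', h7, zpow_zero, mul_one]
        exact Subgroup.zpow_mem_zpowers _ _
      rw [h4, ← Subgroup.range_zpowersHom π, ← Subgroup.index_comap]
      have h5 : (Subgroup.zpowers (π ^ p)).comap (zpowersHom Lˣ π) =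
          AddSubgroup.toSubgroup (AddSubgroup.zmultiples (p : ℤ)) := by
        ext j
        rw [Subgroup.mem_comap, Subgroup.mem_zpowers_iff, zpowersHom_apply]
        show (∃ i : ℤ, _) ↔ Multiplicative.toAdd j ∈ AddSubgroup.zmultiples (p : ℤ)
        rw [AddSubgroup.mem_zmultiples_iff]
        refine exists_congr fun i => ?_
        rw [smul_eq_mul, ← zpow_natCast, ← zpow_mul, mul_comm i]
        refine ⟨fun h => ?_, fun h => by rw [h]⟩
        have h6 : π ^ ((p : ℤ) * i - Multiplicative.toAdd j) ∈ U := by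
          rw [zpow_sub, h, mul_inv_cancel]
          exact one_mem U
        exact sub_eq_zero.mp (hzero _ h6)
      rw [h5, AddSubgroup.index_toSubgroup, Int.index_zmultiples, Int.natAbs_natCast]
  -- the index of the small units
  have hVU' : V.relIndex U =
      ((addBall (K := L) 1 zero_le_one).map (nsmulAddMonoidHom p)).relIndex
        (addBall 1 zero_le_one) := by
    have hc : c ≠ 0 := norm_pos_iff.mp hc0
    let O := addBall (K := L) 1 zero_le_one
    let I := (O.map (nsmulAddMonoidHom p)).addSubgroupOf O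
    have hmemI : ∀ x : O, x ∈ I ↔ ‖(x : L)‖ ≤ P := fun x => by
      rw [AddSubgroup.mem_addSubgroupOf, AddSubgroup.mem_map]
      constructor
      · rintro ⟨y, hy, he⟩
        rw [← he, nsmulAddMonoidHom_apply, nsmul_eq_mul, norm_mul]
        exact mul_le_of_le_one_right hP0.le (mem_addBall.mp hy)
      · intro hx
        refine ⟨(x : L) / p, ?_, ?_⟩
        · show ‖(x : L) / p‖ ≤ 1
          rw [norm_div, div_le_one hP0]
          exact hx
        · rw [nsmulAddMonoidHom_apply, nsmul_eq_mul, mul_div_cancel₀ _ hpK]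
    let g : U →* Multiplicative (O ⧸ I) := MonoidHom.mk'
      (fun u => Multiplicative.ofAdd ((⟨(((u : Lˣ) : L) - 1) / c, by
        show ‖_‖ ≤ 1
        rw [norm_div, div_le_one hc0]
        exact u.2⟩ : O) : O ⧸ I))
      fun u v => by
        rw [← ofAdd_add, ← QuotientAddGroup.mk_add]
        refine congrArg _ (QuotientAddGroup.eq.mpr ((hmemI _).mpr ?_))
        show ‖-(((((u * v : U) : Lˣ) : L) - 1) / c) +
          ((((u : Lˣ) : L) - 1) / c + (((v : Lˣ) : L) - 1) / c)‖ ≤ P
        rw [show -(((((u * v : U) : Lˣ) : L) - 1) / c) +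
            ((((u : Lˣ) : L) - 1) / c + (((v : Lˣ) : L) - 1) / c) =
            -((((u : Lˣ) : L) - 1) * (((v : Lˣ) : L) - 1) / c) by
          rw [Subgroup.coe_mul, Units.val_mul]; field_simp; ring,
          norm_neg, norm_div, div_le_iff₀ hc0, norm_mul]
        calc ‖((u : Lˣ) : L) - 1‖ * ‖((v : Lˣ) : L) - 1‖ ≤ r * r :=
              mul_le_mul u.2 v.2 (norm_nonneg _) hr0
          _ ≤ P * r := mul_le_mul_of_nonneg_right hrP.le hr0
    have hg : Function.Surjective g := by
      intro z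
      obtain ⟨o, ho⟩ := QuotientAddGroup.mk_surjective (Multiplicative.toAdd z)
      have hn : ‖c * (o : L)‖ ≤ r := by
        rw [norm_mul]
        exact mul_le_of_le_one_right hr0 o.2
      have hne : 1 + c * (o : L) ≠ 0 := fun h => by
        rw [add_eq_zero_iff_eq_neg] at h
        have h7 : ‖(1 : L)‖ = ‖c * (o : L)‖ := by rw [h, norm_neg]
        rw [norm_one] at h7
        linarith
      refine ⟨⟨Units.mk0 _ hne, ?_⟩, ?_⟩
      · show ‖(1 + c * (o : L)) - 1‖ ≤ r
        rwa [add_sub_cancel_left]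
      · refine Multiplicative.toAdd.injective ?_
        rw [← ho]
        show ((⟨_, _⟩ : O) : O ⧸ I) = _
        congr 1
        exact Subtype.ext (by simp [hc])
    have hker : g.ker = V.subgroupOf U := by
      ext u
      rw [MonoidHom.mem_ker, Subgroup.mem_subgroupOf]
      show Multiplicative.ofAdd _ = 1 ↔ _
      rw [ofAdd_eq_one, QuotientAddGroup.eq_zero_iff, hmemI, mem_oneBall]
      show ‖(((u : Lˣ) : L) - 1) / c‖ ≤ P ↔ _
      rw [norm_div, div_le_iff₀ hc0]
    show (V.subgroupOf U).index = I.index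
    rw [← hker, Subgroup.index_ker, MonoidHom.range_eq_top_of_surjective g hg, Subgroup.card_top]
    rfl
  rw [index_range_eq f B hBi hfB, hkerB, hBmap, hVU']
  split_ifs with hqp
  · subst hqp
    rw [relIndex_mul_addBall, pow_add, sq, mul_assoc]
  · have h1 : (addBall (K := L) 1 zero_le_one).map (nsmulAddMonoidHom p) =
        addBall 1 zero_le_one := by
      ext x
      rw [AddSubgroup.mem_map]
      have hP' : P = 1 := by rw [hP, norm_natCast_prime, if_neg hqp]
      constructor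
      · rintro ⟨y, hy, rfl⟩
        show ‖p • y‖ ≤ 1
        rw [nsmul_eq_mul, norm_mul, ← hP, hP', one_mul]
        exact hy
      · intro hx
        refine ⟨x / p, ?_, ?_⟩
        · show ‖x / p‖ ≤ 1
          rw [norm_div, ← hP, hP', div_one]
          exact hx
        · rw [nsmulAddMonoidHom_apply, nsmul_eq_mul, mul_div_cancel₀ _ hpK]
    rw [h1, AddSubgroup.relIndex_self, mul_one, add_zero, sq]

end Main

end Fermat.Agent.Duality.Local

end
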