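import Fermat.Agent.Duality.Local.UnramifiedCoh
import Fermat.Agent.Duality.Local.PowerIndex

/-!
# The local symbol attached to a `p`-th root of unity

For a local field `L` whose Galois group fixes `μ_p`, the cup product
`H¹(μ_p) × H¹(μ_p) → H²(μ_p)` attached to `(ζ^i, ζ^j) ↦ ζ^(ij)`: its norm criterion,
non-degeneracy, skew-symmetry, and its values on units.
-/

set_option autoImplicit false

noncomputable section

open Module

namespace Fermat.Agent.Duality

section MuPair

variable {p : ℕ} [Fact p.Prime] {F Ω : Type} [Field F] [Field Ω] [Algebra F Ω]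
  {z₀ : Mu p Ω} (hz : z₀ ≠ 0)

/-- A nonzero root of unity of prime order is primitive. -/
lemma isPrimitiveRoot_of_mu_ne_zero {p : ℕ} [Fact p.Prime] {z₀ : Mu p Ω} (hz : z₀ ≠ 0) :
    IsPrimitiveRoot (((muVal z₀).toMul : Ωˣ) : Ω) p := by
  refine IsPrimitiveRoot.iff_orderOf.mpr (orderOf_eq_prime ?_ fun h => hz ?_)
  · rw [← Units.val_pow_eq_pow_val, ← toMul_nsmul, nsmul_muVal]
    rfl
  · refine muVal_injective ?_
    rw [map_zero]
    exact Additive.toMul.injective (Units.ext h)

include hz in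
lemma zpSmul_flip_bijective : Function.Bijective (fun i : Zp p => zpSmul i z₀) := by
  have hprim := isPrimitiveRoot_of_mu_ne_zero hz
  have key : ∀ i : Zp p, (((muVal (zpSmul i z₀)).toMul : Ωˣ) : Ω) =
      (((muVal z₀).toMul : Ωˣ) : Ω) ^ (Zp.of.symm i).val := fun i => by
    rw [zpSmul_apply, map_nsmul, toMul_nsmul, Units.val_pow_eq_pow_val]
  refine ⟨fun i j h => ?_, fun z => ?_⟩
  · have h1 := congrArg (fun w => (((muVal w).toMul : Ωˣ) : Ω)) h
    simp only [key] at h1
    exact Zp.of.symm.injective (ZMod.val_injective p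
      (hprim.pow_inj (ZMod.val_lt _) (ZMod.val_lt _) h1))
  · have : NeZero p := ⟨(Fact.out : p.Prime).ne_zero⟩
    have hpow : (((muVal z).toMul : Ωˣ) : Ω) ^ p = 1 := by
      rw [← Units.val_pow_eq_pow_val, ← toMul_nsmul, nsmul_muVal]
      rfl
    obtain ⟨i, hi, hiz⟩ := hprim.eq_pow_of_pow_eq_one hpow
    refine ⟨Zp.of (i : ZMod p), muVal_injective (Additive.toMul.injective (Units.ext ?_))⟩
    rw [key, AddEquiv.symm_apply_apply, ZMod.val_natCast, Nat.mod_eq_of_lt hi, hiz]

/-- The discrete logarithm with respect to a nonzero root of unity. -/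
def muDlog : Mu p Ω ≃+ Zp p :=
  (AddEquiv.ofBijective ((zpSmul (p := p) (L := Ω)).flip z₀) (zpSmul_flip_bijective hz)).symm

lemma zpSmul_muDlog (z : Mu p Ω) : zpSmul (muDlog hz z) z₀ = z :=
  (AddEquiv.ofBijective ((zpSmul (p := p) (L := Ω)).flip z₀)
    (zpSmul_flip_bijective hz)).apply_symm_apply z

/-- The pairing `(ζ^i, ζ^j) ↦ ζ^(ij)`. -/
def muPair : Mu p Ω →+ Mu p Ω →+ Mu p Ω := zpSmul.comp (muDlog hz).toAddMonoidHom

lemma muPair_apply (z w : Mu p Ω) : muPair hz z w = zpSmul (muDlog hz z) w := rfl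

lemma muPair_comm (z w : Mu p Ω) : muPair hz z w = muPair hz w z := by
  conv_lhs => rw [muPair_apply, ← zpSmul_muDlog hz w]
  conv_rhs => rw [muPair_apply, ← zpSmul_muDlog hz z]
  simp only [zpSmul_apply, ← mul_nsmul', mul_comm]

lemma muPair_pow (i j : ℕ) : muPair hz (i • z₀) (j • z₀) = (i * j) • z₀ := by
  have h1 : muDlog hz z₀ = Zp.of (1 : ZMod p) := by
    refine (zpSmul_flip_bijective hz).1 ?_
    show zpSmul (muDlog hz z₀) z₀ = zpSmul (Zp.of (1 : ZMod p)) z₀
    have : Fact (1 < p) := ⟨(Fact.out : p.Prime).one_lt⟩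
    rw [zpSmul_muDlog, zpSmul_apply, AddEquiv.symm_apply_apply, ZMod.val_one, one_nsmul]
  have : Fact (1 < p) := ⟨(Fact.out : p.Prime).one_lt⟩
  rw [map_nsmul, muPair_comm, map_nsmul, muPair_apply, h1, zpSmul_apply,
    AddEquiv.symm_apply_apply, ZMod.val_one, one_nsmul, ← mul_nsmul]

variable [Normal F Ω] {H : Subgroup (Ω ≃ₐ[F] Ω)}
  (hμ : ∀ (g : H) (z : Mu p Ω), g • z = z)

omit [Normal F Ω] in
include hμ in
lemma isPairing_muPair : Coh.IsPairing (G := H) (muPair hz) := fun g z w => by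
  rw [hμ g z, hμ g w, hμ g]

omit [Normal F Ω] in
include hμ in
lemma isEquivariant_muDlog :
    Coh.IsEquivariant (MonoidHom.id H) (muDlog hz).toAddMonoidHom := fun g z => by
  show muDlog hz (g • z) = g • muDlog hz z
  rw [hμ g z, Zp.smul_eq]

variable [IsAlgClosed Ω]

/-- The symbol: the cup product of two Kummer classes. -/
def symb : Coh.inv H (Lx Ω) →+ Coh.inv H (Lx Ω) →+ H2μ p H :=
  (((Coh.cup₁₁ (isPairing_muPair hz hμ) (isSmooth_restrict isSmooth_Mu H)).comp
    (kummer H (Fact.out : p.Prime).pos)).flip.comp (kummer H (Fact.out : p.Prime).pos)).flip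

lemma symb_apply (a b : Coh.inv H (Lx Ω)) :
    symb hz hμ a b = Coh.cup₁₁ (isPairing_muPair hz hμ) (isSmooth_restrict isSmooth_Mu H)
      (kummer H (Fact.out : p.Prime).pos a) (kummer H (Fact.out : p.Prime).pos b) := rfl

/-- The character of a Kummer class. -/
def chiOf (a : Coh.inv H (Lx Ω)) : Char1 p H :=
  Coh.Z1.map (Coh.Levels.compat_id _) (isEquivariant_muDlog hz hμ)
    (kummerFun H (Fact.out : p.Prime).pos a)

lemma chiOf_apply (a : Coh.inv H (Lx Ω)) (g : H) :
    (chiOf hz hμ a : H → Zp p) g =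
      muDlog hz ((kummerFun H (Fact.out : p.Prime).pos a : H → Mu p Ω) g) := rfl

/-- The symbol is a cup product with the character of the first entry. -/
lemma symb_eq_cupChi (a b : Coh.inv H (Lx Ω)) : symb hz hμ a b = cupChi (chiOf hz hμ a) b := rfl

lemma mem_chiKer_chiOf {a : Coh.inv H (Lx Ω)} {g : H} :
    g ∈ chiKer (chiOf hz hμ a) ↔
      g • rootP p (a : Lx Ω) = rootP p (a : Lx Ω) := by
  rw [mem_chiKer, chiOf_apply, AddEquiv.map_eq_zero_iff, ← muVal_injective.eq_iff, map_zero,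
    muVal_kummerFun, sub_eq_zero]

/-- The character of a class vanishes exactly with the class. -/
lemma chiOf_eq_zero_iff {a : Coh.inv H (Lx Ω)} :
    chiOf hz hμ a = 0 ↔ kummer H (Fact.out : p.Prime).pos a = 0 := by
  constructor
  · intro h
    refine Coh.H1.mk_eq_zero.mpr ⟨0, fun g => ?_⟩
    have h1 : muDlog hz ((kummerFun H (Fact.out : p.Prime).pos a : H → Mu p Ω) g) = 0 :=
      congrFun (congrArg Subtype.val h) g
    rw [AddEquiv.map_eq_zero_iff] at h1
    rw [h1, smul_zero, sub_zero]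
  · intro h
    obtain ⟨z, hz'⟩ := Coh.H1.mk_eq_zero.mp h
    refine Subtype.ext (funext fun g => ?_)
    rw [chiOf_apply, hz' g, hμ g z, sub_self, map_zero]
    rfl

end MuPair

namespace Local

variable {q : ℕ} [Fact q.Prime] {L : IntermediateField ℚ_[q] (PadicAlgCl q)}
  [FiniteDimensional ℚ_[q] L]
  {p : ℕ} [Fact p.Prime] {z₀ : Mu p (PadicAlgCl q)} (hz : z₀ ≠ 0)
  (hμ : ∀ (g : L.fixingSubgroup) (z : Mu p (PadicAlgCl q)), g • z = z)

/-- The additive unit `-1`, invariant under every group. -/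
def negOne (L : IntermediateField ℚ_[q] (PadicAlgCl q)) :
    Coh.inv L.fixingSubgroup (Lx (PadicAlgCl q)) :=
  ofUnit L (-1)

/-- `(a, -a) = 0`. -/
theorem symb_self_negOne (a : Coh.inv L.fixingSubgroup (Lx (PadicAlgCl q))) :
    symb hz hμ a (negOne L + a) = 0 := by
  classical
  have hp : p.Prime := Fact.out
  by_cases h0 : kummer L.fixingSubgroup hp.pos a = 0
  · rw [symb_apply, h0, map_zero, AddMonoidHom.zero_apply]
  set χ := chiOf hz hμ a
  have hχ : χ ≠ 0 := fun h => h0 ((chiOf_eq_zero_iff hz hμ).mp h)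
  set ρ := rootP p (a : Lx (PadicAlgCl q)) with hρ
  set Φ : Lx (PadicAlgCl q) := (negOne L : Lx (PadicAlgCl q)) with hΦ
  set s := chiGen χ hχ
  have hmem : Φ + ρ ∈ Coh.inv (chiKer χ) (Lx (PadicAlgCl q)) := fun n => by
    show ((n : L.fixingSubgroup)) • (Φ + ρ) = Φ + ρ
    rw [smul_add, (mem_chiKer_chiOf hz hμ).mp n.2, (negOne L).2 (n : L.fixingSubgroup)]
  have : Fintype (L.fixingSubgroup ⧸ chiKer χ) :=
    @Fintype.ofFinite _ (@Subgroup.finite_quotient_of_finiteIndex _ _ _
      (((galLevels ℚ_[q] (PadicAlgCl q)).restrict L.fixingSubgroup).finiteIndex (ok_chiKer χ)))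
  rw [symb_eq_cupChi]
  · refine (cupChi_eq_zero_iff χ hχ (ok_fixingSubgroup L) _).mpr ⟨⟨_, hmem⟩, Subtype.ext ?_⟩
    rw [cor₀_chiKer χ hχ]
    have hs : s • ρ = ρ + muVal z₀ := by
      have h1 : (χ : L.fixingSubgroup → Zp p) s = Zp.of (1 : ZMod p) := by
        have : Fact (1 < p) := ⟨hp.one_lt⟩
        refine Zp.of.symm.injective (ZMod.val_injective p ?_)
        rw [AddEquiv.symm_apply_apply, ZMod.val_one]
        exact chiVal_chiGen χ hχ
      have h2 := congrArg (fun i => zpSmul i z₀) h1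
      simp only [χ, chiOf_apply, zpSmul_muDlog] at h2
      have : Fact (1 < p) := ⟨hp.one_lt⟩
      rw [zpSmul_apply, AddEquiv.symm_apply_apply, ZMod.val_one, one_nsmul] at h2
      have h3 := congrArg muVal h2
      rw [muVal_kummerFun] at h3
      rw [← h3]
      abel
    have hzfix : ∀ g : L.fixingSubgroup, g • muVal z₀ = muVal z₀ := fun g =>
      congrArg muVal (hμ g z₀)
    have hpow : ∀ j, s ^ j • (Φ + ρ) = (Φ + ρ) + j • muVal z₀ := fun j => by
      induction j with
      | zero => rw [pow_zero, one_smul, zero_nsmul, add_zero]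
      | succ j ih =>
        rw [pow_succ', mul_smul, ih, smul_add, smul_add, hΦ, (negOne L).2 s, hs, smul_comm,
          hzfix, succ_nsmul']
        abel
    rw [genSum, Finset.sum_congr rfl fun j _ => hpow j, Finset.sum_add_distrib, Finset.sum_const,
      Finset.card_range, nsmul_add, nsmul_rootP hp.pos, ← Finset.sum_smul]
    show p • Φ + (a : Lx (PadicAlgCl q)) + (∑ j ∈ Finset.range p, j) • muVal z₀ = Φ + a
    have h2 : (2 : ℕ) • Φ = 0 := Additive.toMul.injective (Units.ext (by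
      show uVal Φ ^ 2 = 1
      rw [hΦ, negOne, uVal_ofUnit]
      simp))
    rcases hp.eq_two_or_odd' with h | h
    · subst h
      have hz1 : muVal z₀ = Φ := by
        refine Additive.toMul.injective (Units.ext ?_)
        show uVal (muVal z₀) = uVal Φ
        rw [hΦ, negOne, uVal_ofUnit, uVal,
          (isPrimitiveRoot_of_mu_ne_zero hz).eq_neg_one_of_two_right]
        rfl
      rw [hz1, Finset.sum_range_succ, Finset.sum_range_succ, Finset.sum_range_zero, h2,
        zero_add, zero_add, one_nsmul, add_comm]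
    · obtain ⟨k, hk⟩ := h
      have hsum : ∑ j ∈ Finset.range p, j = p * k := by
        have h3 := Finset.sum_range_id_mul_two p
        rw [hk] at h3 ⊢
        rw [Nat.add_sub_cancel] at h3
        have h4 : (2 * k + 1) * (2 * k) = ((2 * k + 1) * k) * 2 := by ring
        omega
      rw [hsum, mul_comm, mul_nsmul', nsmul_muVal, nsmul_zero, add_zero]
      conv_lhs => rw [hk, add_nsmul, mul_comm, mul_nsmul', h2, nsmul_zero, zero_add, one_nsmul]

theorem bilin_add_swap {A C : Type} [AddCommGroup A] [AddCommGroup C] (B : A →+ A →+ C) (n : A)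
    (h : ∀ a, B a (n + a) = 0) (a b : A) : B a b + B b a = 0 := by
  have h1 := h (a + b)
  rw [map_add B, AddMonoidHom.add_apply, show n + (a + b) = (n + a) + b from (add_assoc _ _ _).symm,
    map_add (B a), h a, zero_add, show n + a + b = (n + b) + a from add_right_comm _ _ _,
    map_add (B b), h b, zero_add] at h1
  exact h1

include hz hμ in
/-- Skew-symmetry of the symbol. -/
theorem symb_add_symb_swap (a b : Coh.inv L.fixingSubgroup (Lx (PadicAlgCl q))) :
    symb hz hμ a b + symb hz hμ b a = 0 :=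
  bilin_add_swap (A := Coh.inv L.fixingSubgroup (Lx (PadicAlgCl q)))
    (C := H2μ p L.fixingSubgroup) (symb hz hμ) (negOne L)
    (fun x => symb_self_negOne hz hμ x) a b

variable {a : Coh.inv L.fixingSubgroup (Lx (PadicAlgCl q))}

/-- The norms from the field cut out by `a`. -/
abbrev normGroup (a : Coh.inv L.fixingSubgroup (Lx (PadicAlgCl q))) : Subgroup Lˣ :=
  (Units.map (Algebra.norm L : kerField (chiOf hz hμ a) →* L)).range

/-- The symbol vanishes exactly on norms. -/
theorem symb_ofUnit_eq_zero_iff (ha : kummer L.fixingSubgroup (Fact.out : p.Prime).pos a ≠ 0)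
    (b : Lˣ) : symb hz hμ a (ofUnit L b) = 0 ↔ b ∈ normGroup hz hμ a := by
  have hχ : chiOf hz hμ a ≠ 0 := fun h => ha ((chiOf_eq_zero_iff hz hμ).mp h)
  have : Fintype (L.fixingSubgroup ⧸ chiKer (chiOf hz hμ a)) :=
    @Fintype.ofFinite _ (@Subgroup.finite_quotient_of_finiteIndex _ _ _
      (((galLevels ℚ_[q] (PadicAlgCl q)).restrict L.fixingSubgroup).finiteIndex
        (ok_chiKer (chiOf hz hμ a))))
  rw [symb_eq_cupChi, cupChi_eq_zero_iff _ hχ (ok_fixingSubgroup L), exists_cor₀_eq_iff _ hχ]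

theorem index_normGroup (ha : kummer L.fixingSubgroup (Fact.out : p.Prime).pos a ≠ 0) :
    (normGroup hz hμ a).index = p := by
  have hχ : chiOf hz hμ a ≠ 0 := fun h => ha ((chiOf_eq_zero_iff hz hμ).mp h)
  exact (index_range_norm L (kerField (chiOf hz hμ a)) _
    (zpowers_kerGen (chiOf hz hμ a) hχ)).trans (finrank_kerField _ hχ)

theorem index_ker_symb (ha : kummer L.fixingSubgroup (Fact.out : p.Prime).pos a ≠ 0) :
    (symb hz hμ a).ker.index = p := by
  rw [← AddSubgroup.index_comap_of_surjective _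
    (f := (unitsEquivInv L).toAddMonoidHom) (unitsEquivInv L).surjective]
  rw [show (symb hz hμ a).ker.comap (unitsEquivInv L).toAddMonoidHom =
      (normGroup hz hμ a).toAddSubgroup from ?_, Subgroup.index_toAddSubgroup,
        index_normGroup hz hμ ha]
  ext x
  rw [AddSubgroup.mem_comap, AddMonoidHom.mem_ker]
  exact symb_ofUnit_eq_zero_iff hz hμ ha x.toMul

/-- Non-degeneracy. -/
theorem exists_symb_ne_zero (ha : kummer L.fixingSubgroup (Fact.out : p.Prime).pos a ≠ 0) :
    ∃ b, symb hz hμ a b ≠ 0 := by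
  by_contra h
  simp only [not_exists, not_not] at h
  have hidx := index_ker_symb hz hμ ha
  rw [show (symb hz hμ a).ker = ⊤ from eq_top_iff.mpr fun b _ => h b, AddSubgroup.index_top] at hidx
  exact (Fact.out : p.Prime).one_lt.ne hidx

theorem card_range_symb (ha : kummer L.fixingSubgroup (Fact.out : p.Prime).pos a ≠ 0) :
    Nat.card (symb hz hμ a).range = p := by
  rw [← AddSubgroup.index_ker, index_ker_symb hz hμ ha]

omit [FiniteDimensional ℚ_[q] ↥L] in
theorem kummer_ne_zero_of_symb {b : Coh.inv L.fixingSubgroup (Lx (PadicAlgCl q))}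
    (h : symb hz hμ a b ≠ 0) : kummer L.fixingSubgroup (Fact.out : p.Prime).pos b ≠ 0 := fun h0 =>
  h (by rw [symb_apply, h0, map_zero])

theorem range_symb_eq_of_ne_zero {b : Coh.inv L.fixingSubgroup (Lx (PadicAlgCl q))}
    (ha : kummer L.fixingSubgroup (Fact.out : p.Prime).pos a ≠ 0) (h : symb hz hμ a b ≠ 0) :
    (symb hz hμ a).range = (symb hz hμ b).range := by
  have hb := kummer_ne_zero_of_symb hz hμ h
  set y := symb hz hμ a b
  have key : ∀ S : AddSubgroup (H2μ p L.fixingSubgroup), Nat.card S = p → y ∈ S →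
      S = AddSubgroup.zmultiples y := fun S hS hy => by
    have h1 : AddSubgroup.zmultiples (⟨y, hy⟩ : S) = ⊤ :=
      zmultiples_eq_top_of_prime_card hS fun h0 => h (congrArg Subtype.val h0)
    refine le_antisymm (fun x hx => ?_) (AddSubgroup.zmultiples_le_of_mem hy)
    obtain ⟨k, hk⟩ := AddSubgroup.mem_zmultiples_iff.mp
      (h1 ▸ AddSubgroup.mem_top (⟨x, hx⟩ : S))
    exact AddSubgroup.mem_zmultiples_iff.mpr ⟨k, congrArg Subtype.val hk⟩
  rw [key _ (card_range_symb hz hμ ha) ⟨b, rfl⟩, key _ (card_range_symb hz hμ hb) ?_]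
  refine ⟨-a, ?_⟩
  rw [map_neg, neg_eq_iff_add_eq_zero]
  exact symb_add_symb_swap hz hμ b a

/-- All nonzero classes give the same line. -/
theorem range_symb_eq {c : Coh.inv L.fixingSubgroup (Lx (PadicAlgCl q))}
    (ha : kummer L.fixingSubgroup (Fact.out : p.Prime).pos a ≠ 0)
    (hc : kummer L.fixingSubgroup (Fact.out : p.Prime).pos c ≠ 0) :
    (symb hz hμ a).range = (symb hz hμ c).range := by
  obtain ⟨b₁, h₁⟩ := exists_symb_ne_zero hz hμ ha
  obtain ⟨b₂, h₂⟩ := exists_symb_ne_zero hz hμ hc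
  obtain ⟨b, hab, hcb⟩ : ∃ b, symb hz hμ a b ≠ 0 ∧ symb hz hμ c b ≠ 0 := by
    by_cases h₁' : symb hz hμ c b₁ = 0
    · by_cases h₂' : symb hz hμ a b₂ = 0
      · exact ⟨b₁ + b₂, by rwa [map_add, h₂', add_zero], by rwa [map_add, h₁', zero_add]⟩
      · exact ⟨b₂, h₂', h₂⟩
    · exact ⟨b₁, h₁, h₁'⟩
  rw [range_symb_eq_of_ne_zero hz hμ ha hab, range_symb_eq_of_ne_zero hz hμ hc hcb]

section Units

variable (hqp : q ≠ p)

omit [FiniteDimensional ℚ_[q] L] in
include hqp in
theorem norm_zeta_sub_one {x : PadicAlgCl q} (hx : x ^ p = 1) (hx1 : x ≠ 1) : ‖x - 1‖ = 1 := by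
  have hp : p.Prime := Fact.out
  have hnx : ‖x‖ = 1 :=
    (IsOfFinOrder.norm_eq_one (isOfFinOrder_iff_pow_eq_one.mpr ⟨p, hp.pos, hx⟩))
  refine le_antisymm ?_ (not_lt.mp fun hlt => ?_)
  · rw [sub_eq_add_neg]
    refine (IsUltrametricDist.norm_add_le_max _ _).trans ?_
    rw [norm_neg, norm_one, hnx, max_self]
  · have hP : ‖(p : PadicAlgCl q)‖ = 1 := by
      rw [← map_natCast (algebraMap ℚ_[q] (PadicAlgCl q)), norm_algebraMap',
        ← Int.cast_natCast, Padic.norm_intCast_eq_one_iff, Int.isCoprime_iff_nat_coprime]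
      simpa using (hp.coprime_iff_not_dvd.mpr fun hd => hqp
        ((Nat.prime_dvd_prime_iff_eq hp (Fact.out : q.Prime)).mp hd).symm)
    have h1 := norm_one_add_pow_sub_one hp hP.le (x := x - 1) (by rwa [hP])
    rw [add_sub_cancel, hx, sub_self, norm_zero, hP, one_mul, eq_comm, norm_eq_zero,
      sub_eq_zero] at h1
    exact hx1 h1

omit [FiniteDimensional ℚ_[q] ↥L] in
include hqp in
/-- A root of a unit generates an unramified extension. -/
theorem isUnramExt_chiOf (hau : ‖uVal (a : Lx (PadicAlgCl q))‖ = 1) :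
    IsUnramExt L (kerField (chiOf hz hμ a)) := by
  have hp : p.Prime := Fact.out
  intro g hg hres x hx
  set ρ := rootP p (a : Lx (PadicAlgCl q)) with hρ
  have hρn : ‖uVal ρ‖ = 1 := by
    have h1 : uVal ρ ^ p = uVal (a : Lx (PadicAlgCl q)) := by
      rw [uVal, ← Units.val_pow_eq_pow_val, ← toMul_nsmul, hρ, nsmul_rootP hp.pos]
    rw [← pow_eq_one_iff_of_nonneg (norm_nonneg _) hp.ne_zero, ← norm_pow, h1, hau]
  have hρmem : uVal ρ ∈ kerField (chiOf hz hμ a) := (mem_kerField _).mpr fun σ hσ =>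
    congrArg uVal ((mem_chiKer_chiOf hz hμ).mp hσ)
  set z := (kummerFun L.fixingSubgroup hp.pos a : L.fixingSubgroup → Mu p (PadicAlgCl q)) ⟨g, hg⟩
  have hζ : g (uVal ρ) = uVal (muVal z) * uVal ρ := by
    rw [show muVal z = (⟨g, hg⟩ : L.fixingSubgroup) • ρ - ρ from muVal_kummerFun _ hp.pos a _,
      uVal, uVal, toMul_sub, Units.val_div_eq_div_val, div_mul_cancel₀ _ (Units.ne_zero _)]
    rfl
  have hker : (⟨g, hg⟩ : L.fixingSubgroup) ∈ chiKer (chiOf hz hμ a) := by
    rw [mem_chiKer, chiOf_apply, AddEquiv.map_eq_zero_iff]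
    by_contra hne
    have h1 : uVal (muVal z) ≠ 1 := fun h => hne (muVal_injective (by
      rw [map_zero]; exact Additive.toMul.injective (Units.ext h)))
    have h2 := norm_zeta_sub_one hqp (p := p) (by
      rw [uVal, ← Units.val_pow_eq_pow_val, ← toMul_nsmul, nsmul_muVal]; rfl) h1
    have h3 := hres _ hρmem hρn.le
    rw [hζ, show uVal (muVal z) * uVal ρ - uVal ρ = (uVal (muVal z) - 1) * uVal ρ by ring,
      norm_mul, h2, hρn, one_mul] at h3
    exact lt_irrefl _ h3
  exact (mem_kerField _).mp hx ⟨g, hg⟩ hker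

include hqp in
/-- For a unit `u`, the symbol `(u, b)` detects whether the absolute value of `b` is a `p`-th
power. -/
theorem symb_unit_eq_zero_iff {u : Lˣ} (hu : ‖(u : L)‖ = 1)
    (hne : kummer L.fixingSubgroup (Fact.out : p.Prime).pos (ofUnit L u) ≠ 0) (b : Lˣ) :
    symb hz hμ (ofUnit L u) (ofUnit L b) = 0 ↔ ∃ y : L, ‖(b : L)‖ = ‖y‖ ^ p := by
  have hχ : chiOf hz hμ (ofUnit L u) ≠ 0 := fun h => hne ((chiOf_eq_zero_iff hz hμ).mp h)
  rw [symb_ofUnit_eq_zero_iff hz hμ hne, normGroup,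
    IsUnramExt.mem_range_norm_iff (isUnramExt_chiOf hz hμ hqp (a := ofUnit L u) hu) b,
    finrank_kerField _ hχ]

include hqp in
/-- Units pair to zero away from `p`. -/
theorem symb_units {u v : Lˣ} (hu : ‖(u : L)‖ = 1) (hv : ‖(v : L)‖ = 1) :
    symb hz hμ (ofUnit L u) (ofUnit L v) = 0 := by
  by_cases hne : kummer L.fixingSubgroup (Fact.out : p.Prime).pos (ofUnit L u) = 0
  · rw [symb_apply, hne, map_zero, AddMonoidHom.zero_apply]
  · exact (symb_unit_eq_zero_iff hz hμ hqp hu hne v).mpr ⟨1, by rw [hv, norm_one, one_pow]⟩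

end Units

/-- The number of classes in `H¹(μ_p)`. -/
theorem card_H1μ {ζ : L} (hζ : IsPrimitiveRoot ζ p) :
    Nat.card (H1μ p L.fixingSubgroup) = p ^ (2 + if q = p then finrank ℚ_[q] L else 0) := by
  have hp : p.Prime := Fact.out
  let κ : Additive Lˣ →+ H1μ p L.fixingSubgroup :=
    (kummer L.fixingSubgroup hp.pos).comp (unitsEquivInv L).toAddMonoidHom
  have hκ : Function.Surjective κ :=
    (kummer_surjective hp.pos _ (ok_fixingSubgroup L)).comp (unitsEquivInv L).surjective
  rw [← AddSubgroup.card_top (G := H1μ p L.fixingSubgroup),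
    ← AddMonoidHom.range_eq_top_of_surjective κ hκ, ← AddSubgroup.index_ker, ← index_range_pow L hζ,
    ← Subgroup.index_toAddSubgroup (H := (powMonoidHom p : Lˣ →* Lˣ).range)]
  congr 1
  ext x
  rw [AddMonoidHom.mem_ker]
  show kummer _ hp.pos (unitsEquivInv L x) = 0 ↔ _
  rw [kummer_eq_zero_iff hp.pos]
  constructor
  · rintro ⟨y, hy⟩
    obtain ⟨y, rfl⟩ := (unitsEquivInv L).surjective y
    rw [← map_nsmul] at hy
    exact ⟨y.toMul, congrArg Additive.toMul ((unitsEquivInv L).injective hy)⟩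
  · rintro ⟨y, hy⟩
    refine ⟨unitsEquivInv L (Additive.ofMul y), ?_⟩
    rw [← map_nsmul]
    exact congrArg _ (congrArg Additive.ofMul hy)

end Local

end Fermat.Agent.Duality

end
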